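import Fermat.Agent.GalRep.HeckeLattice
import Fermat.Agent.Kummer.Main

/-!
# The Hecke torsion datum of `J₀(N)`

`jZeroDatum` is the Galois action on `J₀(N)[pⁿ]` in the coordinates of the lattice of parabolic
homomorphisms, given the reduction properties `TorsionReduction` of the torsion.
-/

set_option autoImplicit false

noncomputable section

namespace Fermat.Agent.GalRep

open ModularCurve AlgebraicCurve CongruenceSubgroup Matrix
open Fermat.Agent.Cosets Fermat.Agent.Periods Fermat.Agent.Kummer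

local notation "ℚbar" => AlgebraicClosure ℚ
local notation "Γℚbar" => AlgebraicClosure ℚ ≃ₐ[ℚ] AlgebraicClosure ℚ

variable (N : ℕ) [NeZero N] (p : ℕ)

/-- At a prime `ℓ ∤ N p`, inertia fixes the `p`-power torsion of `J₀(N)` and Frobenius satisfies
the congruence relation with the Hecke operator. -/
def TorsionReduction : Prop :=
  ∀ (ℓ : ℕ) (hℓ : ℓ.Prime), ¬ ℓ ∣ N * p →
    ∀ A : ValuationSubring ℚbar, A.LiesOverPrime ℓ →
      (∀ σ ∈ A.inertiaSubgroupIn ℚ, ∀ x : JZero N, (∃ n : ℕ, p ^ n • x = 0) → σ • x = x) ∧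
      (∀ σ : Γℚbar, A.IsFrobeniusAt σ ℓ → ∀ x : JZero N, (∃ n : ℕ, p ^ n • x = 0) →
        σ • σ • x - heckeOperatorBar N ⟨ℓ, hℓ⟩ (σ • x) + ℓ • x = 0)

omit [NeZero N] in
theorem galois_zero (σ : Γℚbar) : σ • (0 : JZero N) = 0 :=
  (DistribSMul.toAddMonoidHom (JZero N) σ).map_zero

omit [NeZero N] in
theorem galois_nsmul (σ : Γℚbar) (m : ℕ) (x : JZero N) : σ • (m • x) = m • (σ • x) :=
  map_nsmul (DistribSMul.toAddMonoidHom (JZero N) σ) m x

/-- A quadratic relation on an abelian group, read in matrices through a coordinate map. -/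
theorem quadratic_mulVec_eq_zero {M J : Type*} [AddCommGroup M] [AddCommGroup J] {d n : ℕ}
    (j : M →+ J) (hj : Function.Injective j) (e : M →+ (Fin d → ZMod n))
    (A B : Matrix (Fin d) (Fin d) (ZMod n)) (R Q : M → M) (R' Q' : J → J)
    (hA : ∀ x, A *ᵥ e x = e (R x)) (hB : ∀ x, e (Q x) = B *ᵥ e x)
    (hR : ∀ x, j (R x) = R' (j x)) (hQ : ∀ x, j (Q x) = Q' (j x)) (ℓ : ℕ) (x : M)
    (h : R' (R' (j x)) - Q' (R' (j x)) + ℓ • j x = 0) :
    (A * A - B * A + (ℓ : Matrix (Fin d) (Fin d) (ZMod n))) *ᵥ e x = 0 := by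
  have h0 : R (R x) - Q (R x) + ℓ • x = 0 := hj (by
    rw [map_add, map_sub, map_nsmul, map_zero, hR, hR, hQ, hR]
    exact h)
  have hℓ : (ℓ : Matrix (Fin d) (Fin d) (ZMod n)) *ᵥ e x = ℓ • e x := by
    rw [← Matrix.diagonal_natCast]
    funext i
    rw [Matrix.mulVec_diagonal, Pi.smul_apply, nsmul_eq_mul]
  rw [Matrix.add_mulVec, Matrix.sub_mulVec, ← Matrix.mulVec_mulVec, ← Matrix.mulVec_mulVec,
    hA, hA, ← hB, hℓ, ← map_sub, ← map_nsmul, ← map_add, h0, map_zero]

/-! ### Coordinates on the torsion -/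

section Coordinates

variable (n : ℕ) [NeZero n]

/-- The torsion in lattice coordinates. -/
def torsCoord : Tors N n ≃ₗ[ZMod n] (Fin (homRank N) → ZMod n) :=
  let e : Tors N n ≃+ (Fin (homRank N) → ZMod n) :=
    (kummer N n).trans (parCoord N (ZMod n) (ZMod n)).symm.toAddEquiv
  { e with map_smul' := fun c x => ZMod.map_smul e.toAddMonoidHom c x }

theorem parCoord_torsCoord (x : Tors N n) :
    parCoord N (ZMod n) (ZMod n) (torsCoord N n x) = kummer N n x :=
  (parCoord N (ZMod n) (ZMod n)).apply_symm_apply _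

/-- The Galois action on the torsion as matrices. -/
def torsRho : Γℚbar →* Matrix (Fin (homRank N)) (Fin (homRank N)) (ZMod n) :=
  (LinearMap.toMatrixAlgEquiv' (R := ZMod n) (n := Fin (homRank N))).toMonoidHom.comp
    ((torsCoord N n).conjRingEquiv.toMonoidHom.comp (JZero.torsionGaloisRep N n))

theorem torsRho_mulVec (σ : Γℚbar) (x : Tors N n) :
    torsRho N n σ *ᵥ torsCoord N n x = torsCoord N n (JZero.torsionGaloisRep N n σ x) := by
  show LinearMap.toMatrixAlgEquiv' ((torsCoord N n).conj (JZero.torsionGaloisRep N n σ)) *ᵥ _ = _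
  rw [← Matrix.toLinAlgEquiv'_apply, Matrix.toLinAlgEquiv'_toMatrixAlgEquiv']
  simp [LinearEquiv.conj_apply]

theorem torsRho_finiteLevel : GaloisFactorsThroughFiniteLevel (torsRho N n) := by
  obtain ⟨L, hL, h⟩ := torsion_finiteLevel N n
  exact ⟨L, hL, fun σ hσ => by
    rw [torsRho, MonoidHom.comp_apply, MonoidHom.comp_apply, h σ hσ, map_one, map_one]⟩

theorem ext_of_mulVec_torsCoord {M M' : Matrix (Fin (homRank N)) (Fin (homRank N)) (ZMod n)}
    (h : ∀ x : Tors N n, M *ᵥ torsCoord N n x = M' *ᵥ torsCoord N n x) : M = M' :=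
  Matrix.ext_of_mulVec_single fun i => by
    obtain ⟨x, hx⟩ := (torsCoord N n).surjective (Pi.single i 1)
    rw [← hx, h x]

omit [NeZero n] in
theorem hecke_mem_tors (q : Nat.Primes) {x : JZero N} (hx : x ∈ Tors N n) :
    heckeOperatorBar N q x ∈ Tors N n := by
  rw [Pic0.mem_torsion] at hx ⊢
  rw [← map_zsmul, hx, map_zero]

/-- `heckeOperatorBar` restricted to the torsion. -/
def torsHecke (q : Nat.Primes) (x : Tors N n) : Tors N n :=
  ⟨heckeOperatorBar N q (x : JZero N), hecke_mem_tors N n q x.2⟩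

theorem torsCoord_torsHecke (q : Nat.Primes) (x : Tors N n) :
    torsCoord N n (torsHecke N n q x) =
      (heckeMat N q).map (Int.cast : ℤ → ZMod n) *ᵥ torsCoord N n x := by
  apply (parCoord N (ZMod n) (ZMod n)).injective
  apply Subtype.ext
  rw [← heckeHomAt_parCoord_mulVec, parCoord_torsCoord, parCoord_torsCoord]
  by_cases h : (q : ℕ) ∣ N
  · rw [heckeHomAt_of_dvd N (ZMod n) (ZMod n) q h]
    exact kummer_heckeU N q h x _ rfl
  · rw [heckeHomAt_of_not_dvd N (ZMod n) (ZMod n) q h]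
    exact kummer_heckeT N q h x _ rfl

theorem torsRho_commute (σ : Γℚbar) (q : Nat.Primes) :
    Commute (torsRho N n σ) ((heckeMat N q).map (Int.cast : ℤ → ZMod n)) := by
  refine ext_of_mulVec_torsCoord N n fun x => ?_
  rw [← Matrix.mulVec_mulVec, ← Matrix.mulVec_mulVec, ← torsCoord_torsHecke, torsRho_mulVec,
    torsRho_mulVec, ← torsCoord_torsHecke]
  refine congrArg _ (Subtype.ext ?_)
  rw [JZero.coe_torsionGaloisRep_apply]
  exact (heckeOperatorBar_galois N q σ x).symm

omit [NeZero N] [NeZero n] in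
theorem nsmul_eq_zero_of_mem {x : JZero N} (hx : x ∈ Tors N n) : n • x = 0 :=
  (natCast_zsmul x n).symm.trans (Pic0.mem_torsion.mp hx)

theorem torsRho_eq_one (σ : Γℚbar) (h : ∀ x : JZero N, n • x = 0 → σ • x = x) :
    torsRho N n σ = 1 := by
  refine ext_of_mulVec_torsCoord N n fun x => ?_
  rw [torsRho_mulVec, Matrix.one_mulVec]
  exact congrArg _ (Subtype.ext ((JZero.coe_torsionGaloisRep_apply N σ x).trans
    (h _ (nsmul_eq_zero_of_mem N n x.2))))

theorem torsRho_quadratic (σ : Γℚbar) (q : Nat.Primes) (ℓ : ℕ)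
    (h : ∀ x : JZero N, n • x = 0 →
      σ • σ • x - heckeOperatorBar N q (σ • x) + ℓ • x = 0) :
    torsRho N n σ * torsRho N n σ - (heckeMat N q).map (Int.cast : ℤ → ZMod n) * torsRho N n σ
      + (ℓ : Matrix (Fin (homRank N)) (Fin (homRank N)) (ZMod n)) = 0 := by
  refine ext_of_mulVec_torsCoord N n fun x => ?_
  rw [Matrix.zero_mulVec]
  exact quadratic_mulVec_eq_zero (Tors N n).subtype Subtype.val_injective
    (torsCoord N n).toLinearMap.toAddMonoidHom (torsRho N n σ)
    ((heckeMat N q).map (Int.cast : ℤ → ZMod n)) (fun y => JZero.torsionGaloisRep N n σ y)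
    (fun y => torsHecke N n q y) (fun y => σ • y) (fun y => heckeOperatorBar N q y)
    (fun y => torsRho_mulVec N n σ y) (fun y => torsCoord_torsHecke N n q y)
    (fun y => JZero.coe_torsionGaloisRep_apply N σ y) (fun y => rfl) ℓ x
    (h _ (nsmul_eq_zero_of_mem N n x.2))

end Coordinates

theorem torsCoord_reduction {n m n' : ℕ} [NeZero n] [NeZero n'] (h : n * m = n') (x : Tors N n')
    (y : Tors N n) (hy : (y : JZero N) = m • (x : JZero N)) :
    torsCoord N n y = (ZMod.castHom (Dvd.intro m h) (ZMod n)) ∘ torsCoord N n' x := by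
  apply (parCoord N (ZMod n) (ZMod n)).injective
  rw [parCoord_torsCoord]
  refine Subtype.ext (AddMonoidHom.ext fun γ => ?_)
  rw [kummer_mul N h x y hy γ, ← parCoord_torsCoord, ← ofMul_toMul γ, parCoord_apply,
    parCoord_apply, map_sum]
  exact Finset.sum_congr rfl fun j _ => map_zsmul _ _ _

theorem torsRho_cast [NeZero p] (n : ℕ) (σ : Γℚbar) :
    (torsRho N (p ^ (n + 1)) σ).map (ZMod.castHom (pow_dvd_pow p n.le_succ) (ZMod (p ^ n))) =
      torsRho N (p ^ n) σ := by
  set c := ZMod.castHom (pow_dvd_pow p n.le_succ) (ZMod (p ^ n))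
  refine Matrix.ext_of_mulVec_single fun i => ?_
  obtain ⟨x, hx⟩ := (torsCoord N (p ^ (n + 1))).surjective (Pi.single i 1)
  have hmem : p • (x : JZero N) ∈ Tors N (p ^ n) := by
    have h := Pic0.mem_torsion.mp x.2
    rw [natCast_zsmul] at h
    rw [Pic0.mem_torsion, natCast_zsmul, smul_smul, ← pow_succ]
    exact h
  let y : Tors N (p ^ n) := ⟨p • (x : JZero N), hmem⟩
  have hy : torsCoord N (p ^ n) y = c ∘ torsCoord N (p ^ (n + 1)) x :=
    torsCoord_reduction N (pow_succ p n).symm x y rfl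
  have hsy : torsCoord N (p ^ n) (JZero.torsionGaloisRep N (p ^ n) σ y) =
      c ∘ torsCoord N (p ^ (n + 1)) (JZero.torsionGaloisRep N (p ^ (n + 1)) σ x) :=
    torsCoord_reduction N (pow_succ p n).symm _ _ (by
      rw [JZero.coe_torsionGaloisRep_apply, JZero.coe_torsionGaloisRep_apply]
      exact galois_nsmul N σ p (x : JZero N))
  have hsingle : (Pi.single i 1 : Fin (homRank N) → ZMod (p ^ n)) = c ∘ Pi.single i 1 :=
    funext fun j => by
      rcases eq_or_ne j i with rfl | hj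
      · simp
      · simp [hj]
  rw [hsingle, ← hx, ← hy, torsRho_mulVec, hsy, ← torsRho_mulVec, hy]
  funext j
  exact (RingHom.map_mulVec c _ _ j).symm

/-- The Hecke torsion datum of `J₀(N)`. -/
def jZeroDatum [NeZero p] (h : TorsionReduction N p) : HeckeTorsionDatum N p where
  d := homRank N
  t := heckeMat N
  hecke := latticeMat N
  hecke_injective := latticeMat_injective N
  hecke_heckeOp := latticeMat_heckeOp N
  eigen_pos := heckeMat_eigen_pos N
  eigen_le := heckeMat_eigen_le N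
  ρ n := torsRho N (p ^ n)
  cast_ρ := torsRho_cast N p
  finiteLevel n := torsRho_finiteLevel N (p ^ n)
  commute n := torsRho_commute N (p ^ n)
  unramified n q hq hqN A hA σ hσ :=
    torsRho_eq_one N (p ^ n) σ fun x hx => (h q hq hqN A hA).1 σ hσ x ⟨n, hx⟩
  quadratic n ℓ hℓ hℓN A hA σ hσ :=
    torsRho_quadratic N (p ^ n) σ ⟨ℓ, hℓ⟩ ℓ fun x hx => (h ℓ hℓ hℓN A hA).2 σ hσ x ⟨n, hx⟩

end Fermat.Agent.GalRep
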