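import Mathlib
import Fermat.Prelude.Thm_Algebra_finite_maximalSpectrum_and_bijective_localization_of_module_finite
import Fermat.Prelude.Thm_IsLocalRing_isAdicComplete_of_module_finite

/-!
# Coefficient rings

Finite extensions of complete discrete valuation rings, the canonical map `ℤ_p → 𝒪`
(`padicHom`), and `p`-adic limits of compatible systems of matrices (`exists_padic_lift`).
-/

set_option autoImplicit false

noncomputable section

namespace Fermat.Agent.GalRep

open IsLocalRing

/-- A domain which is finite over a complete Noetherian local ring is local. -/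
theorem isLocalRing_of_finite_domain {R : Type} [CommRing R] [IsLocalRing R] [IsNoetherianRing R]
    [IsAdicComplete (maximalIdeal R) R] (B : Type) [CommRing B] [IsDomain B] [Algebra R B]
    [Module.Finite R B] : IsLocalRing B := by
  classical
  obtain ⟨hfin, hbij, -, -⟩ :=
    Algebra.finite_maximalSpectrum_and_bijective_localization_of_module_finite (𝒪 := R) B
  obtain ⟨M, hM⟩ := Ideal.exists_maximal B
  refine IsLocalRing.of_unique_max_ideal ⟨M, hM, fun M' hM' => ?_⟩
  by_contra hne
  obtain ⟨a, ha⟩ := hbij.2 (Pi.single (⟨M, hM⟩ : MaximalSpectrum B) 1)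
  obtain ⟨b, hb⟩ := hbij.2 (Pi.single (⟨M', hM'⟩ : MaximalSpectrum B) 1)
  have hab : a * b = 0 := hbij.1 (by
    rw [map_mul, ha, hb, map_zero]
    funext I
    by_cases hI : I = ⟨M, hM⟩
    · subst hI
      rw [Pi.mul_apply, Pi.single_eq_of_ne (i := (⟨M', hM'⟩ : MaximalSpectrum B))]
      · simp
      · exact fun h => hne (congrArg MaximalSpectrum.asIdeal h).symm
    · simp [Pi.mul_apply, Pi.single_eq_of_ne hI])
  have hne0 : ∀ (J : MaximalSpectrum B) (c : B),
      RingHom.pi (fun I : MaximalSpectrum B =>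
        algebraMap B (Localization.AtPrime I.asIdeal)) c = Pi.single J 1 → c ≠ 0 := by
    rintro J c hc rfl
    have := congrFun hc J
    simp at this
  exact (mul_eq_zero.mp hab).elim (hne0 _ a ha) (hne0 _ b hb)

section Extension

variable {R : Type} [CommRing R] [IsDomain R] [IsDiscreteValuationRing R]
  [IsAdicComplete (maximalIdeal R) R] (B : Type) [CommRing B] [IsDomain B] [Algebra R B]
  [Module.Finite R B]

omit [IsDomain R] [IsDiscreteValuationRing R] [IsAdicComplete (maximalIdeal R) R] [IsDomain B] in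
theorem isLocalHom_of_finite (hinj : Function.Injective (algebraMap R B)) :
    IsLocalHom (algebraMap R B) :=
  haveI := Algebra.IsIntegral.of_finite R B
  RingHom.IsIntegral.isLocalHom (Algebra.IsIntegral.isIntegral) hinj

omit [IsAdicComplete (maximalIdeal R) R] [IsDomain B] in
theorem finite_residueField [IsLocalRing B] [IsLocalHom (algebraMap R B)]
    [Finite (ResidueField R)] : Finite (ResidueField B) :=
  haveI : Module.Finite (ResidueField R) (ResidueField B) := inferInstance
  Module.finite_of_finite (ResidueField R)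

end Extension

section PadicInt

variable (p : ℕ) [Fact p.Prime] (O : Type) [CommRing O] [IsLocalRing O]
  [IsAdicComplete (maximalIdeal O) O]

/-- The maps `ℤ_p → 𝒪/𝔪ⁿ`. -/
def padicToQuot (hp : (p : O) ∈ maximalIdeal O) (n : ℕ) : ℤ_[p] →+* O ⧸ maximalIdeal O ^ n :=
  haveI := ringChar.charP (O ⧸ maximalIdeal O ^ n)
  (ZMod.castHom (n := p ^ n) (m := ringChar (O ⧸ maximalIdeal O ^ n)) (ringChar.dvd (by
    rw [Nat.cast_pow, ← map_natCast (Ideal.Quotient.mk _), ← map_pow,
      Ideal.Quotient.eq_zero_iff_mem]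
    exact Ideal.pow_mem_pow hp n)) (O ⧸ maximalIdeal O ^ n)).comp (PadicInt.toZModPow n)

omit [IsAdicComplete (maximalIdeal O) O] in
theorem factorPow_padicToQuot (hp : (p : O) ∈ maximalIdeal O) {m n : ℕ} (h : m ≤ n) :
    (Ideal.Quotient.factorPow (maximalIdeal O) h).comp (padicToQuot p O hp n) =
      padicToQuot p O hp m := by
  unfold padicToQuot
  rw [← PadicInt.zmod_cast_comp_toZModPow m n h, ← RingHom.comp_assoc, ← RingHom.comp_assoc]
  congr 1
  exact Subsingleton.elim _ _

/-- The canonical map `ℤ_p → 𝒪`. -/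
def padicHom (hp : (p : O) ∈ maximalIdeal O) : ℤ_[p] →+* O :=
  IsAdicComplete.liftRingHom (maximalIdeal O) (padicToQuot p O hp)
    (fun {_ _} h => factorPow_padicToQuot p O hp h)

theorem mk_padicHom (hp : (p : O) ∈ maximalIdeal O) (n : ℕ) (x : ℤ_[p]) :
    Ideal.Quotient.mk _ (padicHom p O hp x) = padicToQuot p O hp n x := by
  simp [padicHom]

/-- `padicHom` sends `pⁿℤ_p` into `𝔪ⁿ`. -/
theorem padicHom_mem_pow (hp : (p : O) ∈ maximalIdeal O) {n : ℕ} {x : ℤ_[p]}
    (hx : PadicInt.toZModPow n x = 0) : padicHom p O hp x ∈ maximalIdeal O ^ n := by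
  rw [← Ideal.Quotient.eq_zero_iff_mem, mk_padicHom, padicToQuot, RingHom.comp_apply, hx, map_zero]

end PadicInt

section Limit

variable {p : ℕ} [Fact p.Prime]

theorem exists_toZModPow_eq (a : ∀ n, ZMod (p ^ n))
    (ha : ∀ n, ZMod.castHom (pow_dvd_pow p n.le_succ) (ZMod (p ^ n)) (a (n + 1)) = a n) :
    ∃ x : ℤ_[p], ∀ n, PadicInt.toZModPow n x = a n := by
  have hi : ∀ i, (p : ℤ) ^ i ∣ ((a (i + 1)).val : ℤ) - (a i).val := fun i => by
    rw [← Nat.cast_pow, ← ZMod.intCast_eq_intCast_iff_dvd_sub, Int.cast_natCast, Int.cast_natCast,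
      ZMod.natCast_zmod_val, ← ha i, ZMod.castHom_apply, ZMod.natCast_val]
  exact ⟨_, fun n => (PadicInt.toZModPow_ofIntSeq_of_pow_dvd_sub
    (fun i => ((a i).val : ℤ)) p hi n).trans (by simp)⟩

variable {d : Type*} [Fintype d] [DecidableEq d] {G : Type*} [Monoid G]

/-- A compatible family of representations mod `pⁿ` has a limit over `ℤ_p`. -/
theorem exists_padic_lift (ρ : ∀ n : ℕ, G →* Matrix d d (ZMod (p ^ n)))
    (hρ : ∀ (n : ℕ) (σ : G),
      (ρ (n + 1) σ).map (ZMod.castHom (pow_dvd_pow p n.le_succ) (ZMod (p ^ n))) = ρ n σ) :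
    ∃ R : G →* Matrix d d ℤ_[p], ∀ n σ, (PadicInt.toZModPow n).mapMatrix (R σ) = ρ n σ := by
  choose x hx using fun σ i j => exists_toZModPow_eq (fun n => ρ n σ i j)
    (fun n => congrFun (congrFun (hρ n σ) i) j)
  let R : G → Matrix d d ℤ_[p] := fun σ => Matrix.of (x σ)
  have hR : ∀ n σ, (PadicInt.toZModPow n).mapMatrix (R σ) = ρ n σ := fun n σ =>
    Matrix.ext fun i j => hx σ i j n
  have hext : ∀ A B : Matrix d d ℤ_[p],
      (∀ n, (PadicInt.toZModPow n).mapMatrix A = (PadicInt.toZModPow n).mapMatrix B) → A = B :=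
    fun A B h => Matrix.ext fun i j => PadicInt.ext_of_toZModPow.mp fun n =>
      congrFun (congrFun (h n) i) j
  exact ⟨{ toFun := R
           map_one' := hext _ _ fun n => by rw [hR, map_one, map_one]
           map_mul' := fun σ τ => hext _ _ fun n => by rw [hR, map_mul, map_mul, hR, hR] }, hR⟩

end Limit

end Fermat.Agent.GalRep
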