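import Mathlib
import Fermat.Agent.Gal.Frobenius
import Fermat.Agent.Density.Places
import Fermat.Agent.GalRep.Coeff
import Fermat.Prelude.Def_GaloisRep_Adic

/-!
# Normalising the characteristic polynomial of Frobenius

`exists_rep_charpoly`: from "every Frobenius satisfies `σ² - aσ + ℓ = 0`" to "the characteristic
polynomial of every Frobenius is `X² - aX + ℓ`", for representations of rank at most two over a
discrete valuation ring.
-/

set_option autoImplicit false

noncomputable section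

namespace Fermat.Agent.GalRep

open IsLocalRing Polynomial

local notation "ℚbar" => AlgebraicClosure ℚ
local notation "Γℚbar" => AlgebraicClosure ℚ ≃ₐ[ℚ] AlgebraicClosure ℚ

/-- Elements of inertia at `q` fix roots of unity of order prime to `q`. -/
theorem inertia_apply_rootOfUnity {q m : ℕ} (hq : q.Prime) (hm : ¬ q ∣ m)
    {A : ValuationSubring ℚbar} (hA : A.LiesOverPrime q) {σ : Γℚbar}
    (hσ : σ ∈ A.inertiaSubgroupIn ℚ) {ζ : ℚbar} (hζ : ζ ^ m = 1) : σ ζ = ζ := by
  obtain ⟨φ, hφ⟩ := Gal.exists_isFrobeniusAt hq hA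
  have h1 := Gal.apply_rootOfUnity_of_isFrobeniusAt hφ hq hA hm hζ
  have h2 := Gal.apply_rootOfUnity_of_isFrobeniusAt (Gal.isFrobeniusAt_mul_inertia hφ hσ)
    hq hA hm hζ
  exact φ.injective (h2.trans h1.symm)

section Cyclotomic

variable (p : ℕ) [Fact p.Prime]

/-- The `p`-adic cyclotomic character of the absolute Galois group of `ℚ`. -/
def cycl : Γℚbar →* ℤ_[p] :=
  (Units.coeHom ℤ_[p]).comp
    ((cyclotomicCharacter ℚbar p).comp (MulSemiringAction.toRingAut Γℚbar ℚbar))

theorem toZModPow_cycl (σ : Γℚbar) (n c : ℕ)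
    (h : ∀ μ : ℚbar, μ ^ p ^ n = 1 → σ μ = μ ^ c) :
    PadicInt.toZModPow n (cycl p σ) = c := by
  obtain ⟨ζ, hζ⟩ := HasEnoughRootsOfUnity.exists_primitiveRoot ℚbar (p ^ n)
  have h1 : σ ζ = ζ ^ ((PadicInt.toZModPow n (cycl p σ))).val :=
    cyclotomicCharacter.spec p (MulSemiringAction.toRingAut Γℚbar ℚbar σ) ζ hζ.pow_eq_one
  have h2 := (h ζ hζ.pow_eq_one).symm.trans h1
  have h3 : ζ ^ (c % p ^ n) = ζ ^ ((PadicInt.toZModPow n (cycl p σ))).val := by
    rw [← h2, hζ.eq_orderOf, pow_mod_orderOf]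
  have h4 := hζ.pow_inj (Nat.mod_lt _ (Nat.pos_of_neZero _)) (ZMod.val_lt _) h3
  rw [← ZMod.natCast_zmod_val (PadicInt.toZModPow n (cycl p σ)), ← h4, ZMod.natCast_mod]

theorem cycl_frobenius {ℓ : ℕ} (hℓ : ℓ.Prime) (hℓp : ℓ ≠ p) {A : ValuationSubring ℚbar}
    (hA : A.LiesOverPrime ℓ) {σ : Γℚbar} (hσ : A.IsFrobeniusAt σ ℓ) : cycl p σ = ℓ := by
  refine PadicInt.ext_of_toZModPow.mp fun n => ?_
  rw [map_natCast]
  refine toZModPow_cycl p σ n ℓ fun μ hμ =>
    Gal.apply_rootOfUnity_of_isFrobeniusAt hσ hℓ hA (fun hd => hℓp ?_) hμ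
  exact (Nat.prime_dvd_prime_iff_eq hℓ Fact.out).mp (hℓ.dvd_of_dvd_pow hd)

theorem cycl_inertia {q : ℕ} (hq : q.Prime) (hqp : q ≠ p) {A : ValuationSubring ℚbar}
    (hA : A.LiesOverPrime q) {σ : Γℚbar} (hσ : σ ∈ A.inertiaSubgroupIn ℚ) : cycl p σ = 1 := by
  refine PadicInt.ext_of_toZModPow.mp fun n => ?_
  rw [map_one, ← Nat.cast_one]
  refine toZModPow_cycl p σ n 1 fun μ hμ => ?_
  rw [pow_one]
  exact inertia_apply_rootOfUnity hq
    (fun hd => hqp ((Nat.prime_dvd_prime_iff_eq hq Fact.out).mp (hq.dvd_of_dvd_pow hd))) hA hσ hμ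

theorem cycl_finiteLevel (n : ℕ) :
    ∃ L : IntermediateField ℚ ℚbar, FiniteDimensional ℚ L ∧
      ∀ σ : Γℚbar, (∀ x ∈ L, σ x = x) → PadicInt.toZModPow n (cycl p σ) = 1 := by
  obtain ⟨ζ, hζ⟩ := HasEnoughRootsOfUnity.exists_primitiveRoot ℚbar (p ^ n)
  refine ⟨IntermediateField.adjoin ℚ {ζ}, IntermediateField.adjoin.finiteDimensional
    ((hζ.isIntegral (Nat.pos_of_neZero _)).tower_top), fun σ hσ => ?_⟩
  rw [← Nat.cast_one]
  refine toZModPow_cycl p σ n 1 fun μ hμ => ?_
  obtain ⟨i, -, rfl⟩ := hζ.eq_pow_of_pow_eq_one hμ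
  rw [map_pow, pow_one, hσ ζ (IntermediateField.mem_adjoin_simple_self ℚ ζ)]

end Cyclotomic

variable {O : Type} [CommRing O] [IsLocalRing O]

/-- Continuity of a matrix representation for the adic topology. -/
def MatrixContinuous {r : Type*} [Fintype r] [DecidableEq r]
    (R : Γℚbar →* Matrix r r O) : Prop :=
  ∀ n : ℕ, ∃ L : IntermediateField ℚ ℚbar, FiniteDimensional ℚ L ∧
    ∀ σ : Γℚbar, (∀ x ∈ L, σ x = x) → ∀ i j, R σ i j - (1 : Matrix r r O) i j ∈ maximalIdeal O ^ n

/-- The representation attached to a continuous homomorphism to `2 × 2` matrices. -/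
def repOfMatrix (R : Γℚbar →* Matrix (Fin 2) (Fin 2) O) (hR : MatrixContinuous R) :
    GaloisRepAdic O where
  V := Fin 2 → O
  finrank_eq := Module.finrank_fin_fun O
  ρ := (Matrix.toLinAlgEquiv' (R := O) (n := Fin 2)).toAlgHom.toMonoidHom.comp R
  isAdicContinuous := by
    intro n
    obtain ⟨L, hL, h⟩ := hR n
    refine ⟨L, hL, fun σ hσ v => ?_⟩
    have hv : (R σ).mulVec v - v =
        ∑ i, ∑ j, ((R σ i j - (1 : Matrix (Fin 2) (Fin 2) O) i j) * v j) • Pi.single i (1 : O) := by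
      funext i
      simp [Fin.sum_univ_two, Pi.single_apply]
      fin_cases i <;> simp <;> ring
    change (R σ).mulVec v - v ∈ _
    rw [hv]
    refine sum_mem fun i _ => sum_mem fun j _ => Submodule.smul_mem_smul ?_ Submodule.mem_top
    exact Ideal.mul_mem_right _ _ (h σ hσ i j)

theorem repOfMatrix_charpoly (R : Γℚbar →* Matrix (Fin 2) (Fin 2) O) (hR : MatrixContinuous R)
    (σ : Γℚbar) : LinearMap.charpoly ((repOfMatrix R hR).ρ σ) = (R σ).charpoly :=
  Matrix.charpoly_toLin' (R σ)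

theorem repOfMatrix_apply_eq_one (R : Γℚbar →* Matrix (Fin 2) (Fin 2) O) (hR : MatrixContinuous R)
    {σ : Γℚbar} (h : R σ = 1) : (repOfMatrix R hR).ρ σ = 1 := by
  change Matrix.toLinAlgEquiv' (R σ) = 1
  rw [h, map_one]

omit [IsLocalRing O] in
theorem sub_mem_of_congr {r : Type*} [Fintype r] [DecidableEq r] (I : Ideal O)
    (R : Γℚbar →* Matrix r r O) {σ σ' : Γℚbar}
    (h : ∀ i j, R (σ'⁻¹ * σ) i j - (1 : Matrix r r O) i j ∈ I) :
    (Ideal.Quotient.mk I).mapMatrix (R σ) = (Ideal.Quotient.mk I).mapMatrix (R σ') := by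
  have h1 : (Ideal.Quotient.mk I).mapMatrix (R (σ'⁻¹ * σ)) = 1 := by
    rw [← map_one (Ideal.Quotient.mk I).mapMatrix]
    exact Matrix.ext fun i j => Ideal.Quotient.eq.mpr (h i j)
  rw [show σ = σ' * (σ'⁻¹ * σ) by group, map_mul, map_mul, h1, mul_one]

/-- Cayley–Hamilton: a non-scalar `2 × 2` matrix over a domain killed by `X² - aX + c` has this
characteristic polynomial. -/
theorem scalar_or_trace_det {B : Type*} [CommRing B] [IsDomain B] (M : Matrix (Fin 2) (Fin 2) B)
    (a c : B) (h : M * M - a • M + c • (1 : Matrix (Fin 2) (Fin 2) B) = 0) :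
    (∃ z : B, M = z • (1 : Matrix (Fin 2) (Fin 2) B)) ∨ (M.trace = a ∧ M.det = c) := by
  have e00 := congrFun (congrFun h 0) 0
  have e01 := congrFun (congrFun h 0) 1
  have e10 := congrFun (congrFun h 1) 0
  have e11 := congrFun (congrFun h 1) 1
  simp [Matrix.mul_apply, Fin.sum_univ_two] at e00 e01 e10 e11
  by_cases hne : M 0 1 = 0 ∧ M 1 0 = 0 ∧ M 0 0 = M 1 1
  · obtain ⟨h01, h10, hd⟩ := hne
    left
    refine ⟨M 0 0, Matrix.ext fun i j => ?_⟩
    fin_cases i <;> fin_cases j <;> simp [h01, h10, hd]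
  right
  have htr : M 0 0 + M 1 1 = a := by
    by_contra htr
    refine hne ?_
    have hne' : M 0 0 + M 1 1 - a ≠ 0 := sub_ne_zero.mpr htr
    refine ⟨(mul_eq_zero.mp (show (M 0 0 + M 1 1 - a) * M 0 1 = 0 by
        linear_combination e01)).resolve_left hne',
      (mul_eq_zero.mp (show (M 0 0 + M 1 1 - a) * M 1 0 = 0 by
        linear_combination e10)).resolve_left hne', ?_⟩
    exact sub_eq_zero.mp ((mul_eq_zero.mp
      (show (M 0 0 + M 1 1 - a) * (M 0 0 - M 1 1) = 0 by
        linear_combination e00 - e11)).resolve_left hne')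
  refine ⟨by simp [Matrix.trace_fin_two, htr], ?_⟩
  rw [Matrix.det_fin_two]
  linear_combination -e00 + M 0 0 * htr

variable [IsDomain O] [IsAdicComplete (maximalIdeal O) O] {p : ℕ} [Fact p.Prime]

/-- The core normalisation statement. -/
theorem exists_rep_charpoly (hp : (p : O) ∈ maximalIdeal O)
    (hchar : ∀ n : ℕ, n ≠ 0 → (n : O) ≠ 0) {r : Type} [Fintype r] [DecidableEq r] [Nonempty r]
    (hr : Fintype.card r ≤ 2) (R : Γℚbar →* Matrix r r O) (hR : MatrixContinuous R)
    (S : Finset ℕ) (hpS : p ∈ S) (a : ℕ → O)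
    (hquad : ∀ ℓ : ℕ, ℓ.Prime → ℓ ∉ S → ∀ A : ValuationSubring ℚbar, A.LiesOverPrime ℓ →
      ∀ σ : Γℚbar, A.IsFrobeniusAt σ ℓ →
        R σ * R σ - a ℓ • R σ + (ℓ : O) • (1 : Matrix r r O) = 0) :
    ∃ ρ : GaloisRepAdic O,
      (∀ ℓ : ℕ, ℓ.Prime → ℓ ∉ S → ∀ A : ValuationSubring ℚbar, A.LiesOverPrime ℓ →
        ∀ σ : Γℚbar, A.IsFrobeniusAt σ ℓ →
          LinearMap.charpoly (ρ.ρ σ) = X ^ 2 - C (a ℓ) * X + C ((ℓ : O))) ∧
      ∀ σ : Γℚbar, R σ = 1 → cycl p σ = 1 → ρ.ρ σ = 1 := by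
  classical
  let χ : Γℚbar →* O := (padicHom p O hp).toMonoidHom.comp (cycl p)
  have hχ : ∀ ℓ : ℕ, ℓ.Prime → ℓ ∉ S → ∀ A : ValuationSubring ℚbar, A.LiesOverPrime ℓ →
      ∀ σ : Γℚbar, A.IsFrobeniusAt σ ℓ → χ σ = ℓ := fun ℓ hℓ hℓS A hA σ hσ => by
    change padicHom p O hp (cycl p σ) = _
    rw [cycl_frobenius p hℓ (fun h => hℓS (h ▸ hpS)) hA hσ, map_natCast]
  have hχc : ∀ n, ∃ L : IntermediateField ℚ ℚbar, FiniteDimensional ℚ L ∧
      ∀ σ : Γℚbar, (∀ x ∈ L, σ x = x) → χ σ - 1 ∈ maximalIdeal O ^ n := fun n => by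
    obtain ⟨L, hL, h⟩ := cycl_finiteLevel p n
    refine ⟨L, hL, fun σ hσ => ?_⟩
    change padicHom p O hp (cycl p σ) - 1 ∈ _
    rw [← map_one (padicHom p O hp), ← map_sub]
    exact padicHom_mem_pow p O hp (by rw [map_sub, h σ hσ, map_one, sub_self])
  have hχu : ∀ σ, IsUnit (χ σ) := fun σ => (Group.isUnit σ).map χ
  by_cases hall : ∀ σ, ∃ z : O, R σ = z • (1 : Matrix r r O)
  · -- every element is scalar: use `diag(λ, χ/λ)`
    obtain ⟨i₀⟩ := (inferInstance : Nonempty r)
    choose l hl using hall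
    have hl' : ∀ σ, R σ i₀ i₀ = l σ := fun σ => by rw [hl σ]; simp
    have hlmul : ∀ σ τ, l (σ * τ) = l σ * l τ := fun σ τ => by
      rw [← hl' (σ * τ), map_mul, hl σ, hl τ]
      simp [mul_comm]
    have hlone : l 1 = 1 := by rw [← hl' 1, map_one]; simp
    let lam : Γℚbar →* O := { toFun := l, map_one' := hlone, map_mul' := hlmul }
    let mu : Γℚbar →* O :=
      { toFun := fun σ => χ σ * lam σ⁻¹
        map_one' := by simp [hlone, lam]
        map_mul' := fun σ τ => by
          simp only [map_mul, mul_inv_rev]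
          ring }
    let R' : Γℚbar →* Matrix (Fin 2) (Fin 2) O :=
      { toFun := fun σ => Matrix.diagonal ![lam σ, mu σ]
        map_one' := by
          rw [map_one, map_one, ← Matrix.diagonal_one]
          congr 1
          funext i
          fin_cases i <;> rfl
        map_mul' := fun σ τ => by
          rw [Matrix.diagonal_mul_diagonal, map_mul, map_mul]
          congr 1
          funext i
          fin_cases i <;> rfl }
    have hR' : MatrixContinuous R' := fun n => by
      obtain ⟨L, hL, h⟩ := hR n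
      obtain ⟨L', hL', h'⟩ := hχc n
      refine ⟨L ⊔ L', IntermediateField.finiteDimensional_sup L L', fun σ hσ => ?_⟩
      have h1 : lam σ - 1 ∈ maximalIdeal O ^ n := by
        have := h σ (fun x hx => hσ x ((le_sup_left : L ≤ L ⊔ L') hx)) i₀ i₀
        rwa [hl', Matrix.one_apply_eq] at this
      have h2 : χ σ - 1 ∈ maximalIdeal O ^ n :=
        h' σ fun x hx => hσ x ((le_sup_right : L' ≤ L ⊔ L') hx)
      have h3 : mu σ - 1 ∈ maximalIdeal O ^ n := by
        have hinv : lam σ * lam σ⁻¹ = 1 := by rw [← map_mul, mul_inv_cancel, map_one]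
        change χ σ * lam σ⁻¹ - 1 ∈ _
        rw [show χ σ * lam σ⁻¹ - 1 = lam σ⁻¹ * ((χ σ - 1) - (lam σ - 1)) by
          linear_combination hinv]
        exact Ideal.mul_mem_left _ _ (sub_mem h2 h1)
      intro i j
      fin_cases i <;> fin_cases j <;> simp [R', h1, h3]
    refine ⟨repOfMatrix R' hR', fun ℓ hℓ hℓS A hA σ hσ => ?_, fun σ hσ hc => ?_⟩
    · have hq := hquad ℓ hℓ hℓS A hA σ hσ
      have he := congrFun (congrFun hq i₀) i₀
      rw [hl σ] at he
      simp at he
      have hinv : lam σ * lam σ⁻¹ = 1 := by rw [← map_mul, mul_inv_cancel, map_one]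
      have hsum : lam σ + mu σ = a ℓ := by
        change lam σ + χ σ * lam σ⁻¹ = a ℓ
        rw [hχ ℓ hℓ hℓS A hA σ hσ]
        have he' : lam σ * lam σ - a ℓ * lam σ + (ℓ : O) = 0 := he
        linear_combination lam σ⁻¹ * he' - (lam σ - a ℓ) * hinv
      have hprod : lam σ * mu σ = ℓ := by
        change lam σ * (χ σ * lam σ⁻¹) = _
        rw [hχ ℓ hℓ hℓS A hA σ hσ]
        linear_combination (ℓ : O) * hinv
      rw [repOfMatrix_charpoly, Matrix.charpoly_fin_two]
      simp [R', hsum, hprod]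
    · refine repOfMatrix_apply_eq_one R' hR' ?_
      have h1 : lam σ = 1 := by
        change l σ = 1
        rw [← hl', hσ, Matrix.one_apply_eq]
      have h2 : mu σ = 1 := by
        change χ σ * lam σ⁻¹ = 1
        have hinv : lam σ * lam σ⁻¹ = 1 := by rw [← map_mul, mul_inv_cancel, map_one]
        rw [h1, one_mul] at hinv
        rw [hinv, mul_one]
        change padicHom p O hp (cycl p σ) = 1
        rw [hc, map_one]
      change Matrix.diagonal ![lam σ, mu σ] = 1
      rw [h1, h2, ← Matrix.diagonal_one]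
      congr 1
      funext i
      fin_cases i <;> rfl
  · -- some element is not scalar: then the determinant is cyclotomic
    simp only [not_forall] at hall
    obtain ⟨τ₀, hτ₀⟩ := hall
    have hcard : Fintype.card r = 2 := by
      rcases Nat.lt_or_ge (Fintype.card r) 2 with h | h
      · have : Subsingleton r := Fintype.card_le_one_iff_subsingleton.mp (by omega)
        obtain ⟨i₀⟩ := (inferInstance : Nonempty r)
        exact absurd ⟨R τ₀ i₀ i₀, Matrix.ext fun i j => by
          rw [Subsingleton.elim i i₀, Subsingleton.elim j i₀]; simp⟩ hτ₀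
      · omega
    let e : r ≃ Fin 2 := Fintype.equivFinOfCardEq hcard
    let R₂ : Γℚbar →* Matrix (Fin 2) (Fin 2) O :=
      (Matrix.reindexAlgEquiv O O e).toAlgHom.toMonoidHom.comp R
    have hR₂ : MatrixContinuous R₂ := fun n => by
      obtain ⟨L, hL, h⟩ := hR n
      refine ⟨L, hL, fun σ hσ i j => ?_⟩
      have := h σ hσ (e.symm i) (e.symm j)
      simpa [R₂, Matrix.one_apply] using this
    have hq₂ : ∀ ℓ : ℕ, ℓ.Prime → ℓ ∉ S → ∀ A : ValuationSubring ℚbar, A.LiesOverPrime ℓ →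
        ∀ σ : Γℚbar, A.IsFrobeniusAt σ ℓ → (∃ z : O, R₂ σ = z • 1) ∨
          ((R₂ σ).trace = a ℓ ∧ (R₂ σ).det = ℓ) := fun ℓ hℓ hℓS A hA σ hσ => by
      refine scalar_or_trace_det _ _ _ ?_
      have := congrArg (Matrix.reindexAlgEquiv O O e) (hquad ℓ hℓ hℓS A hA σ hσ)
      simp only [map_add, map_sub, map_mul, map_smul, map_one, map_zero] at this
      exact this
    have hdet : ∀ (n : ℕ) (σ : Γℚbar),
        (∃ z : O ⧸ maximalIdeal O ^ n,
          (Ideal.Quotient.mk (maximalIdeal O ^ n)).mapMatrix (R₂ σ) = z • 1) ∨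
          Ideal.Quotient.mk (maximalIdeal O ^ n) (R₂ σ).det =
            Ideal.Quotient.mk (maximalIdeal O ^ n) (χ σ) := fun n σ => by
      obtain ⟨L, hL, h⟩ := hR₂ n
      obtain ⟨L', hL', h'⟩ := hχc n
      have : FiniteDimensional ℚ (L ⊔ L' : IntermediateField ℚ ℚbar) :=
        IntermediateField.finiteDimensional_sup L L'
      refine Density.forall_of_forall_frobenius (L ⊔ L') (fun σ =>
        (∃ z : O ⧸ maximalIdeal O ^ n,
          (Ideal.Quotient.mk (maximalIdeal O ^ n)).mapMatrix (R₂ σ) = z • 1) ∨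
          Ideal.Quotient.mk (maximalIdeal O ^ n) (R₂ σ).det =
            Ideal.Quotient.mk (maximalIdeal O ^ n) (χ σ)) ?_ ?_ ?_ (↑S) S.finite_toSet ?_ σ
      · intro σ σ' heq hP
        have hfix : ∀ x ∈ L ⊔ L', (σ'⁻¹ * σ) x = x := fun x hx => by
          rw [AlgEquiv.mul_apply, heq x hx, ← AlgEquiv.mul_apply, inv_mul_cancel,
            AlgEquiv.one_apply]
        have e1 := sub_mem_of_congr _ R₂
          (h (σ'⁻¹ * σ) fun x hx => hfix x ((le_sup_left : L ≤ L ⊔ L') hx))
        have e2 : Ideal.Quotient.mk (maximalIdeal O ^ n) (χ σ) =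
            Ideal.Quotient.mk (maximalIdeal O ^ n) (χ σ') := by
          have h3 := Ideal.Quotient.eq.mpr
            (h' (σ'⁻¹ * σ) fun x hx => hfix x ((le_sup_right : L' ≤ L ⊔ L') hx))
          rw [show σ = σ' * (σ'⁻¹ * σ) by group, map_mul, map_mul, h3, map_one, mul_one]
        rcases hP with ⟨z, hz⟩ | hd
        · exact Or.inl ⟨z, e1.trans hz⟩
        · right
          rw [RingHom.map_det, e1, ← RingHom.map_det, hd, e2]
      · intro g σ hP
        rcases hP with ⟨z, hz⟩ | hd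
        · refine Or.inl ⟨z, ?_⟩
          rw [map_mul, map_mul, map_mul, map_mul, hz, mul_smul_comm, mul_one, smul_mul_assoc,
            ← map_mul, ← map_mul, mul_inv_cancel, map_one, map_one]
        · right
          simp only [map_mul, Matrix.det_mul, hd]
          rw [mul_right_comm, mul_right_comm (Ideal.Quotient.mk _ (χ g)), ← map_mul, ← map_mul,
            ← map_mul, ← Matrix.det_mul, ← map_mul, ← map_mul, mul_inv_cancel, map_one,
            Matrix.det_one, one_mul, ← map_mul χ, mul_inv_cancel, map_one, one_mul]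
      · intro σ j hP
        rcases hP with ⟨z, hz⟩ | hd
        · exact Or.inl ⟨z ^ j, by rw [map_pow, map_pow, hz, _root_.smul_pow, one_pow]⟩
        · right
          simp only [map_pow, Matrix.det_pow, hd]
      · intro ℓ hℓ hℓS A hA σ hσ
        rcases hq₂ ℓ hℓ (by simpa using hℓS) A hA σ hσ with ⟨z, hz⟩ | ⟨-, hd⟩
        · left
          refine ⟨Ideal.Quotient.mk _ z, ?_⟩
          rw [hz]
          ext i j
          simp [Matrix.one_apply, apply_ite (Ideal.Quotient.mk (maximalIdeal O ^ n))]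
        · right
          rw [hd, hχ ℓ hℓ (by simpa using hℓS) A hA σ hσ]
    -- non-scalar elements have cyclotomic determinant
    have hnon : ∀ σ, (¬ ∃ z : O, R₂ σ = z • (1 : Matrix (Fin 2) (Fin 2) O)) → (R₂ σ).det = χ σ := by
      intro σ hσ
      have hk : ∃ k, ∀ n, k ≤ n →
          ¬ ∃ z : O ⧸ maximalIdeal O ^ n,
            (Ideal.Quotient.mk (maximalIdeal O ^ n)).mapMatrix (R₂ σ) = z • 1 := by
        by_contra hk
        simp only [not_exists, not_forall, not_not] at hk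
        have hmem : ∀ k, R₂ σ 0 1 ∈ maximalIdeal O ^ k ∧ R₂ σ 1 0 ∈ maximalIdeal O ^ k ∧
            R₂ σ 0 0 - R₂ σ 1 1 ∈ maximalIdeal O ^ k := fun k => by
          obtain ⟨n, hn, z, hz⟩ := hk k
          have hij : ∀ i j, Ideal.Quotient.mk (maximalIdeal O ^ n) (R₂ σ i j) =
              (z • (1 : Matrix (Fin 2) (Fin 2) _)) i j := fun i j => congrFun (congrFun hz i) j
          refine ⟨Ideal.pow_le_pow_right hn ?_, Ideal.pow_le_pow_right hn ?_,
            Ideal.pow_le_pow_right hn ?_⟩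
          · rw [← Ideal.Quotient.eq_zero_iff_mem, hij]; simp
          · rw [← Ideal.Quotient.eq_zero_iff_mem, hij]; simp
          · rw [← Ideal.Quotient.eq_zero_iff_mem, map_sub, hij, hij]; simp
        have hz : ∀ x : O, (∀ k, x ∈ maximalIdeal O ^ k) → x = 0 := fun x hx =>
          IsHausdorff.haus (inferInstance : IsHausdorff (maximalIdeal O) O) x fun k => by
            simpa [SModEq.zero] using hx k
        have h01 := hz _ fun k => (hmem k).1
        have h10 := hz _ fun k => (hmem k).2.1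
        have hdd := sub_eq_zero.mp (hz _ fun k => (hmem k).2.2)
        refine hσ ⟨R₂ σ 0 0, Matrix.ext fun i j => ?_⟩
        fin_cases i <;> fin_cases j <;> simp [h01, h10, hdd]
      obtain ⟨k, hk⟩ := hk
      refine IsHausdorff.eq_iff_smodEq (I := maximalIdeal O).mpr fun n => ?_
      have h := (hdet (max k n) σ).resolve_left (hk _ (le_max_left k n))
      rw [Ideal.Quotient.eq] at h
      rw [SModEq.sub_mem, smul_eq_mul, Ideal.mul_top]
      exact Ideal.pow_le_pow_right (le_max_right k n) h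
    have hτ₂ : ¬ ∃ z : O, R₂ τ₀ = z • (1 : Matrix (Fin 2) (Fin 2) O) := by
      rintro ⟨z, hz⟩
      refine hτ₀ ⟨z, (Matrix.reindexAlgEquiv O O e).injective ?_⟩
      rw [map_smul, map_one]
      exact hz
    have hcyc : ∀ σ, (R₂ σ).det = χ σ := by
      intro σ
      by_cases hσ : ∃ z : O, R₂ σ = z • (1 : Matrix (Fin 2) (Fin 2) O)
      swap; · exact hnon σ hσ
      obtain ⟨z, hz⟩ := hσ
      have hzu : IsUnit z := by
        have hu := (Matrix.isUnit_iff_isUnit_det _).mp ((Group.isUnit σ).map R₂)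
        rw [hz, Matrix.det_smul, Matrix.det_one, mul_one] at hu
        exact (isUnit_pow_iff (by simp)).mp hu
      have hne : ¬ ∃ w : O, R₂ (σ * τ₀) = w • (1 : Matrix (Fin 2) (Fin 2) O) := by
        rintro ⟨w, hw⟩
        refine hτ₂ ⟨↑hzu.unit⁻¹ * w, ?_⟩
        rw [map_mul, hz, smul_mul_assoc, one_mul] at hw
        rw [mul_smul, ← hw, smul_smul, IsUnit.val_inv_mul, one_smul]
      have h := hnon _ hne
      rw [map_mul, Matrix.det_mul, hnon τ₀ hτ₂, map_mul] at h
      exact (hχu τ₀).mul_right_cancel h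
    refine ⟨repOfMatrix R₂ hR₂, fun ℓ hℓ hℓS A hA σ hσ => ?_, fun σ hσ _ => ?_⟩
    · have hd : (R₂ σ).det = ℓ := (hcyc σ).trans (hχ ℓ hℓ hℓS A hA σ hσ)
      have ht : (R₂ σ).trace = a ℓ := by
        rcases hq₂ ℓ hℓ hℓS A hA σ hσ with ⟨z, hz⟩ | ⟨ht, -⟩
        · have he := congrFun (congrFun (congrArg (Matrix.reindexAlgEquiv O O e)
            (hquad ℓ hℓ hℓS A hA σ hσ)) 0) 0
          simp only [map_add, map_sub, map_mul, map_smul, map_one, map_zero] at he
          change (R₂ σ * R₂ σ - a ℓ • R₂ σ + (ℓ : O) • 1) 0 0 = 0 at he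
          rw [hz] at he hd ⊢
          simp at he hd
          simp
          have hz0 : z ≠ 0 := by
            rintro rfl
            exact hchar ℓ hℓ.ne_zero (by simpa using hd.symm)
          exact mul_left_cancel₀ hz0 (by linear_combination he + hd)
        · exact ht
      rw [repOfMatrix_charpoly, Matrix.charpoly_fin_two, ht, hd]
    · refine repOfMatrix_apply_eq_one R₂ hR₂ ?_
      change Matrix.reindexAlgEquiv O O e (R σ) = 1
      rw [hσ, map_one]

end Fermat.Agent.GalRep
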