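import Mathlib
import Fermat.Agent.GalRep.Coeff

/-!
# Extension of homomorphisms and integral closures

Extension of homomorphisms along integral extensions, and integral closures of complete discrete
valuation rings in finite extensions.
-/

set_option autoImplicit false

noncomputable section

namespace Fermat.Agent.GalRep

open IsLocalRing

/-- A homomorphism to an algebraically closed field extends along an injective integral map. -/
theorem exists_ringHom_extension {A B : Type*} [CommRing A] [CommRing B] {Ω : Type*} [Field Ω]
    [IsAlgClosed Ω] (i : A →+* B) (hi : Function.Injective i) (hint : i.IsIntegral) (f : A →+* Ω) :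
    ∃ g : B →+* Ω, g.comp i = f := by
  let : Algebra A B := i.toAlgebra
  have : Algebra.IsIntegral A B := ⟨hint⟩
  have : (RingHom.ker f).IsPrime := RingHom.ker_isPrime f
  obtain ⟨Q, -, hQ, hQP⟩ := Ideal.exists_ideal_over_prime_of_isIntegral (S := B) (RingHom.ker f) ⊥
    (by
      rw [RingHom.algebraMap_toAlgebra, Ideal.comap_bot_of_injective _ hi]
      exact bot_le)
  have := hQ
  have hP : Q.under A = RingHom.ker f := hQP
  let : Algebra (A ⧸ Q.under A) Ω := (Ideal.Quotient.lift (Q.under A) f fun a ha => by
    rw [hP] at ha
    exact ha).toAlgebra
  have : Algebra.IsAlgebraic (A ⧸ Q.under A) (B ⧸ Q) := Algebra.IsIntegral.isAlgebraic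
  have : (Q.under A).IsPrime := inferInstance
  have : IsDomain (A ⧸ Q.under A) := inferInstance
  have : IsDomain (B ⧸ Q) := Ideal.Quotient.isDomain Q
  have : Module.IsTorsionFree (A ⧸ Q.under A) (B ⧸ Q) :=
    Module.isTorsionFree_iff_algebraMap_injective.mpr Ideal.algebraMap_quotient_injective
  have : Module.IsTorsionFree (A ⧸ Q.under A) Ω :=
    Module.isTorsionFree_iff_algebraMap_injective.mpr
      (RingHom.lift_injective_of_ker_le_ideal (Q.under A) _ hP.ge)
  obtain ⟨g⟩ : Nonempty ((B ⧸ Q) →ₐ[A ⧸ Q.under A] Ω) := ⟨IsAlgClosed.lift⟩
  refine ⟨(g : (B ⧸ Q) →+* Ω).comp (Ideal.Quotient.mk Q), RingHom.ext fun a => ?_⟩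
  exact g.commutes (Ideal.Quotient.mk (Q.under A) a)

variable (R : Type) [CommRing R] [IsDomain R] [IsDiscreteValuationRing R]
  [IsAdicComplete (maximalIdeal R) R] [CharZero R]
variable (E : Type) [Field E] [Algebra R E] [Algebra (FractionRing R) E]
  [IsScalarTower R (FractionRing R) E] [FiniteDimensional (FractionRing R) E]

/-- The properties of the integral closure of a complete discrete valuation ring of characteristic
zero in a finite extension of its fraction field. -/
theorem integralClosure_properties :
    Module.Finite R (integralClosure R E) ∧
      IsDiscreteValuationRing (integralClosure R E) ∧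
      IsFractionRing (integralClosure R E) E ∧
      Function.Injective (algebraMap R (integralClosure R E)) ∧
      CharZero (integralClosure R E) := by
  have : CharZero (FractionRing R) :=
    charZero_of_injective_algebraMap (IsFractionRing.injective R (FractionRing R))
  have : Module.Finite R (integralClosure R E) :=
    IsIntegralClosure.finite R (FractionRing R) E (integralClosure R E)
  have : IsFractionRing (integralClosure R E) E :=
    integralClosure.isFractionRing_of_finite_extension (FractionRing R) E
  have hinj : Function.Injective (algebraMap R (integralClosure R E)) := by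
    intro x y hxy
    have := congrArg (Subtype.val) hxy
    change algebraMap R E x = algebraMap R E y at this
    rw [IsScalarTower.algebraMap_apply R (FractionRing R) E,
      IsScalarTower.algebraMap_apply R (FractionRing R) E] at this
    exact IsFractionRing.injective R (FractionRing R)
      ((algebraMap (FractionRing R) E).injective this)
  have : CharZero (integralClosure R E) := charZero_of_injective_algebraMap hinj
  have : IsDedekindDomain (integralClosure R E) :=
    IsIntegralClosure.isDedekindDomain R (FractionRing R) E (integralClosure R E)
  have : IsLocalRing (integralClosure R E) := isLocalRing_of_finite_domain (R := R) _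
  have hnf : ¬ IsField (integralClosure R E) := fun h => by
    have := Algebra.IsIntegral.of_finite R (integralClosure R E)
    exact IsDiscreteValuationRing.not_isField R
      ((Algebra.IsIntegral.isField_iff_isField hinj).mpr h)
  have hdvr : IsDiscreteValuationRing (integralClosure R E) :=
    ((IsDiscreteValuationRing.TFAE (integralClosure R E) hnf).out 0 2 :
      IsDiscreteValuationRing (integralClosure R E) ↔ IsDedekindDomain (integralClosure R E)).mpr
      inferInstance
  exact ⟨inferInstance, hdvr, inferInstance, hinj, inferInstance⟩

end Fermat.Agent.GalRep
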