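import Fermat.Agent.GalRep.Datum
import Fermat.Agent.GalRep.Extend

/-!
# Extension of points of the Hecke algebra

`exists_point_extension`: a point of the Hecke algebra away from `S` extends to the full Hecke
algebra in a finite extension of the coefficient ring.
-/

set_option autoImplicit false

noncomputable section

namespace Fermat.Agent.GalRep

open IsLocalRing CuspForm

variable {p : ℕ} {N : ℕ} [NeZero N]

/-- Extending a point to the full Hecke algebra in a larger coefficient ring, for an abstract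
algebraically closed field. -/
theorem exists_point_extension_aux (S : Finset ℕ)
    (O' : Type) [CommRing O'] [IsDomain O'] [IsDiscreteValuationRing O']
    [IsAdicComplete (maximalIdeal O') O'] [Finite (ResidueField O')] [CharZero O']
    (Ω : Type) [Field Ω] [IsAlgClosed Ω] [Algebra O' Ω] [Algebra (FractionRing O') Ω]
    [IsScalarTower O' (FractionRing O') Ω] [Module.Finite ℤ (heckeAlgebra N 2 ∅)]
    (hp : (p : O') ∈ maximalIdeal O') (χ : heckeAlgebra N 2 (↑S : Set ℕ) →+* O') :
    ∃ (O : Type) (_ : CommRing O) (_ : IsDomain O) (_ : IsDiscreteValuationRing O)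
      (_ : IsAdicComplete (maximalIdeal O) O) (_ : Finite (ResidueField O))
      (_ : CharZero O) (_ : Algebra O' O) (_ : Module.Finite O' O)
      (_ : IsLocalHom (algebraMap O' O)),
    Function.Injective (algebraMap O' O) ∧ (p : O) ∈ maximalIdeal O ∧
    ∃ κO : heckeAlgebra N 2 ∅ →+* O,
      ∀ (ℓ : ℕ) (hℓ : ℓ.Prime) (hℓN : ¬ ℓ ∣ N) (hℓS : ℓ ∉ (↑S : Set ℕ)),
        κO (heckeOp N ⟨ℓ, hℓ⟩) = algebraMap O' O (χ (heckeAlgebra.T hℓ hℓN hℓS)) := by
  classical
  let incl : heckeAlgebra N 2 (↑S : Set ℕ) →+* heckeAlgebra N 2 ∅ :=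
    (Subalgebra.inclusion (heckeAlgebra_mono (Set.empty_subset _))).toRingHom
  have hincl : Function.Injective incl :=
    Subalgebra.inclusion_injective (heckeAlgebra_mono (Set.empty_subset _))
  have hint : incl.IsIntegral := fun x =>
    letI : Algebra (heckeAlgebra N 2 (↑S : Set ℕ)) (heckeAlgebra N 2 ∅) := incl.toAlgebra
    (Algebra.IsIntegral.isIntegral (R := ℤ) x).tower_top
  obtain ⟨κ, hκ⟩ := exists_ringHom_extension (Ω := Ω) incl hincl hint
    ((algebraMap O' Ω).comp χ)
  obtain ⟨gens, hgens⟩ : (⊤ : Submodule ℤ (heckeAlgebra N 2 ∅)).FG := Module.Finite.fg_top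
  let E : IntermediateField (FractionRing O') Ω :=
    IntermediateField.adjoin (FractionRing O') (κ '' (gens : Set _))
  have hκint : ∀ x, IsIntegral ℤ (κ x) := fun x =>
    map_isIntegral_int κ (Algebra.IsIntegral.isIntegral x)
  have hgen : ∀ x ∈ κ '' (gens : Set (heckeAlgebra N 2 ∅)), IsIntegral (FractionRing O') x :=
    fun x hx => by
      obtain ⟨y, -, rfl⟩ := hx
      obtain ⟨P, hP, hP0⟩ := hκint y
      refine ⟨P.map (Int.castRingHom _), hP.map _, ?_⟩
      rw [Polynomial.eval₂_map,
        RingHom.ext_int ((algebraMap (FractionRing O') Ω).comp (Int.castRingHom _))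
          (algebraMap ℤ Ω)]
      exact hP0
  have : Finite (κ '' (gens : Set (heckeAlgebra N 2 ∅))) :=
    (gens.finite_toSet.image κ).to_subtype
  have : FiniteDimensional (FractionRing O') E :=
    IntermediateField.finiteDimensional_adjoin hgen
  have hκE : ∀ x, κ x ∈ E := fun x => by
    have hx : x ∈ Submodule.span ℤ (gens : Set _) := hgens ▸ Submodule.mem_top
    induction hx using Submodule.span_induction with
    | mem y hy => exact IntermediateField.subset_adjoin _ _ ⟨y, hy, rfl⟩
    | zero => simp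
    | add y z _ _ hy hz => rw [map_add]; exact add_mem hy hz
    | smul n y _ hy => rw [map_zsmul]; exact zsmul_mem hy n
  obtain ⟨hfin, hdvr, hfrac, hinj, hchar⟩ := integralClosure_properties O' E
  let O := integralClosure O' E
  have : IsLocalHom (algebraMap O' O) := isLocalHom_of_finite (R := O') _ hinj
  have : IsAdicComplete (maximalIdeal O) O := IsLocalRing.isAdicComplete_of_module_finite (𝒪 := O')
  have : Finite (ResidueField O) := finite_residueField (R := O') _
  have hpO : (p : O) ∈ maximalIdeal O := by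
    rw [← map_natCast (algebraMap O' O)]
    exact map_nonunit _ _ hp
  let κE : heckeAlgebra N 2 ∅ →+* E := κ.codRestrict E.toSubring hκE
  have hκEint : ∀ x, IsIntegral O' (κE x) := fun x =>
    (map_isIntegral_int κE (Algebra.IsIntegral.isIntegral x)).tower_top
  let κO : heckeAlgebra N 2 ∅ →+* O :=
    κE.codRestrict (integralClosure O' E).toSubring hκEint
  refine ⟨O, inferInstance, inferInstance, hdvr, inferInstance, inferInstance, hchar,
    inferInstance, hfin, inferInstance, hinj, hpO, κO, fun ℓ hℓ hℓN hℓS => ?_⟩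
  refine Subtype.ext (Subtype.ext ?_)
  have h1 : heckeOp N ⟨ℓ, hℓ⟩ = incl (heckeAlgebra.T hℓ hℓN hℓS) := by
    refine (dif_neg (show ¬ ((⟨ℓ, hℓ⟩ : Nat.Primes) : ℕ) ∣ N from hℓN)).trans ?_
    exact Subtype.ext rfl
  change κ (heckeOp N ⟨ℓ, hℓ⟩) = _
  rw [h1, ← RingHom.comp_apply, hκ]
  rfl

/-- A point of the Hecke algebra away from `S` extends to the full Hecke algebra in a finite
extension of the coefficient ring. -/
theorem exists_point_extension (S : Finset ℕ)
    (O' : Type) [CommRing O'] [IsDomain O'] [IsDiscreteValuationRing O']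
    [IsAdicComplete (maximalIdeal O') O'] [Finite (ResidueField O')] [CharZero O']
    [Module.Finite ℤ (heckeAlgebra N 2 ∅)]
    (hp : (p : O') ∈ maximalIdeal O') (χ : heckeAlgebra N 2 (↑S : Set ℕ) →+* O') :
    ∃ (O : Type) (_ : CommRing O) (_ : IsDomain O) (_ : IsDiscreteValuationRing O)
      (_ : IsAdicComplete (maximalIdeal O) O) (_ : Finite (ResidueField O))
      (_ : CharZero O) (_ : Algebra O' O) (_ : Module.Finite O' O)
      (_ : IsLocalHom (algebraMap O' O)),
    Function.Injective (algebraMap O' O) ∧ (p : O) ∈ maximalIdeal O ∧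
    ∃ κO : heckeAlgebra N 2 ∅ →+* O,
      ∀ (ℓ : ℕ) (hℓ : ℓ.Prime) (hℓN : ¬ ℓ ∣ N) (hℓS : ℓ ∉ (↑S : Set ℕ)),
        κO (heckeOp N ⟨ℓ, hℓ⟩) = algebraMap O' O (χ (heckeAlgebra.T hℓ hℓN hℓS)) :=
  exists_point_extension_aux S O' (AlgebraicClosure (FractionRing O')) hp χ

end Fermat.Agent.GalRep
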