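import Fermat.Agent.GalRep.Eigen
import Fermat.Agent.GalRep.PointExtension
import Fermat.Agent.GalRep.Normalise

/-!
# Representations from a Hecke torsion datum

`exists_galoisRep_of_datum`: the representation attached to a point of the Hecke algebra, from a
Hecke torsion datum.
-/

set_option autoImplicit false

noncomputable section

namespace Fermat.Agent.GalRep

open IsLocalRing Polynomial CuspForm Matrix

local notation "ℚbar" => AlgebraicClosure ℚ
local notation "Γℚbar" => AlgebraicClosure ℚ ≃ₐ[ℚ] AlgebraicClosure ℚ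

section LatticeLemmas

variable {O : Type} [CommRing O] {d : ℕ}

/-- The lattice of eigenvectors with coefficients in `O`. -/
def eigenLattice (t : Nat.Primes → Matrix (Fin d) (Fin d) ℤ) (a : Nat.Primes → O) :
    Submodule O (Fin d → O) where
  carrier := {v | ∀ q, ((t q).map (Int.cast : ℤ → O)) *ᵥ v = a q • v}
  add_mem' {v w} hv hw q := by rw [Matrix.mulVec_add, hv q, hw q, smul_add]
  zero_mem' q := by rw [Matrix.mulVec_zero, smul_zero]
  smul_mem' c v hv q := by rw [Matrix.mulVec_smul, hv q, smul_comm]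

variable (E : Type) [Field E] [Algebra O E] [IsFractionRing O E] [IsDomain O]

omit [IsFractionRing O E] [IsDomain O] in
theorem comp_mem_eigenspace {t : Nat.Primes → Matrix (Fin d) (Fin d) ℤ} {a : Nat.Primes → O}
    {v : Fin d → O} (hv : v ∈ eigenLattice t a) :
    algebraMap O E ∘ v ∈ eigenspace t fun q => algebraMap O E (a q) := by
  rw [mem_eigenspace]
  intro q
  funext i
  have h := congrArg (algebraMap O E) (congrFun (hv q) i)
  rw [RingHom.map_mulVec, Matrix.map_map] at h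
  simpa [Function.comp_def] using h

theorem exists_ne_zero_mem_eigenLattice (t : Nat.Primes → Matrix (Fin d) (Fin d) ℤ)
    (a : Nat.Primes → O)
    (h : 0 < Module.finrank E (eigenspace t fun q => algebraMap O E (a q))) :
    ∃ v ∈ eigenLattice t a, v ≠ 0 := by
  obtain ⟨⟨w, hw⟩, hw0⟩ :=
    (Module.finrank_pos_iff_exists_ne_zero (R := E)).mp h
  obtain ⟨c, hc⟩ := IsLocalization.exist_integer_multiples (nonZeroDivisors O)
    (Finset.univ : Finset (Fin d)) w
  choose v hv using fun i => hc i (Finset.mem_univ i)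
  rw [mem_eigenspace] at hw
  refine ⟨v, fun q => ?_, fun h0 => hw0 (Subtype.ext (funext fun i => ?_))⟩
  · funext i
    apply IsFractionRing.injective O E
    rw [RingHom.map_mulVec, Matrix.map_map]
    have hvw : algebraMap O E ∘ v = (c : O) • w := funext hv
    rw [hvw, Matrix.mulVec_smul]
    have h1 : (algebraMap O E ∘ (Int.cast : ℤ → O)) = (Int.cast : ℤ → E) := funext fun n => by simp
    rw [h1, hw q]
    simp [hv i, Algebra.smul_def]
    ring
  · have h1 := hv i
    rw [h0] at h1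
    simp only [Pi.zero_apply, map_zero] at h1
    exact (smul_eq_zero.mp h1.symm).resolve_left (nonZeroDivisors.ne_zero c.2)

theorem finrank_eigenLattice_le [IsPrincipalIdealRing O]
    (t : Nat.Primes → Matrix (Fin d) (Fin d) ℤ) (a : Nat.Primes → O) :
    Module.finrank O (eigenLattice t a) ≤
      Module.finrank E (eigenspace t fun q => algebraMap O E (a q)) := by
  let b := Module.finBasis O (eigenLattice t a)
  let e : (Fin d → O) →ₗ[O] (Fin d → E) := (Algebra.linearMap O E).compLeft (Fin d)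
  have he : Function.Injective e := fun x y hxy =>
    funext fun i => IsFractionRing.injective O E (congrFun hxy i)
  have hO : LinearIndependent O fun i => e (b i : Fin d → O) :=
    b.linearIndependent.map' (e ∘ₗ (eigenLattice t a).subtype)
      (LinearMap.ker_eq_bot.mpr (he.comp Subtype.val_injective))
  have hE : LinearIndependent E fun i => e (b i : Fin d → O) :=
    (LinearIndependent.iff_fractionRing O E).mp hO
  have hE' : LinearIndependent E fun i =>
      (⟨e (b i : Fin d → O), comp_mem_eigenspace E (b i).2⟩ :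
        eigenspace t fun q => algebraMap O E (a q)) :=
    LinearIndependent.of_comp (eigenspace t fun q => algebraMap O E (a q)).subtype hE
  simpa using hE'.fintype_card_le_finrank

end LatticeLemmas

/-- The restriction of a matrix representation to a saturated stable submodule, in coordinates. -/
theorem exists_restricted_rep {O : Type} [CommRing O] [IsDomain O] [IsDiscreteValuationRing O]
    {d : ℕ} (R : Γℚbar →* Matrix (Fin d) (Fin d) O) (hR : MatrixContinuous R)
    (L : Submodule O (Fin d → O)) (hstab : ∀ σ, ∀ v ∈ L, R σ *ᵥ v ∈ L)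
    (hsat : ∀ (c : O) (v : Fin d → O), c ≠ 0 → c • v ∈ L → v ∈ L) :
    ∃ R' : Γℚbar →* Matrix (Fin (Module.finrank O L)) (Fin (Module.finrank O L)) O,
      MatrixContinuous R' ∧ (∀ σ, R σ = 1 → R' σ = 1) ∧
      ∀ (σ : Γℚbar) (c₁ c₀ : O),
        (∀ v ∈ L, R σ *ᵥ (R σ *ᵥ v) - c₁ • R σ *ᵥ v + c₀ • v = 0) →
          R' σ * R' σ - c₁ • R' σ + c₀ • 1 = 0 := by
  let b := Module.finBasis O L
  let res : Γℚbar → Module.End O L := fun σ => (R σ).toLin'.restrict (hstab σ)
  have hres : ∀ σ (v : L), (res σ v : Fin d → O) = R σ *ᵥ (v : Fin d → O) := fun σ v => rfl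
  let R' : Γℚbar →* Matrix (Fin (Module.finrank O L)) (Fin (Module.finrank O L)) O :=
    { toFun := fun σ => LinearMap.toMatrixAlgEquiv b (res σ)
      map_one' := by
        rw [← map_one (LinearMap.toMatrixAlgEquiv b)]
        congr 1
        refine LinearMap.ext fun v => Subtype.ext ?_
        rw [hres, map_one, Matrix.one_mulVec, Module.End.one_apply]
      map_mul' := fun σ τ => by
        rw [← map_mul]
        congr 1
        refine LinearMap.ext fun v => Subtype.ext ?_
        rw [hres, Module.End.mul_apply, hres, hres, map_mul, Matrix.mulVec_mulVec] }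
  refine ⟨R', fun n => ?_, fun σ h1 => ?_, fun σ c₁ c₀ h => ?_⟩
  · obtain ⟨F, hF, h⟩ := hR n
    obtain ⟨ϖ, hϖ⟩ := IsDiscreteValuationRing.exists_irreducible O
    refine ⟨F, hF, fun σ hσ i j => ?_⟩
    have hdvd : ∀ k, ϖ ^ n ∣ (R σ *ᵥ (b j : Fin d → O)) k - (b j : Fin d → O) k := fun k => by
      rw [← Ideal.mem_span_singleton, ← Ideal.span_singleton_pow, ← hϖ.maximalIdeal_eq,
        show (R σ *ᵥ (b j : Fin d → O)) k - (b j : Fin d → O) k =
          ∑ l, (R σ k l - (1 : Matrix (Fin d) (Fin d) O) k l) * (b j : Fin d → O) l by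
          simp only [sub_mul, Finset.sum_sub_distrib]
          rw [show ∑ l, (1 : Matrix (Fin d) (Fin d) O) k l * (b j : Fin d → O) l =
            ((1 : Matrix (Fin d) (Fin d) O) *ᵥ (b j : Fin d → O)) k from rfl, Matrix.one_mulVec]
          rfl]
      exact sum_mem fun l _ => Ideal.mul_mem_right _ _ (h σ hσ k l)
    choose w hw using hdvd
    have hwL : (w : Fin d → O) ∈ L := by
      refine hsat (ϖ ^ n) w (pow_ne_zero n hϖ.ne_zero) ?_
      rw [show ϖ ^ n • w = R σ *ᵥ (b j : Fin d → O) - (b j : Fin d → O) from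
        funext fun k => (hw k).symm]
      exact sub_mem (hstab σ _ (b j).2) (b j).2
    have hbj : res σ (b j) - b j = ϖ ^ n • (⟨w, hwL⟩ : L) := Subtype.ext (funext fun k => hw k)
    have hij : R' σ i j - (1 : Matrix _ _ O) i j = ϖ ^ n * b.repr ⟨w, hwL⟩ i := by
      change LinearMap.toMatrixAlgEquiv b (res σ) i j - _ = _
      rw [LinearMap.toMatrixAlgEquiv_apply, ← smul_eq_mul, ← Finsupp.smul_apply, ← map_smul,
        ← hbj, map_sub, Finsupp.sub_apply]
      simp [Matrix.one_apply, Finsupp.single_apply, eq_comm]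
    rw [hij, hϖ.maximalIdeal_eq, Ideal.span_singleton_pow]
    exact Ideal.mul_mem_right _ _ (Ideal.mem_span_singleton_self _)
  · change LinearMap.toMatrixAlgEquiv b (res σ) = 1
    rw [← map_one (LinearMap.toMatrixAlgEquiv b)]
    congr 1
    refine LinearMap.ext fun v => Subtype.ext ?_
    rw [hres, h1, Matrix.one_mulVec, Module.End.one_apply]
  · change LinearMap.toMatrixAlgEquiv b (res σ) * LinearMap.toMatrixAlgEquiv b (res σ)
      - c₁ • LinearMap.toMatrixAlgEquiv b (res σ) + c₀ • 1 = 0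
    rw [← map_mul, ← map_smul, ← map_sub, ← map_one (LinearMap.toMatrixAlgEquiv b), ← map_smul,
      ← map_add, ← map_zero (LinearMap.toMatrixAlgEquiv b)]
    congr 1
    refine LinearMap.ext fun v => Subtype.ext ?_
    simpa [Module.End.mul_apply, hres] using h v v.2

variable {p : ℕ} [Fact p.Prime] {N : ℕ} [NeZero N]

/-- The `p`-adic representation on `O ^ d` underlying a torsion datum. -/
theorem exists_padic_rep (D : HeckeTorsionDatum N p) (O : Type) [CommRing O] [IsLocalRing O]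
    [IsAdicComplete (maximalIdeal O) O] (hpO : (p : O) ∈ maximalIdeal O) :
    ∃ R : Γℚbar →* Matrix (Fin D.d) (Fin D.d) O, MatrixContinuous R ∧
      (∀ σ q, Commute (R σ) ((D.t q).map (Int.cast : ℤ → O))) ∧
      (∀ q : ℕ, q.Prime → ¬ q ∣ N * p → ∀ A : ValuationSubring ℚbar, A.LiesOverPrime q →
        ∀ σ ∈ A.inertiaSubgroupIn ℚ, R σ = 1) ∧
      (∀ (ℓ : ℕ) (hℓ : ℓ.Prime), ¬ ℓ ∣ N * p → ∀ A : ValuationSubring ℚbar, A.LiesOverPrime ℓ →
        ∀ σ : Γℚbar, A.IsFrobeniusAt σ ℓ →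
          R σ * R σ - (D.t ⟨ℓ, hℓ⟩).map (Int.cast : ℤ → O) * R σ
            + (ℓ : Matrix (Fin D.d) (Fin D.d) O) = 0) := by
  obtain ⟨Rp, hRp⟩ := exists_padic_lift D.ρ D.cast_ρ
  let R : Γℚbar →* Matrix (Fin D.d) (Fin D.d) O :=
    (padicHom p O hpO).mapMatrix.toMonoidHom.comp Rp
  have hRc : MatrixContinuous R := fun n => by
    obtain ⟨F, hF, h⟩ := D.finiteLevel n
    refine ⟨F, hF, fun σ hσ i j => ?_⟩
    have h1 : (PadicInt.toZModPow n).mapMatrix (Rp σ) = 1 := (hRp n σ).trans (h σ hσ)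
    change padicHom p O hpO (Rp σ i j) - _ ∈ _
    rw [show (1 : Matrix (Fin D.d) (Fin D.d) O) i j =
      padicHom p O hpO ((1 : Matrix (Fin D.d) (Fin D.d) ℤ_[p]) i j) by
        simp [Matrix.one_apply, apply_ite (padicHom p O hpO)], ← map_sub]
    refine padicHom_mem_pow p O hpO ?_
    rw [map_sub, sub_eq_zero]
    have h2 := congrFun (congrFun h1 i) j
    simp only [RingHom.mapMatrix_apply, Matrix.map_apply] at h2
    rw [h2]
    simp [Matrix.one_apply, apply_ite (PadicInt.toZModPow n)]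
  have hlift : ∀ A B : Matrix (Fin D.d) (Fin D.d) ℤ_[p],
      (∀ n, (PadicInt.toZModPow n).mapMatrix A = (PadicInt.toZModPow n).mapMatrix B) → A = B :=
    fun A B h => Matrix.ext fun i j => PadicInt.ext_of_toZModPow.mp fun n =>
      congrFun (congrFun (h n) i) j
  have hmapint : ∀ (M : Matrix (Fin D.d) (Fin D.d) ℤ) (n : ℕ),
      (PadicInt.toZModPow n).mapMatrix (M.map (Int.cast : ℤ → ℤ_[p])) =
        M.map (Int.cast : ℤ → ZMod (p ^ n)) := fun M n =>
    Matrix.ext fun i j => map_intCast (PadicInt.toZModPow n) _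
  have hmapO : ∀ M : Matrix (Fin D.d) (Fin D.d) ℤ,
      (padicHom p O hpO).mapMatrix (M.map (Int.cast : ℤ → ℤ_[p])) =
        M.map (Int.cast : ℤ → O) := fun M =>
    Matrix.ext fun i j => map_intCast (padicHom p O hpO) _
  have hcomm : ∀ σ q, Commute (R σ) ((D.t q).map (Int.cast : ℤ → O)) := fun σ q => by
    rw [← hmapO]
    refine Commute.map (hlift _ _ fun n => ?_) (padicHom p O hpO).mapMatrix
    rw [map_mul, map_mul, hRp, hmapint]
    exact D.commute n σ q
  refine ⟨R, hRc, hcomm, fun q hq hqNp A hA σ hσ => ?_, fun ℓ hℓ hℓNp A hA σ hσ => ?_⟩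
  · have h1 : Rp σ = 1 := hlift _ _ fun n => by
      rw [hRp, map_one]
      exact D.unramified n q hq hqNp A hA σ hσ
    change (padicHom p O hpO).mapMatrix (Rp σ) = 1
    rw [h1, map_one]
  · have hq : Rp σ * Rp σ - (D.t ⟨ℓ, hℓ⟩).map (Int.cast : ℤ → ℤ_[p]) * Rp σ
        + (ℓ : Matrix (Fin D.d) (Fin D.d) ℤ_[p]) = 0 := hlift _ _ fun n => by
      rw [map_add, map_sub, map_mul, map_mul, map_natCast, map_zero, hRp, hmapint]
      exact D.quadratic n ℓ hℓ hℓNp A hA σ hσ
    have hqO := congrArg (padicHom p O hpO).mapMatrix hq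
    rw [map_add, map_sub, map_mul, map_mul, map_natCast, map_zero, hmapO] at hqO
    exact hqO

/-- The Galois representation attached to an eigensystem of the full Hecke algebra with values in
a complete discrete valuation ring. -/
theorem exists_rep_of_eigensystem (D : HeckeTorsionDatum N p)
    [Module.Finite ℤ (heckeAlgebra N 2 ∅)] (S : Finset ℕ) (hpS : p ∈ S)
    (hNS : ∀ q : ℕ, q.Prime → q ∣ N → q ∈ S)
    (O : Type) [CommRing O] [IsDomain O] [IsDiscreteValuationRing O]
    [IsAdicComplete (maximalIdeal O) O] [CharZero O] (hpO : (p : O) ∈ maximalIdeal O)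
    (κO : heckeAlgebra N 2 ∅ →+* O) :
    ∃ ρ : GaloisRepAdic O,
      (∀ (ℓ : ℕ) (hℓ : ℓ.Prime), ℓ ∉ S →
        ∀ A : ValuationSubring ℚbar, A.LiesOverPrime ℓ → ∀ σ : Γℚbar, A.IsFrobeniusAt σ ℓ →
          LinearMap.charpoly (ρ.ρ σ) =
            X ^ 2 - C (κO (heckeOp N ⟨ℓ, hℓ⟩)) * X + C ((ℓ : O))) ∧
      (∀ q : ℕ, q.Prime → ¬ q ∣ N → q ≠ p → ρ.IsUnramifiedAt q) := by
  classical
  have : CharZero (FractionRing O) :=
    charZero_of_injective_algebraMap (IsFractionRing.injective O (FractionRing O))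
  let a : Nat.Primes → O := fun q => κO (heckeOp N q)
  -- the eigenlattice
  obtain ⟨hpos, hle⟩ := D.finrank_eigenspace_bounds ((algebraMap O (FractionRing O)).comp κO)
  let L := eigenLattice D.t a
  have hL2 : Module.finrank O L ≤ 2 := (finrank_eigenLattice_le (FractionRing O) D.t a).trans hle
  have hL0 : 0 < Module.finrank O L := by
    obtain ⟨v, hv, hv0⟩ := exists_ne_zero_mem_eigenLattice (FractionRing O) D.t a hpos
    rw [Module.finrank_pos_iff_exists_ne_zero]
    exact ⟨⟨v, hv⟩, fun h => hv0 (congrArg Subtype.val h)⟩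
  -- the Galois action on `O ^ d`
  obtain ⟨R, hRc, hcomm, hRun, hRquad⟩ := exists_padic_rep D O hpO
  have hstab : ∀ σ, ∀ v ∈ L, R σ *ᵥ v ∈ L := fun σ v hv q => by
    rw [Matrix.mulVec_mulVec, ← (hcomm σ q).eq, ← Matrix.mulVec_mulVec, hv q, Matrix.mulVec_smul]
  have hsat : ∀ (c : O) (v : Fin D.d → O), c ≠ 0 → c • v ∈ L → v ∈ L := fun c v hc hv q =>
    smul_right_injective (Fin D.d → O) hc
      ((Matrix.mulVec_smul _ c v).symm.trans ((hv q).trans (smul_comm _ _ _)))
  obtain ⟨R', hR'c, hR'one, hR'quad⟩ := exists_restricted_rep R hRc L hstab hsat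
  have : Nonempty (Fin (Module.finrank O L)) := ⟨⟨0, hL0⟩⟩
  let aℓ : ℕ → O := fun ℓ => if h : ℓ.Prime then a ⟨ℓ, h⟩ else 0
  obtain ⟨ρ, hρ, hρone⟩ := exists_rep_charpoly hpO (fun n hn => Nat.cast_ne_zero.mpr hn)
    ((Fintype.card_fin _).trans_le hL2) R' hR'c S hpS aℓ fun ℓ hℓ hℓS A hA σ hσ => by
      refine hR'quad σ _ _ fun v hv => ?_
      have hℓNp : ¬ ℓ ∣ N * p := fun hd => (hℓ.dvd_mul.mp hd).elim (fun h => hℓS (hNS ℓ hℓ h))
        fun h => hℓS ((Nat.prime_dvd_prime_iff_eq hℓ Fact.out).mp h ▸ hpS)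
      have hv' := congrArg (fun M => M *ᵥ v) (hRquad ℓ hℓ hℓNp A hA σ hσ)
      simp only [Matrix.add_mulVec, Matrix.sub_mulVec, ← Matrix.mulVec_mulVec,
        Matrix.zero_mulVec, Matrix.natCast_mulVec] at hv'
      rw [(hstab σ v hv : R σ *ᵥ v ∈ L) ⟨ℓ, hℓ⟩] at hv'
      simp only [aℓ, dif_pos hℓ]
      exact hv'
  refine ⟨ρ, fun ℓ hℓ hℓS A hA σ hσ => ?_, fun q hq hqN hqp A hA σ hσ => ?_⟩
  · rw [hρ ℓ hℓ hℓS A hA σ hσ]
    simp only [aℓ, dif_pos hℓ, a]
  · have hqNp : ¬ q ∣ N * p := fun hd => (hq.dvd_mul.mp hd).elim hqN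
      fun h => hqp ((Nat.prime_dvd_prime_iff_eq hq Fact.out).mp h)
    exact hρone σ (hR'one σ (hRun q hq hqNp A hA σ hσ)) (cycl_inertia p hq hqp hA hσ)

/-- The Galois representation attached to a point of the Hecke algebra away from `S`. -/
theorem exists_galoisRep_of_datum (D : HeckeTorsionDatum N p)
    [Module.Finite ℤ (heckeAlgebra N 2 ∅)] (S : Finset ℕ) (hpS : p ∈ S)
    (hNS : ∀ q : ℕ, q.Prime → q ∣ N → q ∈ S)
    (O' : Type) [CommRing O'] [IsDomain O'] [IsDiscreteValuationRing O']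
    [IsAdicComplete (maximalIdeal O') O'] [Finite (ResidueField O')] [CharZero O']
    (hp : (p : O') ∈ maximalIdeal O') (χ : heckeAlgebra N 2 (↑S : Set ℕ) →+* O') :
    ∃ (O'' : Type) (_ : CommRing O'') (_ : IsDomain O'') (_ : IsDiscreteValuationRing O'')
      (_ : IsAdicComplete (maximalIdeal O'') O'') (_ : Finite (ResidueField O''))
      (_ : CharZero O'') (_ : Algebra O' O'') (_ : Module.Finite O' O'')
      (_ : IsLocalHom (algebraMap O' O'')),
    Function.Injective (algebraMap O' O'') ∧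
    ∃ ρ : GaloisRepAdic O'',
      (∀ (ℓ : ℕ) (hℓ : ℓ.Prime) (hℓN : ¬ ℓ ∣ N) (hℓS : ℓ ∉ (↑S : Set ℕ)),
        ∀ A : ValuationSubring ℚbar, A.LiesOverPrime ℓ → ∀ σ : Γℚbar, A.IsFrobeniusAt σ ℓ →
          LinearMap.charpoly (ρ.ρ σ) =
            X ^ 2 - C (algebraMap O' O'' (χ (heckeAlgebra.T hℓ hℓN hℓS))) * X
              + C ((ℓ : O''))) ∧
      (∀ q : ℕ, q.Prime → ¬ q ∣ N → q ≠ p → ρ.IsUnramifiedAt q) := by
  obtain ⟨O, i1, i2, i3, i4, i5, i6, i7, i8, i9, hinj, hpO, κO, hκO⟩ :=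
    exists_point_extension S O' hp χ
  obtain ⟨ρ, hρ, hun⟩ := exists_rep_of_eigensystem D S hpS hNS O hpO κO
  refine ⟨O, i1, i2, i3, i4, i5, i6, i7, i8, i9, hinj, ρ, fun ℓ hℓ hℓN hℓS A hA σ hσ => ?_, hun⟩
  rw [hρ ℓ hℓ (by simpa using hℓS) A hA σ hσ, hκO ℓ hℓ hℓN hℓS]

end Fermat.Agent.GalRep
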