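import Mathlib
import Fermat.Prelude.Def_CuspForm_HeckeAlgebra
import Fermat.Prelude.Def_GaloisRep_Residual

/-!
# Hecke torsion data

`HeckeTorsionDatum` is the input of the construction of Galois representations attached to
eigenforms: the Galois action on the `p`-power torsion of `J₀(N)` in coordinates given by an
integral lattice with Hecke action.
-/

set_option autoImplicit false

noncomputable section

namespace Fermat.Agent.GalRep

open CuspForm

local notation "Γℚbar" => AlgebraicClosure ℚ ≃ₐ[ℚ] AlgebraicClosure ℚ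

/-- The Hecke operator attached to a prime in the full Hecke algebra of level `N`:
`T_q` if `q ∤ N` and `U_q` if `q ∣ N`. -/
def heckeOp (N : ℕ) [NeZero N] (q : Nat.Primes) : heckeAlgebra N 2 ∅ :=
  if h : (q : ℕ) ∣ N then heckeAlgebra.U q.2 h (Set.notMem_empty _)
  else heckeAlgebra.T q.2 h (Set.notMem_empty _)

variable {F : Type*} [Field F] {d : ℕ}

/-- The common eigenspace of a family of integer matrices with a given system of eigenvalues. -/
def eigenspace (t : Nat.Primes → Matrix (Fin d) (Fin d) ℤ) (a : Nat.Primes → F) :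
    Submodule F (Fin d → F) :=
  ⨅ q, LinearMap.ker (Matrix.toLin' ((t q).map (Int.cast : ℤ → F)) - a q • LinearMap.id)

theorem mem_eigenspace (t : Nat.Primes → Matrix (Fin d) (Fin d) ℤ) (a : Nat.Primes → F)
    (v : Fin d → F) :
    v ∈ eigenspace t a ↔ ∀ q, ((t q).map (Int.cast : ℤ → F)).mulVec v = a q • v := by
  simp [eigenspace, sub_eq_zero]

/-- Galois action on the `p`-power torsion of `J₀(N)`, written in coordinates `(ℤ/pⁿ)^d` coming
from an integral lattice on which the Hecke operator at a prime `q` acts by `t q`. -/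
structure HeckeTorsionDatum (N : ℕ) [NeZero N] (p : ℕ) where
  /-- The rank of the lattice. -/
  d : ℕ
  /-- The integral matrix of the Hecke operator at a prime. -/
  t : Nat.Primes → Matrix (Fin d) (Fin d) ℤ
  /-- The action of the full Hecke algebra on the lattice. -/
  hecke : heckeAlgebra N 2 ∅ →+* Matrix (Fin d) (Fin d) ℤ
  hecke_injective : Function.Injective hecke
  hecke_heckeOp : ∀ q, hecke (heckeOp N q) = t q
  /-- Eigenspaces of eigensystems of the full Hecke algebra have dimension one or two. -/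
  eigen_pos : ∀ κ : heckeAlgebra N 2 ∅ →+* ℂ,
    0 < Module.finrank ℂ (eigenspace t fun q => κ (heckeOp N q))
  /-- See `eigen_pos`. -/
  eigen_le : ∀ κ : heckeAlgebra N 2 ∅ →+* ℂ,
    Module.finrank ℂ (eigenspace t fun q => κ (heckeOp N q)) ≤ 2
  /-- The Galois action on the `pⁿ`-torsion. -/
  ρ : ∀ n : ℕ, Γℚbar →* Matrix (Fin d) (Fin d) (ZMod (p ^ n))
  cast_ρ : ∀ (n : ℕ) (σ : Γℚbar),
    (ρ (n + 1) σ).map (ZMod.castHom (pow_dvd_pow p n.le_succ) (ZMod (p ^ n))) = ρ n σ
  finiteLevel : ∀ n, GaloisFactorsThroughFiniteLevel (ρ n)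
  commute : ∀ (n : ℕ) (σ : Γℚbar) (q : Nat.Primes),
    Commute (ρ n σ) ((t q).map (Int.cast : ℤ → ZMod (p ^ n)))
  unramified : ∀ (n q : ℕ), q.Prime → ¬ q ∣ N * p →
    ∀ A : ValuationSubring (AlgebraicClosure ℚ), A.LiesOverPrime q →
      ∀ σ ∈ A.inertiaSubgroupIn ℚ, ρ n σ = 1
  quadratic : ∀ (n ℓ : ℕ) (hℓ : ℓ.Prime), ¬ ℓ ∣ N * p →
    ∀ A : ValuationSubring (AlgebraicClosure ℚ), A.LiesOverPrime ℓ →
      ∀ σ : Γℚbar, A.IsFrobeniusAt σ ℓ →
        ρ n σ * ρ n σ - (t ⟨ℓ, hℓ⟩).map (Int.cast : ℤ → ZMod (p ^ n)) * ρ n σ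
          + (ℓ : Matrix (Fin d) (Fin d) (ZMod (p ^ n))) = 0

end Fermat.Agent.GalRep
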