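import Fermat.Agent.GalRep.DatumJZero
import Fermat.Agent.GalRep.Lattice
import Fermat.Agent.S22

/-!
# Galois representations attached to points of the Hecke algebra

`exists_galoisRep_of_torsionReduction` attaches a `p`-adic representation to a character of the
Hecke algebra, from the reduction properties of the torsion of `J₀(N)`.
-/

set_option autoImplicit false

noncomputable section

namespace Fermat.Agent.GalRep

open Polynomial IsLocalRing

/-- A character of the Hecke algebra away from `S` has an attached adic representation in a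
finite extension of its coefficient ring. -/
theorem exists_galoisRep_of_torsionReduction (p : ℕ) [Fact p.Prime] (N : ℕ) [NeZero N]
    (hred : TorsionReduction N p) (S : Finset ℕ) (hpS : p ∈ S)
    (hNS : ∀ q : ℕ, q.Prime → q ∣ N → q ∈ S)
    (O' : Type) [CommRing O'] [IsDomain O'] [IsDiscreteValuationRing O']
    [IsAdicComplete (maximalIdeal O') O'] [Finite (ResidueField O')] [CharZero O']
    (hp : (p : O') ∈ maximalIdeal O')
    (χ : CuspForm.heckeAlgebra N 2 (↑S : Set ℕ) →+* O') :
    ∃ (O'' : Type) (_ : CommRing O'') (_ : IsDomain O'') (_ : IsDiscreteValuationRing O'')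
      (_ : IsAdicComplete (maximalIdeal O'') O'') (_ : Finite (ResidueField O''))
      (_ : CharZero O'') (_ : Algebra O' O'') (_ : Module.Finite O' O'')
      (_ : IsLocalHom (algebraMap O' O'')),
    Function.Injective (algebraMap O' O'') ∧
    ∃ ρ : GaloisRepAdic O'',
      (∀ (ℓ : ℕ) (hℓ : ℓ.Prime) (hℓN : ¬ ℓ ∣ N) (hℓS : ℓ ∉ (↑S : Set ℕ)),
        ∀ A : ValuationSubring (AlgebraicClosure ℚ), A.LiesOverPrime ℓ →
          ∀ σ : AlgebraicClosure ℚ ≃ₐ[ℚ] AlgebraicClosure ℚ, A.IsFrobeniusAt σ ℓ →
            LinearMap.charpoly (ρ.ρ σ) =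
              X ^ 2 - C (algebraMap O' O'' (χ (CuspForm.heckeAlgebra.T hℓ hℓN hℓS))) * X
                + C ((ℓ : O''))) ∧
      (∀ q : ℕ, q.Prime → ¬ q ∣ N → q ≠ p → ρ.IsUnramifiedAt q) :=
  haveI := Fermat.Agent.S22.result N 2 ∅
  exists_galoisRep_of_datum (jZeroDatum N p hred) S hpS hNS O' hp χ

end Fermat.Agent.GalRep
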