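import Fermat.Agent.GalRep.Extend

/-!
# A coefficient ring for a prime above `p` of an order

`exists_coeff_ring` gives a complete discrete valuation ring receiving the order, with maximal
ideal pulling back to the prime.
-/

set_option autoImplicit false

noncomputable section

namespace Fermat.Agent.GalRep

open IsLocalRing
open scoped TensorProduct

variable (p : ℕ) [Fact p.Prime] (R : Type) [CommRing R] [IsDomain R] [CharZero R]
  [Module.Finite ℤ R] (P : Ideal R) [P.IsPrime]

/-- A prime containing `p` in a local ring integral over `ℤ_p` is the maximal ideal. -/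
theorem eq_maximalIdeal_of_mem {C : Type} [CommRing C] [IsLocalRing C] [Algebra ℤ_[p] C]
    [Algebra.IsIntegral ℤ_[p] C] (I : Ideal C) [I.IsPrime] (hI : (p : C) ∈ I) :
    I = maximalIdeal C := by
  have hle : maximalIdeal ℤ_[p] ≤ Ideal.comap (algebraMap ℤ_[p] C) I := by
    rw [PadicInt.maximalIdeal_eq_span_p, Ideal.span_singleton_le_iff_mem, Ideal.mem_comap,
      map_natCast]
    exact hI
  have hne : Ideal.comap (algebraMap ℤ_[p] C) I ≠ ⊤ := Ideal.IsPrime.ne_top inferInstance
  have hm : (Ideal.comap (algebraMap ℤ_[p] C) I).IsMaximal :=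
    (maximalIdeal.isMaximal ℤ_[p]).eq_of_le hne hle ▸ maximalIdeal.isMaximal ℤ_[p]
  exact IsLocalRing.eq_maximalIdeal (Ideal.isMaximal_of_isIntegral_of_isMaximal_comap I hm)

/-- A finite local domain over `ℤ_p` receiving `R`, with the prime `P` below its maximal ideal. -/
theorem exists_local_domain (hp : (p : R) ∈ P) :
    ∃ (C : Type) (_ : CommRing C) (_ : IsDomain C) (_ : Algebra ℤ_[p] C)
      (_ : Module.Finite ℤ_[p] C) (_ : IsLocalRing C) (ι : R →+* C),
      Function.Injective (algebraMap ℤ_[p] C) ∧ ∀ x, ι x ∈ maximalIdeal C ↔ x ∈ P := by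
  classical
  have : Module.IsTorsionFree ℤ R :=
    Module.isTorsionFree_iff_algebraMap_injective.mpr Int.cast_injective
  have : Module.Free ℤ R := Module.free_of_finite_type_torsion_free'
  have : CharP (R ⧸ P) p := by
    rw [CharP.charP_iff_prime_eq_zero Fact.out, ← map_natCast (Ideal.Quotient.mk P),
      Ideal.Quotient.eq_zero_iff_mem]
    exact hp
  let f : ℤ_[p] →+* R ⧸ P := (ZMod.castHom (dvd_refl p) (R ⧸ P)).comp PadicInt.toZMod
  let : Algebra ℤ_[p] (R ⧸ P) := f.toAlgebra
  let φ : ℤ_[p] ⊗[ℤ] R →ₐ[ℤ_[p]] R ⧸ P :=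
    Algebra.TensorProduct.lift (Algebra.ofId ℤ_[p] (R ⧸ P))
      (Ideal.Quotient.mk P).toIntAlgHom fun _ _ => Commute.all _ _
  let j : R →+* ℤ_[p] ⊗[ℤ] R :=
    (Algebra.TensorProduct.includeRight : R →ₐ[ℤ] ℤ_[p] ⊗[ℤ] R).toRingHom
  have hφj : ∀ x, φ (j x) = Ideal.Quotient.mk P x := fun x => by
    simp [φ, j, Algebra.TensorProduct.lift_tmul]
  let P' : Ideal (ℤ_[p] ⊗[ℤ] R) := RingHom.ker φ
  have : P'.IsPrime := RingHom.ker_isPrime φ
  obtain ⟨Q, hQ, hQP⟩ := Ideal.exists_minimalPrimes_le (J := P') (I := ⊥) bot_le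
  have : Q.IsPrime := hQ.1.1
  have : Module.Finite ℤ_[p] (ℤ_[p] ⊗[ℤ] R) := inferInstance
  have : Module.Free ℤ_[p] (ℤ_[p] ⊗[ℤ] R) := inferInstance
  have hpnz : (p : ℤ_[p] ⊗[ℤ] R) ∈ nonZeroDivisors (ℤ_[p] ⊗[ℤ] R) := by
    refine mem_nonZeroDivisors_iff_right.mpr fun x hx => ?_
    have hx' : (p : ℤ_[p]) • x = 0 := by
      rw [Nat.cast_smul_eq_nsmul, nsmul_eq_mul, mul_comm]; exact hx
    let b := Module.Free.chooseBasis ℤ_[p] (ℤ_[p] ⊗[ℤ] R)
    refine b.repr.injective (Finsupp.ext fun i => ?_)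
    have h := congrArg (fun y => b.repr y i) hx'
    simp only [map_smul, Finsupp.smul_apply, smul_eq_mul, map_zero, Finsupp.zero_apply] at h
    rw [map_zero, Finsupp.zero_apply]
    exact (mul_eq_zero.mp h).resolve_left (Nat.cast_ne_zero.mpr (Fact.out : p.Prime).ne_zero)
  have hpQ : (p : ℤ_[p] ⊗[ℤ] R) ∉ Q := fun h =>
    Set.disjoint_left.mp (Ideal.disjoint_nonZeroDivisors_of_mem_minimalPrimes hQ) h hpnz
  let C := (ℤ_[p] ⊗[ℤ] R) ⧸ Q
  have : IsDomain C := Ideal.Quotient.isDomain Q
  have : Module.Finite ℤ_[p] C :=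
    Module.Finite.of_surjective (Ideal.Quotient.mkₐ ℤ_[p] Q).toLinearMap
      Ideal.Quotient.mk_surjective
  have hpC : algebraMap ℤ_[p] C p ≠ 0 := by
    rw [map_natCast, ← map_natCast (Ideal.Quotient.mk Q), Ne, Ideal.Quotient.eq_zero_iff_mem]
    exact hpQ
  have hinj : Function.Injective (algebraMap ℤ_[p] C) := by
    rw [injective_iff_map_eq_zero]
    intro x hx
    by_contra hx0
    rw [PadicInt.unitCoeff_spec hx0, map_mul, map_pow] at hx
    rcases mul_eq_zero.mp hx with h | h
    · exact not_isUnit_zero (h ▸ (PadicInt.unitCoeff hx0).isUnit.map (algebraMap ℤ_[p] C))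
    · exact hpC (eq_zero_of_pow_eq_zero h)
  have : IsLocalRing C := isLocalRing_of_finite_domain (R := ℤ_[p]) C
  have : Algebra.IsIntegral ℤ_[p] C := Algebra.IsIntegral.of_finite ℤ_[p] C
  let φC : C →+* R ⧸ P := Ideal.Quotient.lift Q φ.toRingHom fun a ha => hQP ha
  let K : Ideal C := RingHom.ker φC
  have : K.IsPrime := RingHom.ker_isPrime φC
  have hpK : (p : C) ∈ K := by
    show φC (p : C) = 0
    rw [map_natCast, ← map_natCast (Ideal.Quotient.mk P), Ideal.Quotient.eq_zero_iff_mem]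
    exact hp
  have hker : K = maximalIdeal C := @eq_maximalIdeal_of_mem p _ C _ _ _ _ K _ hpK
  refine ⟨C, inferInstance, inferInstance, inferInstance, inferInstance, inferInstance,
    (Ideal.Quotient.mk Q).comp j, hinj, fun x => ?_⟩
  rw [← hker]
  show φC (Ideal.Quotient.mk Q (j x)) = 0 ↔ x ∈ P
  show φ (j x) = 0 ↔ x ∈ P
  rw [hφj, Ideal.Quotient.eq_zero_iff_mem]

/-- A complete discrete valuation ring receiving `R`, with the given prime below its maximal
ideal, for an abstract algebraically closed field. -/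
theorem exists_coeff_ring_aux (hp : (p : R) ∈ P) (Ω : Type) [Field Ω] [IsAlgClosed Ω]
    [Algebra ℤ_[p] Ω] [Algebra (FractionRing ℤ_[p]) Ω]
    [IsScalarTower ℤ_[p] (FractionRing ℤ_[p]) Ω] :
    ∃ (O : Type) (_ : CommRing O) (_ : IsDomain O) (_ : IsDiscreteValuationRing O)
      (_ : IsAdicComplete (maximalIdeal O) O) (_ : Finite (ResidueField O)) (_ : CharZero O)
      (ι : R →+* O), (p : O) ∈ maximalIdeal O ∧ ∀ x, ι x ∈ maximalIdeal O ↔ x ∈ P := by
  classical
  obtain ⟨C, iC, iCd, iCa, iCf, iCl, j, hinj, hj⟩ := exists_local_domain p R P hp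
  obtain ⟨g, hg⟩ := exists_ringHom_extension (Ω := Ω) (algebraMap ℤ_[p] C) hinj
    (fun x => Algebra.IsIntegral.isIntegral x) (algebraMap ℤ_[p] Ω)
  let gA : C →ₐ[ℤ_[p]] Ω := { g with commutes' := fun r => DFunLike.congr_fun hg r }
  obtain ⟨gens, hgens⟩ : (⊤ : Submodule ℤ_[p] C).FG := Module.Finite.fg_top
  let E : IntermediateField (FractionRing ℤ_[p]) Ω :=
    IntermediateField.adjoin (FractionRing ℤ_[p]) (gA '' (gens : Set _))
  have hgen : ∀ x ∈ gA '' (gens : Set C), IsIntegral (FractionRing ℤ_[p]) x := fun x hx => by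
    obtain ⟨y, -, rfl⟩ := hx
    exact ((Algebra.IsIntegral.isIntegral (R := ℤ_[p]) y).map gA).tower_top
  have : Finite (gA '' (gens : Set C)) := (gens.finite_toSet.image gA).to_subtype
  have : FiniteDimensional (FractionRing ℤ_[p]) E :=
    IntermediateField.finiteDimensional_adjoin hgen
  have hgE : ∀ x, gA x ∈ E := fun x => by
    have hx : x ∈ Submodule.span ℤ_[p] (gens : Set _) := hgens ▸ Submodule.mem_top
    induction hx using Submodule.span_induction with
    | mem y hy => exact IntermediateField.subset_adjoin _ _ ⟨y, hy, rfl⟩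
    | zero => simp
    | add y z _ _ hy hz => rw [map_add]; exact add_mem hy hz
    | smul n y _ hy =>
      rw [Algebra.smul_def, map_mul, AlgHom.commutes,
        IsScalarTower.algebraMap_apply ℤ_[p] (FractionRing ℤ_[p]) Ω]
      exact mul_mem (IntermediateField.algebraMap_mem E _) hy
  obtain ⟨hfin, hdvr, hfrac, hOinj, hchar⟩ := integralClosure_properties ℤ_[p] E
  have : IsLocalHom (algebraMap ℤ_[p] (integralClosure ℤ_[p] E)) :=
    isLocalHom_of_finite (R := ℤ_[p]) _ hOinj
  have : IsAdicComplete (maximalIdeal (integralClosure ℤ_[p] E)) (integralClosure ℤ_[p] E) :=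
    IsLocalRing.isAdicComplete_of_module_finite (𝒪 := ℤ_[p])
  have : Finite (ResidueField ℤ_[p]) :=
    Finite.of_equiv (ZMod p) PadicInt.residueField.symm.toEquiv
  have : Finite (ResidueField (integralClosure ℤ_[p] E)) := finite_residueField (R := ℤ_[p]) _
  have hpO : (p : integralClosure ℤ_[p] E) ∈ maximalIdeal (integralClosure ℤ_[p] E) := by
    rw [← map_natCast (algebraMap ℤ_[p] (integralClosure ℤ_[p] E))]
    refine map_nonunit _ _ ?_
    rw [PadicInt.maximalIdeal_eq_span_p]
    exact Ideal.mem_span_singleton_self _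
  let gE : C →+* E := g.codRestrict E.toSubring hgE
  have : IsScalarTower ℤ_[p] E Ω := IsScalarTower.of_algebraMap_eq fun x => by
    rw [IsScalarTower.algebraMap_apply ℤ_[p] (FractionRing ℤ_[p]) E,
      IsScalarTower.algebraMap_apply ℤ_[p] (FractionRing ℤ_[p]) Ω]
    rfl
  have hgEint : ∀ x, IsIntegral ℤ_[p] (gE x) := fun x => by
    refine (isIntegral_algHom_iff (IsScalarTower.toAlgHom ℤ_[p] E Ω) ?_).mp ?_
    · exact Subtype.val_injective
    · exact (Algebra.IsIntegral.isIntegral (R := ℤ_[p]) x).map gA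
  let gO : C →+* integralClosure ℤ_[p] E :=
    gE.codRestrict (integralClosure ℤ_[p] E).toSubring hgEint
  have : Algebra.IsIntegral ℤ_[p] C := Algebra.IsIntegral.of_finite ℤ_[p] C
  have : (Ideal.comap gO (maximalIdeal (integralClosure ℤ_[p] E))).IsPrime :=
    Ideal.IsPrime.comap gO
  have hmax := eq_maximalIdeal_of_mem p (Ideal.comap gO (maximalIdeal (integralClosure ℤ_[p] E)))
    (by rw [Ideal.mem_comap, map_natCast]; exact hpO)
  refine ⟨integralClosure ℤ_[p] E, inferInstance, inferInstance, hdvr, inferInstance,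
    inferInstance, hchar, gO.comp j, hpO, fun x => ?_⟩
  rw [← hj, ← hmax, Ideal.mem_comap, RingHom.comp_apply]

/-- A complete discrete valuation ring with finite residue field receiving `R`, with the given
prime below its maximal ideal. -/
theorem exists_coeff_ring (hp : (p : R) ∈ P) :
    ∃ (O : Type) (_ : CommRing O) (_ : IsDomain O) (_ : IsDiscreteValuationRing O)
      (_ : IsAdicComplete (maximalIdeal O) O) (_ : Finite (ResidueField O)) (_ : CharZero O)
      (ι : R →+* O), (p : O) ∈ maximalIdeal O ∧ ∀ x, ι x ∈ maximalIdeal O ↔ x ∈ P :=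
  exists_coeff_ring_aux p R P hp (AlgebraicClosure (FractionRing ℤ_[p]))

end Fermat.Agent.GalRep
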