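import Mathlib
import Fermat.Agent.Deformation.Burnside

/-!
# Descent of a representation to a finite field

`exists_descent`: a two-dimensional representation over an algebraically closed field descends to
a finite subfield containing all its traces and determinants.
-/

set_option autoImplicit false

noncomputable section

namespace Fermat.Agent.GalRep.Descent

open Matrix

variable {k₀ : Type} [Field k₀] [Finite k₀] {K : Type} [Field K] [Algebra k₀ K]

/-! ### Frobenius of a finite field -/

variable (k₀) in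
/-- The cardinality of the base field. -/
def cardBase : ℕ := Nat.card k₀

theorem algebraMap_pow_card (x : k₀) :
    (algebraMap k₀ K x) ^ cardBase k₀ = algebraMap k₀ K x := by
  have := Fintype.ofFinite k₀
  rw [← map_pow, cardBase, Nat.card_eq_fintype_card, FiniteField.pow_card]

theorem mem_range_of_pow_card_eq {x : K} (hx : x ^ cardBase k₀ = x) :
    x ∈ Set.range (algebraMap k₀ K) := by
  classical
  have := Fintype.ofFinite k₀
  let P : Polynomial K := Polynomial.X ^ cardBase k₀ - Polynomial.X
  have hq : 1 < cardBase k₀ := Finite.one_lt_card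
  have hP : P ≠ 0 := FiniteField.X_pow_card_sub_X_ne_zero K hq
  let s : Finset K := Finset.univ.image (algebraMap k₀ K)
  have hs : s.val ⊆ P.roots := fun y hy => by
    obtain ⟨a, -, rfl⟩ := Finset.mem_image.mp hy
    rw [Polynomial.mem_roots hP]
    simp [P, algebraMap_pow_card]
  have hcard : s.card = cardBase k₀ := by
    rw [Finset.card_image_of_injective _ (algebraMap k₀ K).injective, Finset.card_univ, cardBase,
      Nat.card_eq_fintype_card]
  by_contra hnot
  have hxs : x ∉ s := fun h => hnot (by
    obtain ⟨a, -, rfl⟩ := Finset.mem_image.mp h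
    exact ⟨a, rfl⟩)
  have h1 : (insert x s).val ⊆ P.roots := fun y hy => by
    rcases Finset.mem_insert.mp hy with rfl | hy
    · rw [Polynomial.mem_roots hP]; simp [P, hx]
    · exact hs hy
  have h2 := Multiset.card_le_card (Multiset.le_iff_subset (insert x s).nodup |>.mpr h1)
  have h3 := Polynomial.card_roots' P
  rw [FiniteField.X_pow_card_sub_X_natDegree_eq K hq] at h3
  rw [← Finset.card_def, Finset.card_insert_of_notMem hxs, hcard] at h2
  omega

theorem add_pow_card (x y : K) :
    (x + y) ^ cardBase k₀ = x ^ cardBase k₀ + y ^ cardBase k₀ := by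
  have := Fintype.ofFinite k₀
  obtain ⟨p, hp⟩ := CharP.exists k₀
  obtain ⟨n, hprime, hn⟩ := FiniteField.card k₀ p
  have : CharP K p := charP_of_injective_algebraMap (algebraMap k₀ K).injective p
  have := Fact.mk hprime
  rw [cardBase, Nat.card_eq_fintype_card, hn, add_pow_char_pow]

/-- The two roots of a quadratic over `k₀` are exchanged by Frobenius or fixed. -/
theorem pow_card_eq_or {x y : K} (hs : x + y ∈ Set.range (algebraMap k₀ K))
    (hp : x * y ∈ Set.range (algebraMap k₀ K)) :
    x ^ cardBase k₀ = x ∨ x ^ cardBase k₀ = y := by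
  obtain ⟨s, hs⟩ := hs
  obtain ⟨r, hr⟩ := hp
  have h1 : x ^ cardBase k₀ + y ^ cardBase k₀ = x + y := by
    rw [← add_pow_card, ← hs, algebraMap_pow_card]
  have h2 : x ^ cardBase k₀ * y ^ cardBase k₀ = x * y := by
    rw [← mul_pow, ← hr, algebraMap_pow_card]
  have h3 : (x ^ cardBase k₀ - x) * (x ^ cardBase k₀ - y) = 0 := by
    linear_combination x ^ cardBase k₀ * h1 - h2
  rcases mul_eq_zero.mp h3 with h | h
  · exact Or.inl (sub_eq_zero.mp h)
  · exact Or.inr (sub_eq_zero.mp h)

/-! ### The case of a common eigenvector -/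

section Triangular

variable {G : Type*} [Group G] (χ χ' : G →* K)
  (hs : ∀ g, χ g + χ' g ∈ Set.range (algebraMap k₀ K))
  (hp : ∀ g, χ g * χ' g ∈ Set.range (algebraMap k₀ K))

include hs hp in
theorem exists_matrices_of_characters :
    ∃ M : G →* Matrix (Fin 2) (Fin 2) k₀,
      (∀ g, algebraMap k₀ K (M g).trace = χ g + χ' g) ∧
      (∀ g, algebraMap k₀ K (M g).det = χ g * χ' g) ∧
      (∀ g, χ g = 1 → χ' g = 1 → M g = 1) := by
  classical
  have inj : Function.Injective (algebraMap k₀ K) := (algebraMap k₀ K).injective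
  by_cases hall : ∀ g, χ g ∈ Set.range (algebraMap k₀ K)
  · have hall' : ∀ g, χ' g ∈ Set.range (algebraMap k₀ K) := fun g => by
      obtain ⟨a, ha⟩ := hall g
      obtain ⟨s, hs⟩ := hs g
      exact ⟨s - a, by rw [map_sub, hs, ha]; ring⟩
    choose a ha using hall
    choose b hb using hall'
    let A : G →* k₀ :=
      { toFun := a
        map_one' := inj (by rw [ha, map_one, map_one])
        map_mul' := fun g h => inj (by rw [map_mul, ha, ha, ha, map_mul]) }
    let B : G →* k₀ :=
      { toFun := b
        map_one' := inj (by rw [hb, map_one, map_one])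
        map_mul' := fun g h => inj (by rw [map_mul, hb, hb, hb, map_mul]) }
    refine ⟨(Matrix.diagonalRingHom (Fin 2) k₀).toMonoidHom.comp
      (MonoidHom.pi ![A, B]), fun g => ?_, fun g => ?_, fun g h h' => ?_⟩
    · simp [Matrix.trace_diagonal, Fin.sum_univ_two, MonoidHom.pi_apply, A, B, ha, hb]
    · simp [Matrix.det_diagonal, Fin.prod_univ_two, MonoidHom.pi_apply, A, B, ha, hb]
    · have h1 : a g = 1 := inj (by rw [ha, h, map_one])
      have h2 : b g = 1 := inj (by rw [hb, h', map_one])
      ext i j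
      fin_cases i <;> fin_cases j <;> simp [MonoidHom.pi_apply, A, B, h1, h2]
  obtain ⟨g₀, hg₀⟩ := not_forall.mp hall
  set β := χ g₀ with hβ
  have hβq : β ^ cardBase k₀ ≠ β := fun h => hg₀ (mem_range_of_pow_card_eq h)
  have hχ' : ∀ g, χ' g = χ g ^ cardBase k₀ := by
    intro g
    rcases pow_card_eq_or (hs g) (hp g) with h | h
    · have hgg : (χ (g * g₀)) ^ cardBase k₀ ≠ χ (g * g₀) := by
        rw [map_mul, mul_pow, h]
        intro h'
        have hne : χ g ≠ 0 := left_ne_zero_of_mul (a := χ g) (b := χ g⁻¹)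
          (by rw [← map_mul, mul_inv_cancel, map_one]; exact one_ne_zero)
        exact hβq (mul_left_cancel₀ hne h')
      have h1 := (pow_card_eq_or (hs (g * g₀)) (hp (g * g₀))).resolve_left hgg
      have h0 := (pow_card_eq_or (hs g₀) (hp g₀)).resolve_left hβq
      rw [map_mul, map_mul, mul_pow, ← h0] at h1
      refine (mul_right_cancel₀ ?_ h1).symm
      rw [h0]
      exact left_ne_zero_of_mul (a := χ' g₀) (b := χ' g₀⁻¹)
        (by rw [← map_mul, mul_inv_cancel, map_one]; exact one_ne_zero)
    · exact h.symm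
  -- coordinates in the basis `1, β`
  have hcoord : ∀ x : K, (x ^ cardBase k₀) ^ cardBase k₀ = x →
      ∃ a b : k₀, x = algebraMap k₀ K a + algebraMap k₀ K b * β := by
    have hβ2 : (β ^ cardBase k₀) ^ cardBase k₀ = β := by
      have h := hχ' g₀
      rw [← hβ] at h
      obtain ⟨s, hs0⟩ := hs g₀
      rw [← hβ, h] at hs0
      have h' : (β + β ^ cardBase k₀) ^ cardBase k₀ = β + β ^ cardBase k₀ := by
        rw [← hs0]; exact algebraMap_pow_card s
      rw [add_pow_card] at h'
      linear_combination h'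
    intro x hx
    have hd : β ^ cardBase k₀ - β ≠ 0 := sub_ne_zero.mpr hβq
    obtain ⟨b, hb⟩ := mem_range_of_pow_card_eq (k₀ := k₀)
        (x := (x ^ cardBase k₀ - x) / (β ^ cardBase k₀ - β)) (by
      rw [div_pow]
      have e1 : (x ^ cardBase k₀ - x) ^ cardBase k₀ = x - x ^ cardBase k₀ := by
        have h' := add_pow_card (k₀ := k₀) (x ^ cardBase k₀ - x) x
        rw [sub_add_cancel] at h'
        linear_combination hx - h'
      have e2 : (β ^ cardBase k₀ - β) ^ cardBase k₀ = β - β ^ cardBase k₀ := by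
        have h' := add_pow_card (k₀ := k₀) (β ^ cardBase k₀ - β) β
        rw [sub_add_cancel] at h'
        linear_combination hβ2 - h'
      show (x ^ cardBase k₀ - x) ^ cardBase k₀ / (β ^ cardBase k₀ - β) ^ cardBase k₀ = _
      rw [e1, e2, ← neg_sub (x ^ cardBase k₀) x, ← neg_sub (β ^ cardBase k₀) β, neg_div_neg_eq])
    have hb' : algebraMap k₀ K b * (β ^ cardBase k₀ - β) = x ^ cardBase k₀ - x := by
      rw [hb, div_mul_cancel₀ _ hd]
    obtain ⟨a, ha⟩ := mem_range_of_pow_card_eq (k₀ := k₀) (x := x - algebraMap k₀ K b * β) (by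
      have h' := add_pow_card (k₀ := k₀) (x - algebraMap k₀ K b * β) (algebraMap k₀ K b * β)
      rw [sub_add_cancel, mul_pow, algebraMap_pow_card] at h'
      show _ ^ cardBase k₀ = _
      linear_combination -h' - hb')
    exact ⟨a, b, by rw [ha]; ring⟩
  have hsq : ∀ g, (χ g ^ cardBase k₀) ^ cardBase k₀ = χ g := by
    intro g
    obtain ⟨s, hs0⟩ := hs g
    rw [hχ' g] at hs0
    have h' : (χ g + χ g ^ cardBase k₀) ^ cardBase k₀ = χ g + χ g ^ cardBase k₀ := by
      rw [← hs0]; exact algebraMap_pow_card s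
    rw [add_pow_card] at h'
    linear_combination h'
  choose a b hab using fun g => hcoord (χ g) (hsq g)
  have hβcoord : ∀ g, ∃ c e : k₀, χ g * β = algebraMap k₀ K c + algebraMap k₀ K e * β := by
    intro g
    refine hcoord _ ?_
    rw [hβ, ← map_mul]
    exact hsq _
  choose c e hce using hβcoord
  let M : G → Matrix (Fin 2) (Fin 2) k₀ := fun g => !![a g, c g; b g, e g]
  let V : Matrix (Fin 2) (Fin 2) K := !![1, β; 1, β ^ cardBase k₀]
  have hVdet : V.det ≠ 0 := by
    rw [Matrix.det_fin_two_of, one_mul, mul_one]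
    exact sub_ne_zero.mpr hβq
  have hV : ∀ g, V * (M g).map (algebraMap k₀ K) =
      Matrix.diagonal ![χ g, χ g ^ cardBase k₀] * V := by
    intro g
    have h1 : χ g ^ cardBase k₀ =
        algebraMap k₀ K (a g) + algebraMap k₀ K (b g) * β ^ cardBase k₀ := by
      conv_lhs => rw [hab g]
      rw [add_pow_card, mul_pow, algebraMap_pow_card, algebraMap_pow_card]
    have h2 : χ g ^ cardBase k₀ * β ^ cardBase k₀ =
        algebraMap k₀ K (c g) + algebraMap k₀ K (e g) * β ^ cardBase k₀ := by
      rw [← mul_pow, hce g, add_pow_card, mul_pow, algebraMap_pow_card, algebraMap_pow_card]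
    ext i j
    fin_cases i <;> fin_cases j <;>
      simp [V, M, Matrix.mul_apply, Fin.sum_univ_two, Matrix.diagonal]
    · linear_combination -hab g
    · linear_combination -hce g
    · linear_combination -h1
    · linear_combination -h2
  have hunit : IsUnit V := (Matrix.isUnit_iff_isUnit_det V).mpr (isUnit_iff_ne_zero.mpr hVdet)
  have minj : Function.Injective fun X : Matrix (Fin 2) (Fin 2) k₀ =>
      V * X.map (algebraMap k₀ K) := fun X Y hXY =>
    Matrix.map_injective inj (hunit.mul_left_cancel hXY)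
  have hmap1 : (1 : Matrix (Fin 2) (Fin 2) k₀).map (algebraMap k₀ K) = 1 :=
    Matrix.map_one _ (map_zero _) (map_one _)
  refine ⟨{ toFun := M, map_one' := minj ?_, map_mul' := fun g h => minj ?_ },
    fun g => ?_, fun g => ?_, fun g h h' => minj ?_⟩
  · show V * (M 1).map _ = V * (1 : Matrix (Fin 2) (Fin 2) k₀).map _
    rw [hV, hmap1, map_one, one_pow, mul_one]
    have : (Matrix.diagonal ![(1 : K), 1]) = 1 := by
      ext i j; fin_cases i <;> fin_cases j <;> simp
    rw [this, one_mul]
  · show V * (M (g * h)).map _ = V * (M g * M h).map _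
    rw [Matrix.map_mul, ← mul_assoc, hV g, mul_assoc, hV h, hV, ← mul_assoc,
      Matrix.diagonal_mul_diagonal]
    congr 2
    funext i
    fin_cases i <;> simp [map_mul, mul_pow]
  · show algebraMap k₀ K (M g).trace = _
    have h1 : ((M g).map (algebraMap k₀ K)).trace =
        (Matrix.diagonal ![χ g, χ g ^ cardBase k₀]).trace := by
      have h2 : (M g).map (algebraMap k₀ K) =
          V⁻¹ * (Matrix.diagonal ![χ g, χ g ^ cardBase k₀] * V) := by
        rw [← hV g, ← mul_assoc, Matrix.nonsing_inv_mul _ (isUnit_iff_ne_zero.mpr hVdet),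
          one_mul]
      rw [h2, Matrix.trace_mul_comm, mul_assoc,
        Matrix.mul_nonsing_inv _ (isUnit_iff_ne_zero.mpr hVdet), mul_one]
    rw [hχ' g, Matrix.trace_diagonal, Fin.sum_univ_two] at *
    rw [← AddMonoidHom.map_trace] at h1
    simpa using h1
  · show algebraMap k₀ K (M g).det = _
    have h1 := congrArg Matrix.det (hV g)
    rw [Matrix.det_mul, Matrix.det_mul, Matrix.det_diagonal, Fin.prod_univ_two, mul_comm] at h1
    have h2 := mul_right_cancel₀ hVdet h1
    rw [← RingHom.mapMatrix_apply, ← RingHom.map_det] at h2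
    simpa [hχ' g] using h2
  · show V * (M g).map _ = V * (1 : Matrix (Fin 2) (Fin 2) k₀).map _
    rw [hV, hmap1, h, one_pow, mul_one]
    have : (Matrix.diagonal ![(1 : K), 1]) = 1 := by
      ext i j; fin_cases i <;> fin_cases j <;> simp
    rw [this, one_mul]

end Triangular

/-! ### The irreducible case -/

theorem exists_conj_matrices {G : Type*} [Monoid G] (f : G →* Matrix (Fin 2) (Fin 2) K)
    (htr : ∀ g, (f g).trace ∈ Set.range (algebraMap k₀ K))
    (hspan : Submodule.span K (Set.range f) = ⊤) :
    ∃ (P : Matrix (Fin 2) (Fin 2) K) (M : G →* Matrix (Fin 2) (Fin 2) k₀), IsUnit P ∧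
      ∀ g, P * f g = (M g).map (algebraMap k₀ K) * P := by
  classical
  let A : Subalgebra k₀ (Matrix (Fin 2) (Fin 2) K) := Algebra.adjoin k₀ (Set.range f)
  have hAspan : Subalgebra.toSubmodule A = Submodule.span k₀ (Set.range f) := by
    show Subalgebra.toSubmodule (Algebra.adjoin k₀ (Set.range f)) = _
    rw [Algebra.adjoin_eq_span]
    congr 1
    rw [← MonoidHom.coe_mrange, Submonoid.closure_eq]
  have hAtr : ∀ y ∈ A, Matrix.trace y ∈ Set.range (algebraMap k₀ K) := by
    intro y hy
    rw [← Subalgebra.mem_toSubmodule, hAspan] at hy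
    induction hy using Submodule.span_induction with
    | mem x hx => obtain ⟨g, rfl⟩ := hx; exact htr g
    | zero => exact ⟨0, by simp⟩
    | add x y _ _ hx hy =>
      obtain ⟨a, ha⟩ := hx; obtain ⟨b, hb⟩ := hy
      exact ⟨a + b, by rw [map_add, ha, hb, Matrix.trace_add]⟩
    | smul c x _ hx =>
      obtain ⟨a, ha⟩ := hx
      exact ⟨c * a, by rw [map_mul, ha, Matrix.trace_smul, Algebra.smul_def]⟩
  have hfA : ∀ g, f g ∈ A := fun g => Algebra.subset_adjoin ⟨g, rfl⟩
  have hAK : Submodule.span K (A : Set (Matrix (Fin 2) (Fin 2) K)) = ⊤ :=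
    top_unique (hspan ▸ Submodule.span_mono (Set.range_subset_iff.mpr hfA))
  -- `A` is finite
  have : Finite A := by
    obtain ⟨s, hsA, hs, hsli⟩ :=
      exists_linearIndependent K (A : Set (Matrix (Fin 2) (Fin 2) K))
    have hfin : s.Finite := hsli.setFinite
    have := hfin.to_subtype
    refine Finite.of_injective (fun y : A => fun z : s =>
      (hAtr _ (A.mul_mem y.2 (hsA z.2))).choose) fun y y' hyy' => Subtype.ext ?_
    have hz : ∀ z ∈ s, (((y : Matrix (Fin 2) (Fin 2) K) - y') * z).trace = 0 := by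
      intro z hz
      rw [sub_mul, Matrix.trace_sub, sub_eq_zero,
        ← (hAtr _ (A.mul_mem y.2 (hsA hz))).choose_spec,
        ← (hAtr _ (A.mul_mem y'.2 (hsA hz))).choose_spec]
      exact congrArg _ (congrFun hyy' ⟨z, hz⟩)
    have hall : ∀ z, (((y : Matrix (Fin 2) (Fin 2) K) - y') * z).trace = 0 := by
      intro z
      have hz' : z ∈ Submodule.span K s := by rw [hs, hAK]; trivial
      induction hz' using Submodule.span_induction with
      | mem x hx => exact hz x hx
      | zero => simp
      | add a b _ _ ha hb => simp [mul_add, ha, hb]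
      | smul c a _ ha => simp [ha]
    refine sub_eq_zero.mp ?_
    ext i j
    simpa [Matrix.trace, Matrix.mul_apply, Matrix.single_apply, Fin.sum_univ_two] using
      (Matrix.trace_mul_single ..).symm.trans (hall (Matrix.single j i 1))
  -- `A` is not commutative, so contains a singular element
  obtain ⟨x, hxA, hx0, hxdet⟩ :
      ∃ x ∈ A, x ≠ 0 ∧ Matrix.det x = 0 := by
    by_contra hno
    have hdom : IsDomain A := by
      have : Nontrivial A := ⟨⟨0, 1, fun h => zero_ne_one (congrArg Subtype.val h)⟩⟩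
      have : NoZeroDivisors A := ⟨fun {a b} hab => by
        by_contra hne
        rw [not_or] at hne
        have ha : Matrix.det (a : Matrix (Fin 2) (Fin 2) K) ≠ 0 := fun h =>
          hno ⟨_, a.2, fun h0 => hne.1 (Subtype.ext h0), h⟩
        have hb : Matrix.det (b : Matrix (Fin 2) (Fin 2) K) ≠ 0 := fun h =>
          hno ⟨_, b.2, fun h0 => hne.2 (Subtype.ext h0), h⟩
        have := congrArg (fun z : A => Matrix.det (z : Matrix (Fin 2) (Fin 2) K)) hab
        simp [ha, hb] at this⟩
      exact NoZeroDivisors.to_isDomain A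
    have hfield : IsField A := Finite.isDomain_to_isField A
    have hcomm : ∀ a ∈ A, ∀ b : Matrix (Fin 2) (Fin 2) K, a * b = b * a := by
      intro a ha b
      have hb : b ∈ Submodule.span K (A : Set (Matrix (Fin 2) (Fin 2) K)) := by rw [hAK]; trivial
      induction hb using Submodule.span_induction with
      | mem x hx => exact congrArg Subtype.val (hfield.mul_comm ⟨a, ha⟩ ⟨x, hx⟩)
      | zero => simp
      | add x y _ _ hx hy => rw [mul_add, add_mul, hx, hy]
      | smul c x _ hx => rw [Matrix.mul_smul, Matrix.smul_mul, hx]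
    have hcomm' : ∀ a b : Matrix (Fin 2) (Fin 2) K, a * b = b * a := by
      intro a b
      have ha : a ∈ Submodule.span K (A : Set (Matrix (Fin 2) (Fin 2) K)) := by rw [hAK]; trivial
      induction ha using Submodule.span_induction with
      | mem x hx => exact hcomm x hx b
      | zero => simp
      | add x y _ _ hx hy => rw [mul_add, add_mul, hx, hy]
      | smul c x _ hx => rw [Matrix.mul_smul, Matrix.smul_mul, hx]
    have h := congrFun (congrFun (hcomm' !![1, 0; 0, 0] !![0, 1; 0, 0]) 0) 1
    simp [Matrix.mul_apply, Fin.sum_univ_two] at h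
  -- `x = w ⊗ φ`
  obtain ⟨w, φ, hxe⟩ : ∃ w φ : Fin 2 → K, x = Matrix.vecMulVec w φ := by
    rw [Matrix.det_fin_two] at hxdet
    by_cases h : x 0 0 = 0 ∧ x 0 1 = 0
    · refine ⟨![0, 1], x 1, ?_⟩
      ext i j
      fin_cases i <;> fin_cases j <;> simp [Matrix.vecMulVec, h.1, h.2]
    · by_cases h0 : x 0 0 = 0
      · have h1 : x 0 1 ≠ 0 := fun h1 => h ⟨h0, h1⟩
        have h2 : x 1 0 = 0 := by
          rw [h0, zero_mul, zero_sub, neg_eq_zero] at hxdet
          exact (mul_eq_zero.mp hxdet).resolve_left h1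
        refine ⟨![1, x 1 1 / x 0 1], x 0, ?_⟩
        ext i j
        fin_cases i <;> fin_cases j <;> simp [Matrix.vecMulVec, h0, h1, h2]
      · refine ⟨![1, x 1 0 / x 0 0], x 0, ?_⟩
        ext i j
        fin_cases i <;> fin_cases j <;>
          simp [Matrix.vecMulVec, h0]
        field_simp
        linear_combination hxdet
  have hw : w ≠ 0 := fun h => hx0 (by rw [hxe, h, Matrix.zero_vecMulVec])
  have hφ : φ ≠ 0 := fun h => hx0 (by rw [hxe, h, Matrix.vecMulVec_zero])
  have hkey : ∀ y ∈ A, φ ⬝ᵥ (y *ᵥ w) ∈ Set.range (algebraMap k₀ K) := by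
    intro y hy
    have h := hAtr _ (A.mul_mem hy hxA)
    rwa [hxe, Matrix.mul_vecMulVec, Matrix.trace_vecMulVec, dotProduct_comm] at h
  -- two rows and two columns
  have pick : ∀ (L : Matrix (Fin 2) (Fin 2) K →ₗ[K] (Fin 2 → K)), Function.Surjective L →
      ∃ z : Fin 2 → Matrix (Fin 2) (Fin 2) K, (∀ i, z i ∈ A) ∧
        LinearIndependent K fun i => L (z i) := by
    intro L hL
    have h : Submodule.span K (L '' (A : Set (Matrix (Fin 2) (Fin 2) K))) = ⊤ := by
      rw [Submodule.span_image, hAK, Submodule.map_top, LinearMap.range_eq_top.mpr hL]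
    obtain ⟨b, hbsub, hbspan, hbli⟩ :=
      exists_linearIndependent K (L '' (A : Set (Matrix (Fin 2) (Fin 2) K)))
    let bb : Module.Basis b K (Fin 2 → K) := Module.Basis.mk hbli (by
      rw [Subtype.range_coe]; exact (hbspan.trans h).ge)
    let e : Fin 2 ≃ b := ((Pi.basisFun K (Fin 2)).indexEquiv bb)
    choose z hzA hz using fun i => hbsub (e i).2
    exact ⟨z, hzA, by
      simp only [hz]
      exact hbli.comp e e.injective⟩
  obtain ⟨z, hzA, hzli⟩ := pick
    { toFun := fun y => φ ᵥ* y
      map_add' := fun y y' => Matrix.vecMul_add ..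
      map_smul' := fun c y => Matrix.vecMul_smul .. } (by
    intro r
    obtain ⟨i, hi⟩ := Function.ne_iff.mp hφ
    refine ⟨Matrix.vecMulVec (Pi.single i (φ i)⁻¹) r, ?_⟩
    show φ ᵥ* _ = r
    rw [Matrix.vecMul_vecMulVec, dotProduct_single, mul_inv_cancel₀ hi, one_smul])
  obtain ⟨y, hyA, hyli⟩ := pick
    { toFun := fun y => y *ᵥ w
      map_add' := fun y y' => Matrix.add_mulVec ..
      map_smul' := fun c y => Matrix.smul_mulVec .. } (by
    intro r
    obtain ⟨i, hi⟩ := Function.ne_iff.mp hw
    refine ⟨Matrix.vecMulVec r (Pi.single i (w i)⁻¹), ?_⟩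
    show _ *ᵥ w = r
    rw [Matrix.vecMulVec_mulVec, single_dotProduct, inv_mul_cancel₀ hi]
    simp)
  let P : Matrix (Fin 2) (Fin 2) K := Matrix.of fun i => φ ᵥ* z i
  let Q : Matrix (Fin 2) (Fin 2) K := (Matrix.of fun j => y j *ᵥ w)ᵀ
  have hP : IsUnit P := Matrix.linearIndependent_rows_iff_isUnit.mp hzli
  have hQ : IsUnit Q := Matrix.linearIndependent_cols_iff_isUnit.mp hyli
  have hPQ : ∀ (X : Matrix (Fin 2) (Fin 2) K) (i j : Fin 2),
      (P * X * Q) i j = φ ⬝ᵥ ((z i * X * y j) *ᵥ w) := by
    intro X i j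
    rw [← Matrix.mulVec_mulVec, ← Matrix.mulVec_mulVec, dotProduct_mulVec, dotProduct_mulVec]
    rfl
  have hX : ∀ X ∈ A, ∃ R : Matrix (Fin 2) (Fin 2) k₀,
      R.map (algebraMap k₀ K) = P * X * Q := by
    intro X hX
    choose R hR using fun i j => hkey (z i * X * y j) (A.mul_mem (A.mul_mem (hzA i) hX) (hyA j))
    exact ⟨Matrix.of R, Matrix.ext fun i j => (hR i j).trans (hPQ X i j).symm⟩
  obtain ⟨U, hU⟩ := hX 1 A.one_mem
  rw [mul_one] at hU
  have hUdet : IsUnit U.det := by
    rw [isUnit_iff_ne_zero]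
    intro h0
    have h1 : IsUnit (P * Q).det := (Matrix.isUnit_iff_isUnit_det _).mp (hP.mul hQ)
    rw [← hU, ← RingHom.mapMatrix_apply, ← RingHom.map_det, h0, map_zero] at h1
    exact not_isUnit_zero h1
  choose R hR using fun g => hX (f g) (hfA g)
  have hconj : ∀ g, P * f g = (R g * U⁻¹).map (algebraMap k₀ K) * P := by
    intro g
    apply hQ.mul_right_cancel
    rw [← hR g, mul_assoc _ P Q, ← hU, ← Matrix.map_mul, mul_assoc (R g),
      Matrix.nonsing_inv_mul _ hUdet, mul_one]
  have hinj : Function.Injective fun S : Matrix (Fin 2) (Fin 2) k₀ =>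
      S.map (algebraMap k₀ K) * P := fun S S' h =>
    Matrix.map_injective (algebraMap k₀ K).injective (hP.mul_right_cancel h)
  refine ⟨P, { toFun := fun g => R g * U⁻¹, map_one' := hinj ?_, map_mul' := fun g h => hinj ?_ },
    hP, hconj⟩
  · show (R 1 * U⁻¹).map _ * P = (1 : Matrix (Fin 2) (Fin 2) k₀).map _ * P
    rw [← hconj, map_one, Matrix.map_one _ (map_zero _) (map_one _), mul_one, one_mul]
  · show (R (g * h) * U⁻¹).map _ * P = (R g * U⁻¹ * (R h * U⁻¹)).map _ * P
    rw [← hconj, map_mul, Matrix.map_mul, mul_assoc (Matrix.map (R g * U⁻¹) _), ← hconj h,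
      ← mul_assoc, ← mul_assoc, hconj g]

/-- Descent of a representation with values of traces and determinants in a finite field. -/
theorem exists_descent [IsAlgClosed K] {G : Type*} [Group G]
    (f : G →* Matrix (Fin 2) (Fin 2) K)
    (htr : ∀ g, (f g).trace ∈ Set.range (algebraMap k₀ K))
    (hdet : ∀ g, (f g).det ∈ Set.range (algebraMap k₀ K)) :
    ∃ M : G →* Matrix (Fin 2) (Fin 2) k₀,
      (∀ g, algebraMap k₀ K (M g).trace = (f g).trace) ∧
      (∀ g, algebraMap k₀ K (M g).det = (f g).det) ∧
      (∀ g, f g = 1 → M g = 1) := by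
  by_cases hev : ∃ v : Fin 2 → K, v ≠ 0 ∧ ∀ g, ∃ c : K, f g *ᵥ v = c • v
  · obtain ⟨v, hv, hc⟩ := hev
    choose c hc using hc
    let χ : G →* K :=
      { toFun := c
        map_one' := smul_left_injective K hv (by
          show c 1 • v = (1 : K) • v
          rw [← hc, map_one, Matrix.one_mulVec, one_smul])
        map_mul' := fun g h => smul_left_injective K hv (by
          show c (g * h) • v = (c g * c h) • v
          rw [← hc, map_mul, ← Matrix.mulVec_mulVec, hc, Matrix.mulVec_smul, hc, smul_smul,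
            mul_comm]) }
    have hχ0 : ∀ g, c g ≠ 0 := fun g => by
      have h := map_mul χ g g⁻¹
      rw [mul_inv_cancel, map_one] at h
      exact left_ne_zero_of_mul (h ▸ one_ne_zero : χ g * χ g⁻¹ ≠ 0)
    let D : G →* K := Matrix.detMonoidHom.comp f
    let χ' : G →* K :=
      { toFun := fun g => D g / c g
        map_one' := by
          show D 1 / χ 1 = 1
          rw [map_one, map_one, div_one]
        map_mul' := fun g h => by
          show D (g * h) / χ (g * h) = D g / χ g * (D h / χ h)
          rw [map_mul, map_mul, mul_div_mul_comm] }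
    have hroot : ∀ g, c g + χ' g = (f g).trace := by
      intro g
      have h0 : Matrix.det (f g - c g • 1) = 0 :=
        Matrix.exists_mulVec_eq_zero_iff.mp ⟨v, hv, by
          rw [Matrix.sub_mulVec, Matrix.smul_mulVec, Matrix.one_mulVec, hc, sub_self]⟩
      show c g + (f g).det / c g = _
      rw [Matrix.det_fin_two] at h0
      simp at h0
      rw [Matrix.det_fin_two, Matrix.trace_fin_two]
      field_simp [hχ0 g]
      linear_combination h0
    have hprod : ∀ g, χ g * χ' g = (f g).det := fun g =>
      mul_div_cancel₀ _ (hχ0 g)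
    obtain ⟨M, hMt, hMd, hM1⟩ := exists_matrices_of_characters (k₀ := k₀) χ χ'
      (fun g => (hroot g).symm ▸ htr g) (fun g => (hprod g).symm ▸ hdet g)
    refine ⟨M, fun g => (hMt g).trans (hroot g), fun g => (hMd g).trans (hprod g),
      fun g hg => ?_⟩
    have h1 : χ g = 1 := smul_left_injective K hv (by
      show c g • v = (1 : K) • v
      rw [← hc, hg, Matrix.one_mulVec, one_smul])
    refine hM1 g h1 ?_
    show (f g).det / χ g = 1
    rw [h1, hg, Matrix.det_one, div_one]
  · have hspan : Submodule.span K (Set.range f) = ⊤ := by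
      refine Deformation.burnside_two _ (Submodule.subset_span ⟨1, map_one f⟩) ?_ ?_
      · intro x hx y hy
        have hle : Submodule.span K (Set.range f) * Submodule.span K (Set.range f) ≤
            Submodule.span K (Set.range f) := by
          rw [Submodule.span_mul_span, Submodule.span_le]
          rintro _ ⟨_, ⟨s, rfl⟩, _, ⟨t, rfl⟩, rfl⟩
          exact Submodule.subset_span ⟨s * t, map_mul f s t⟩
        exact hle (Submodule.mul_mem_mul hx hy)
      · intro v hv
        by_contra hno
        refine hev ⟨v, hv, fun g => ?_⟩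
        by_contra hg
        exact hno ⟨f g, Submodule.subset_span ⟨g, rfl⟩, fun c hc => hg ⟨c, hc⟩⟩
    obtain ⟨P, M, hP, hM⟩ := exists_conj_matrices f htr hspan
    have hPd : IsUnit P.det := (Matrix.isUnit_iff_isUnit_det P).mp hP
    have hMeq : ∀ g, (M g).map (algebraMap k₀ K) = P * f g * P⁻¹ := fun g => by
      rw [hM g, mul_assoc, Matrix.mul_nonsing_inv _ hPd, mul_one]
    refine ⟨M, fun g => ?_, fun g => ?_, fun g hg => ?_⟩
    · refine (AddMonoidHom.map_trace (algebraMap k₀ K).toAddMonoidHom (M g)).trans ?_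
      show ((M g).map (algebraMap k₀ K)).trace = _
      rw [hMeq, Matrix.trace_mul_comm, ← mul_assoc, Matrix.nonsing_inv_mul _ hPd, one_mul]
    · rw [RingHom.map_det, RingHom.mapMatrix_apply, hMeq, Matrix.det_mul, Matrix.det_mul,
        mul_right_comm, ← Matrix.det_mul, Matrix.mul_nonsing_inv _ hPd, Matrix.det_one, one_mul]
    · apply Matrix.map_injective (algebraMap k₀ K).injective
      show (M g).map _ = (1 : Matrix (Fin 2) (Fin 2) k₀).map _
      rw [hMeq, hg, mul_one, Matrix.mul_nonsing_inv _ hPd,
        Matrix.map_one _ (map_zero _) (map_one _)]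

end Fermat.Agent.GalRep.Descent
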