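import Fermat.Agent.GalRep.Datum

/-!
# Common eigenspaces and extension of scalars

The dimensions of common eigenspaces of integer matrices do not depend on the field of
coefficients; `finrank_eigenspace_bounds` transfers their bounds from `ℂ`.
-/

set_option autoImplicit false

noncomputable section

namespace Fermat.Agent.GalRep

open Matrix

section BaseChange

variable {K F : Type*} [Field K] [Field F] (ι : K →+* F)

/-- Linearly independent vectors stay independent under extension of scalars. -/
theorem linearIndependent_map {m : Type*} [Fintype m] [DecidableEq m] {r : ℕ}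
    {v : Fin r → m → K} (hv : LinearIndependent K v) :
    LinearIndependent F fun i => ι ∘ v i := by
  set V : Matrix m (Fin r) K := Matrix.of fun x i => v i x
  have hker : LinearMap.ker V.toLin' = ⊥ :=
    LinearMap.ker_eq_bot.mpr (Matrix.mulVec_injective_iff.mpr hv)
  obtain ⟨g, hg⟩ := V.toLin'.exists_leftInverse_of_injective hker
  have hGV : LinearMap.toMatrix' g * V = 1 := by
    have h := congrArg LinearMap.toMatrix' hg
    rwa [LinearMap.toMatrix'_comp, LinearMap.toMatrix'_toLin', LinearMap.toMatrix'_id] at h
  have h : (LinearMap.toMatrix' g).map ι * V.map ι = 1 := by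
    rw [← Matrix.map_mul, hGV, Matrix.map_one ι (map_zero ι) (map_one ι)]
  have hinj : Function.Injective (V.map ι).mulVec := fun x y hxy => by
    simpa [Matrix.mulVec_mulVec, h] using congrArg ((LinearMap.toMatrix' g).map ι).mulVec hxy
  exact Matrix.mulVec_injective_iff.mp hinj

theorem rank_le_rank_map {m n : Type*} [Fintype m] [DecidableEq m] [Fintype n] [DecidableEq n]
    (B : Matrix m n K) : B.rank ≤ (B.map ι).rank := by
  let b := Module.finBasis K (LinearMap.range B.mulVecLin)
  have hv : LinearIndependent K ((LinearMap.range B.mulVecLin).subtype ∘ b) :=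
    b.linearIndependent.map' (LinearMap.range B.mulVecLin).subtype (Submodule.ker_subtype _)
  have hv' := linearIndependent_map ι hv
  have hmem : ∀ i, ι ∘ (b i : m → K) ∈ LinearMap.range (B.map ι).mulVecLin := fun i => by
    obtain ⟨x, hx⟩ := (b i).2
    refine ⟨ι ∘ x, ?_⟩
    rw [Matrix.mulVecLin_apply]
    funext j
    rw [← RingHom.map_mulVec, Function.comp_apply, ← hx, Matrix.mulVecLin_apply]
  have hv'' : LinearIndependent F fun i =>
      (⟨_, hmem i⟩ : LinearMap.range (B.map ι).mulVecLin) :=
    LinearIndependent.of_comp (LinearMap.range (B.map ι).mulVecLin).subtype hv'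
  simpa [Matrix.rank] using hv''.fintype_card_le_finrank

variable {d : ℕ} (t : Nat.Primes → Matrix (Fin d) (Fin d) ℤ) (a : Nat.Primes → K)

theorem finrank_eigenspace_map :
    Module.finrank F (eigenspace t fun q => ι (a q)) = Module.finrank K (eigenspace t a) := by
  classical
  have hmap : ∀ q, ((t q).map (Int.cast : ℤ → K)).map ι = (t q).map (Int.cast : ℤ → F) := fun q =>
    Matrix.ext fun i j => map_intCast ι _
  refine le_antisymm ?_ ?_
  · obtain ⟨s, hs⟩ : ∃ s : Finset Nat.Primes, ∀ s' : Finset Nat.Primes, ¬
        (⨅ q ∈ s', LinearMap.ker (Matrix.toLin' ((t q).map (Int.cast : ℤ → K)) -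
          a q • LinearMap.id))
          < ⨅ q ∈ s, LinearMap.ker
              (Matrix.toLin' ((t q).map (Int.cast : ℤ → K)) - a q • LinearMap.id) := by
      obtain ⟨W, ⟨s, hs⟩, hmin⟩ := wellFounded_lt.has_min
        (Set.range fun s : Finset Nat.Primes => ⨅ q ∈ s,
          LinearMap.ker (Matrix.toLin' ((t q).map (Int.cast : ℤ → K)) - a q • LinearMap.id))
        (Set.range_nonempty _)
      exact ⟨s, fun s' hlt => hmin _ ⟨s', rfl⟩ (hs ▸ hlt)⟩
    let B : Matrix (s × Fin d) (Fin d) K := Matrix.of fun x j =>
      ((t x.1).map (Int.cast : ℤ → K) - a x.1 • (1 : Matrix (Fin d) (Fin d) K)) x.2 j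
    have hker : LinearMap.ker B.mulVecLin ≤ eigenspace t a := by
      have hB : LinearMap.ker B.mulVecLin ≤ ⨅ q ∈ s,
          LinearMap.ker (Matrix.toLin' ((t q).map (Int.cast : ℤ → K)) - a q • LinearMap.id) := by
        intro v hv
        simp only [Submodule.mem_iInf, LinearMap.mem_ker, LinearMap.sub_apply, Matrix.toLin'_apply,
          LinearMap.smul_apply, LinearMap.id_apply]
        intro q hq
        funext i
        have h : (((t q).map (Int.cast : ℤ → K) - a q • (1 : Matrix (Fin d) (Fin d) K))
            *ᵥ v) i = 0 :=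
          congrFun (LinearMap.mem_ker.mp hv) (⟨q, hq⟩, i)
        simpa [Matrix.sub_mulVec, Matrix.smul_mulVec, Matrix.one_mulVec] using h
      refine hB.trans (le_iInf fun q => ?_)
      by_contra hq
      refine hs (insert q s) (lt_of_le_of_ne
        (biInf_mono fun x hx => Finset.mem_insert_of_mem hx) ?_)
      intro heq
      refine hq (heq ▸ ?_)
      exact biInf_le _ (Finset.mem_insert_self q s)
    have hker' : eigenspace t (fun q => ι (a q)) ≤ LinearMap.ker (B.map ι).mulVecLin := by
      intro v hv
      rw [mem_eigenspace] at hv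
      rw [LinearMap.mem_ker, Matrix.mulVecLin_apply]
      funext ⟨q, i⟩
      have hrow : ((B.map ι) *ᵥ v) (q, i) = (((t q).map (Int.cast : ℤ → F)) *ᵥ v -
          (ι (a q) • (1 : Matrix (Fin d) (Fin d) F)) *ᵥ v) i := by
        rw [← Matrix.sub_mulVec]
        simp only [Matrix.mulVec, B, dotProduct, Matrix.map_apply, Matrix.of_apply]
        refine Finset.sum_congr rfl fun j _ => ?_
        simp [Matrix.one_apply, apply_ite ι]
      rw [hrow, hv q]
      simp [Matrix.smul_mulVec]
    have h1 := Submodule.finrank_mono hker'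
    have h2 := Submodule.finrank_mono hker
    have h3 := LinearMap.finrank_range_add_finrank_ker B.mulVecLin
    have h4 := LinearMap.finrank_range_add_finrank_ker (B.map ι).mulVecLin
    have h5 := rank_le_rank_map ι B
    simp only [Matrix.rank, Module.finrank_fin_fun] at h3 h4 h5
    omega
  · let b := Module.finBasis K (eigenspace t a)
    have hv : LinearIndependent K ((eigenspace t a).subtype ∘ b) :=
      b.linearIndependent.map' (eigenspace t a).subtype (Submodule.ker_subtype _)
    have hv' := linearIndependent_map ι hv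
    have hmem : ∀ i, ι ∘ (b i : Fin d → K) ∈ eigenspace t (fun q => ι (a q)) := fun i => by
      rw [mem_eigenspace]
      intro q
      funext j
      rw [← hmap, ← RingHom.map_mulVec, (mem_eigenspace t a _).mp (b i).2 q]
      simp
    have hv'' : LinearIndependent F fun i =>
        (⟨_, hmem i⟩ : eigenspace t (fun q => ι (a q))) :=
      LinearIndependent.of_comp (eigenspace t fun q => ι (a q)).subtype hv'
    simpa using hv''.fintype_card_le_finrank

end BaseChange

namespace HeckeTorsionDatum

variable {N : ℕ} [NeZero N] {p : ℕ} (D : HeckeTorsionDatum N p)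

/-- The eigenspace bounds hold over every field of characteristic zero. -/
theorem finrank_eigenspace_bounds [Module.Finite ℤ (CuspForm.heckeAlgebra N 2 ∅)]
    {F : Type*} [Field F] [CharZero F] (κ : CuspForm.heckeAlgebra N 2 ∅ →+* F) :
    0 < Module.finrank F (eigenspace D.t fun q => κ (heckeOp N q)) ∧
      Module.finrank F (eigenspace D.t fun q => κ (heckeOp N q)) ≤ 2 := by
  let K : IntermediateField ℚ F := IntermediateField.adjoin ℚ (Set.range κ)
  have : Algebra.IsAlgebraic ℚ K := IntermediateField.isAlgebraic_adjoin fun x hx => by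
    obtain ⟨y, rfl⟩ := hx
    have := (Algebra.IsIntegral.isIntegral (R := ℤ) y).map κ.toIntAlgHom
    exact this.tower_top
  let κK : CuspForm.heckeAlgebra N 2 ∅ →+* K :=
    κ.codRestrict K.toSubring fun x => IntermediateField.subset_adjoin ℚ _ ⟨x, rfl⟩
  let σ : K →ₐ[ℚ] ℂ := IsAlgClosed.lift
  have h1 : Module.finrank F (eigenspace D.t fun q => κ (heckeOp N q)) =
      Module.finrank K (eigenspace D.t fun q => κK (heckeOp N q)) :=
    finrank_eigenspace_map (algebraMap K F) D.t fun q => κK (heckeOp N q)
  have h2 := finrank_eigenspace_map (σ : K →+* ℂ) D.t fun q => κK (heckeOp N q)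
  have h3 := D.eigen_pos ((σ : K →+* ℂ).comp κK)
  have h4 := D.eigen_le ((σ : K →+* ℂ).comp κK)
  simp only [RingHom.comp_apply] at h3 h4
  rw [h1, ← h2]
  exact ⟨h3, h4⟩

end HeckeTorsionDatum

end Fermat.Agent.GalRep
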