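import Fermat.Agent.GalRep.Residual
import Fermat.Agent.GalRep.DatumJZero
import Fermat.Agent.EC.Frobenius.DetCyclotomic
import Fermat.Agent.EC.Frobenius.Model
import Fermat.Agent.EC.Reducible.FreyModel
import Fermat.Agent.Density.Reps
import Fermat.Agent.Gal.Places
import Fermat.Prelude.Def_FreyPackage_EigenformResidualAttachment

/-!
# Residual attachment for eigenforms and Frey packages

`exists_residual_of_torsionReduction` and `eigenformResidualAttachmentAt_of_torsionReduction`,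
from the reduction properties of the torsion of `J₀(N)`.
-/

set_option autoImplicit false

noncomputable section

namespace Fermat.Agent.GalRep

open Polynomial

local notation "ℚbar" => AlgebraicClosure ℚ
local notation "Γℚbar" => AlgebraicClosure ℚ ≃ₐ[ℚ] AlgebraicClosure ℚ

/-- The residual representation attached to an eigenform, at every level (level `0` is vacuous). -/
theorem exists_residual_of_torsionReduction
    (hred : ∀ (N p : ℕ) [NeZero N], p.Prime → TorsionReduction N p)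
    {N : ℕ} {g : CuspForm (CongruenceSubgroup.Gamma0 N) 2} (hg : g.IsNormalizedEigenform)
    {p : ℕ} (hp : p.Prime) {k : Type} [Field k] [CharP k p] (φ : integralClosure ℤ ℂ →+* k) :
    ∃ ρ : ResidualGaloisRep k, ρ.IsAttachedTo g φ ∧
      ∀ ℓ : ℕ, ℓ.Prime → ¬ ℓ ∣ N * p → ρ.IsUnramifiedAt ℓ := by
  rcases eq_or_ne N 0 with h0 | hN
  · subst h0
    let M : Γℚbar →* Matrix (Fin 2) (Fin 2) k := 1
    have hM : GaloisFactorsThroughFiniteLevel M := ⟨⊥, inferInstance, fun σ _ => rfl⟩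
    exact ⟨residualOfMatrix M hM, fun ℓ _ hℓN => absurd (dvd_zero ℓ) hℓN,
      fun ℓ _ hℓN => absurd (by simp) hℓN⟩
  · have : NeZero N := ⟨hN⟩
    have : Fact p.Prime := ⟨hp⟩
    exact exists_residual_of_datum (jZeroDatum N p (hred N p hp)) hg φ

/-- The attachment statement for a Frey package. -/
theorem eigenformResidualAttachmentAt_of_torsionReduction
    (hred : ∀ (N p : ℕ) [NeZero N], p.Prime → TorsionReduction N p)
    (P : FreyPackage) (M : ℕ) (_hM : 0 < M) : P.EigenformResidualAttachmentAt M := by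
  classical
  intro g hg 𝔪 h𝔪 hp𝔪
  have hP : P.p.Prime := P.pp
  let : Field (integralClosure ℤ ℂ ⧸ 𝔪) := Ideal.Quotient.field 𝔪
  have : CharP (integralClosure ℤ ℂ ⧸ 𝔪) P.p := by
    rw [CharP.charP_iff_prime_eq_zero hP, ← map_natCast (Ideal.Quotient.mk 𝔪),
      Ideal.Quotient.eq_zero_iff_mem]
    exact hp𝔪
  obtain ⟨ρ, hatt, -⟩ := exists_residual_of_torsionReduction hred hg hP (Ideal.Quotient.mk 𝔪)
  have : P.freyCurve.IsElliptic := by
    rw [EC.Reducible.freyCurve_eq_map P]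
    exact EC.Frobenius.isElliptic_map_rat (EC.Reducible.freyCurveInt_Δ_ne_zero P)
  obtain ⟨L₁, hL₁, h₁⟩ := ρ.factorsThroughFiniteLevel
  obtain ⟨L₂, hL₂, h₂⟩ :=
    EC.Frobenius.galoisFactorsThroughFiniteLevel_torsion P.freyCurve hP.ne_zero
  have := Gal.isAlgebraic_rat_qbar
  let F := IntermediateField.normalClosure ℚ (L₁ ⊔ L₂ : IntermediateField ℚ ℚbar) ℚbar
  have : FiniteDimensional ℚ (L₁ ⊔ L₂ : IntermediateField ℚ ℚbar) :=
    IntermediateField.finiteDimensional_sup L₁ L₂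
  have : Normal ℚ F := normalClosure.normal ℚ _ ℚbar
  have : FiniteDimensional ℚ F :=
    normalClosure.is_finiteDimensional ℚ (L₁ ⊔ L₂ : IntermediateField ℚ ℚbar) ℚbar
  have : IsGalois ℚ F := ⟨⟩
  have : NumberField F := ⟨⟩
  have hle : L₁ ⊔ L₂ ≤ F := IntermediateField.le_normalClosure _
  refine ⟨integralClosure ℤ ℂ ⧸ 𝔪, inferInstance, ZMod.algebra _ P.p, ρ.V, inferInstance,
    inferInstance, ρ.ρ, Ideal.Quotient.mk 𝔪, F, inferInstance, inferInstance, inferInstance,
    inferInstance, inferInstance, le_of_eq Ideal.mk_ker.symm, ρ.finrank_eq, ?_, ?_, ?_⟩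
  · intro σ hσ
    rw [MonoidHom.mem_ker] at hσ
    have hfix : ∀ x ∈ (L₁ ⊔ L₂ : IntermediateField ℚ ℚbar), σ x = x := fun x hx => by
      have h := AlgEquiv.restrictNormal_commutes σ F ⟨x, hle hx⟩
      have hσ' : σ.restrictNormal F = 1 := hσ
      rw [hσ', AlgEquiv.one_apply] at h
      exact h.symm
    refine Subgroup.mem_inf.mpr ⟨?_, ?_⟩
    · rw [MonoidHom.mem_ker]
      convert h₂ σ fun x hx => hfix x ((le_sup_right : L₂ ≤ L₁ ⊔ L₂) hx) using 2
    · rw [MonoidHom.mem_ker]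
      exact h₁ σ fun x hx => hfix x ((le_sup_left : L₁ ≤ L₁ ⊔ L₂) hx)
  all_goals
    intro ℓ hℓ hℓM hℓp A hA τ hτ
    have hℓk : (ℓ : integralClosure ℤ ℂ ⧸ 𝔪) ≠ 0 := fun h => hℓp
      ((Nat.prime_dvd_prime_iff_eq hP hℓ).mp ((CharP.cast_eq_zero_iff _ P.p ℓ).mp h)).symm
    obtain ⟨a, ha, hcp⟩ := hatt ℓ hℓ hℓM hℓk A hA τ hτ
    rw [Density.charpoly_eq_of_finrank_two ρ.finrank_eq] at hcp
  · refine ⟨a, ha, ?_⟩
    have h := congrArg (fun q => Polynomial.coeff q 1) hcp
    simp [Polynomial.coeff_X_pow, Polynomial.coeff_C] at h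
    exact h
  · have h := congrArg (fun q => Polynomial.coeff q 0) hcp
    simp [Polynomial.coeff_X_pow] at h
    exact h

end Fermat.Agent.GalRep
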