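import Fermat.Agent.GalRep.Descent
import Fermat.Agent.Density.Places
import Fermat.Prelude.Def_GaloisRep_Adic

/-!
# Residual representations over the field of traces

`exists_residual_of_adic`: the residual representation of an adic representation, over the finite
field of its Frobenius traces.
-/

set_option autoImplicit false

noncomputable section

namespace Fermat.Agent.GalRep

open Polynomial Matrix IsLocalRing

local notation "ℚbar" => AlgebraicClosure ℚ
local notation "Γℚbar" => AlgebraicClosure ℚ ≃ₐ[ℚ] AlgebraicClosure ℚ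

/-- Cayley–Hamilton in size two. -/
theorem mul_self_fin_two {B : Type*} [CommRing B] (M : Matrix (Fin 2) (Fin 2) B) :
    M * M = M.trace • M - M.det • (1 : Matrix (Fin 2) (Fin 2) B) := by
  ext i j
  fin_cases i <;> fin_cases j <;>
    simp [Matrix.mul_apply, Fin.sum_univ_two, Matrix.trace_fin_two, Matrix.det_fin_two] <;> ring

theorem trace_pow_mem {B : Type*} [CommRing B] (R : Subring B) (M : Matrix (Fin 2) (Fin 2) B)
    (ht : M.trace ∈ R) (hd : M.det ∈ R) (j : ℕ) : (M ^ j).trace ∈ R := by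
  induction j using Nat.strong_induction_on with
  | _ j ih =>
    rcases j with _ | _ | j
    · rw [pow_zero, Matrix.trace_one, Fintype.card_fin]
      exact natCast_mem R 2
    · simpa using ht
    · rw [pow_add M j 2, pow_two, mul_self_fin_two, mul_sub, Matrix.mul_smul, Matrix.mul_smul,
        mul_one, ← pow_succ, Matrix.trace_sub, Matrix.trace_smul, Matrix.trace_smul, smul_eq_mul,
        smul_eq_mul]
      exact sub_mem (mul_mem ht (ih (j + 1) (by omega))) (mul_mem hd (ih j (by omega)))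

/-- The residual representation from matrices over a finite field. -/
def residualOfMatrix {k : Type} [Field k] (M : Γℚbar →* Matrix (Fin 2) (Fin 2) k)
    (hM : GaloisFactorsThroughFiniteLevel M) : ResidualGaloisRep k where
  V := Fin 2 → k
  finrank_eq := Module.finrank_fin_fun k
  ρ := (Matrix.toLinAlgEquiv' (R := k) (n := Fin 2)).toAlgHom.toMonoidHom.comp M
  factorsThroughFiniteLevel := by
    obtain ⟨L, hL, h⟩ := hM
    exact ⟨L, hL, fun σ hσ => by rw [MonoidHom.comp_apply, h σ hσ, map_one]⟩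

theorem residualOfMatrix_charpoly {k : Type} [Field k] (M : Γℚbar →* Matrix (Fin 2) (Fin 2) k)
    (hM : GaloisFactorsThroughFiniteLevel M) (σ : Γℚbar) :
    LinearMap.charpoly ((residualOfMatrix M hM).ρ σ) =
      X ^ 2 - C (M σ).trace * X + C (M σ).det :=
  (Matrix.charpoly_toLin' (M σ)).trans (Matrix.charpoly_fin_two (M σ))

/-- An adic representation with Frobenius traces in a finite field has a residual representation
over that field. -/
theorem exists_residual_of_adic {O : Type} [CommRing O] [IsLocalRing O] (ρ : GaloisRepAdic O)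
    {k₀ : Type} [Field k₀] [Finite k₀] (e : k₀ →+* ResidueField O) {k : Type} [Field k]
    (j : k₀ →+* k) (S : Finset ℕ) (a : ℕ → k₀)
    (hfrob : ∀ ℓ : ℕ, ℓ.Prime → ℓ ∉ S → ∀ A : ValuationSubring ℚbar, A.LiesOverPrime ℓ →
      ∀ σ : Γℚbar, A.IsFrobeniusAt σ ℓ →
        LinearMap.charpoly (ρ.residual.ρ σ) =
          X ^ 2 - C (e (a ℓ)) * X + C ((ℓ : ResidueField O))) :
    ∃ ρk : ResidualGaloisRep k,
      (∀ ℓ : ℕ, ℓ.Prime → ℓ ∉ S → ∀ A : ValuationSubring ℚbar, A.LiesOverPrime ℓ →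
        ∀ σ : Γℚbar, A.IsFrobeniusAt σ ℓ →
          LinearMap.charpoly (ρk.ρ σ) = X ^ 2 - C (j (a ℓ)) * X + C ((ℓ : k))) ∧
      ∀ σ : Γℚbar, ρ.ρ σ = 1 → ρk.ρ σ = 1 := by
  classical
  let κ := ResidueField O
  let K := AlgebraicClosure κ
  let ik : κ →+* K := algebraMap κ K
  let : Algebra k₀ K := (ik.comp e).toAlgebra
  have halg : ∀ x, algebraMap k₀ K x = ik (e x) := fun _ => rfl
  let b : Module.Basis (Fin 2) κ ρ.residual.V :=
    Module.finBasisOfFinrankEq κ ρ.residual.V ρ.residual.finrank_eq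
  let f₀ : Γℚbar →* Matrix (Fin 2) (Fin 2) κ :=
    (LinearMap.toMatrixAlgEquiv b).toAlgHom.toMonoidHom.comp ρ.residual.ρ
  let f : Γℚbar →* Matrix (Fin 2) (Fin 2) K := ik.mapMatrix.toMonoidHom.comp f₀
  obtain ⟨L, hL, hLres⟩ := ρ.residual.factorsThroughFiniteLevel
  have hf1 : ∀ σ, ρ.residual.ρ σ = 1 → f σ = 1 := fun σ h => by
    show ik.mapMatrix ((LinearMap.toMatrixAlgEquiv b) (ρ.residual.ρ σ)) = 1
    rw [h, map_one, map_one]
  let R : Subring K := (algebraMap k₀ K).range
  let Good : Γℚbar → Prop := fun σ => (f σ).trace ∈ R ∧ (f σ).det ∈ R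
  have hfrobf : ∀ ℓ : ℕ, ℓ.Prime → ℓ ∉ S → ∀ A : ValuationSubring ℚbar, A.LiesOverPrime ℓ →
      ∀ σ : Γℚbar, A.IsFrobeniusAt σ ℓ →
        (f σ).trace = algebraMap k₀ K (a ℓ) ∧ (f σ).det = (ℓ : K) := by
    intro ℓ hℓ hℓS A hA σ hσ
    have h := hfrob ℓ hℓ hℓS A hA σ hσ
    rw [← LinearMap.charpoly_toMatrix (ρ.residual.ρ σ) b, Matrix.charpoly_fin_two] at h
    have h1 : (f₀ σ).trace = e (a ℓ) := by
      have := congrArg (fun q : κ[X] => q.coeff 1) h
      simp [coeff_X_pow, coeff_C] at this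
      exact neg_inj.mp this
    have h2 : (f₀ σ).det = (ℓ : κ) := by
      have := congrArg (fun q : κ[X] => q.coeff 0) h
      simpa [f₀, LinearMap.toMatrixAlgEquiv, coeff_X_pow] using! this
    refine ⟨?_, ?_⟩
    · show (ik.mapMatrix (f₀ σ)).trace = _
      rw [halg, ← h1]
      exact (AddMonoidHom.map_trace ik.toAddMonoidHom (f₀ σ)).symm
    · show (ik.mapMatrix (f₀ σ)).det = _
      rw [← RingHom.map_det, h2, map_natCast]
  have hgood : ∀ σ, Good σ := by
    refine Density.forall_of_forall_frobenius L Good ?_ ?_ ?_ (↑S : Set ℕ) S.finite_toSet ?_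
    · intro σ σ' hxy hgd
      have h1 : f (σ'⁻¹ * σ) = 1 := hf1 _ (hLres _ fun x hx => by
        rw [AlgEquiv.mul_apply, hxy x hx, ← AlgEquiv.mul_apply, inv_mul_cancel,
          AlgEquiv.one_apply])
      have h2 : f σ = f σ' := by
        rw [show σ = σ' * (σ'⁻¹ * σ) by group, map_mul, h1, mul_one]
      simpa [Good, h2] using hgd
    · intro g σ hgd
      have hgg : f g⁻¹ * f g = 1 := by rw [← map_mul, inv_mul_cancel, map_one]
      constructor
      · rw [map_mul, map_mul, Matrix.trace_mul_comm, ← mul_assoc, hgg, one_mul]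
        exact hgd.1
      · rw [map_mul, map_mul, Matrix.det_mul, Matrix.det_mul, mul_comm, ← mul_assoc,
          ← Matrix.det_mul, hgg, Matrix.det_one, one_mul]
        exact hgd.2
    · intro σ i hgd
      constructor
      · rw [map_pow]
        exact trace_pow_mem R _ hgd.1 hgd.2 i
      · rw [map_pow, Matrix.det_pow]
        exact pow_mem hgd.2 i
    · intro ℓ hℓ hℓS A hA σ hσ
      obtain ⟨h1, h2⟩ := hfrobf ℓ hℓ (by simpa using hℓS) A hA σ hσ
      exact ⟨h1 ▸ ⟨a ℓ, rfl⟩, h2 ▸ natCast_mem R ℓ⟩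
  obtain ⟨M, hMt, hMd, hM1⟩ :=
    Descent.exists_descent (k₀ := k₀) f (fun g => (hgood g).1) (fun g => (hgood g).2)
  let M' : Γℚbar →* Matrix (Fin 2) (Fin 2) k := j.mapMatrix.toMonoidHom.comp M
  have hM'1 : ∀ σ, ρ.residual.ρ σ = 1 → M' σ = 1 := fun σ h => by
    show j.mapMatrix (M σ) = 1
    rw [hM1 σ (hf1 σ h), map_one]
  have hM' : GaloisFactorsThroughFiniteLevel M' := ⟨L, hL, fun σ hσ => hM'1 σ (hLres σ hσ)⟩
  refine ⟨residualOfMatrix M' hM',
    fun ℓ hℓ hℓS A hA σ hσ => ?_, fun σ h => ?_⟩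
  · obtain ⟨h1, h2⟩ := hfrobf ℓ hℓ hℓS A hA σ hσ
    have inj : Function.Injective (algebraMap k₀ K) := (algebraMap k₀ K).injective
    have t1 : (M σ).trace = a ℓ := inj ((hMt σ).trans h1)
    have t2 : (M σ).det = (ℓ : k₀) := inj ((hMd σ).trans (h2.trans (map_natCast _ ℓ).symm))
    refine (residualOfMatrix_charpoly M' hM' σ).trans ?_
    have e1 : (M' σ).trace = j (a ℓ) := by
      show (j.mapMatrix (M σ)).trace = _
      rw [← t1]
      exact (AddMonoidHom.map_trace j.toAddMonoidHom (M σ)).symm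
    have e2 : (M' σ).det = (ℓ : k) := by
      show (j.mapMatrix (M σ)).det = _
      rw [← RingHom.map_det, t2, map_natCast]
    rw [e1, e2]
  · have hres : ρ.residual.ρ σ = 1 := by
      show LinearMap.baseChange _ (ρ.ρ σ) = 1
      rw [h, LinearMap.baseChange_one]
    show Matrix.toLinAlgEquiv' (M' σ) = 1
    rw [hM'1 σ hres, map_one]

end Fermat.Agent.GalRep
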