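import Fermat.Agent.Deformation.Burnside
import Fermat.Agent.Density.Places
import Fermat.Agent.GalRep.ResidualDescent

/-!
# Trace rigidity

Representations over finitely many finite extensions of a coefficient ring, with the same
absolutely irreducible reduction and with Frobenius traces coming from a finite algebra `T`
embedded in their product, come from one representation over `T` (`exists_glue`).
-/

set_option autoImplicit false

noncomputable section

namespace Fermat.Agent.GalRep.Glue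

open IsLocalRing Matrix Fermat.Agent.Deformation

local notation "ℚbar" => AlgebraicClosure ℚ

/-! ## Elementary facts -/

theorem det_add_fin_two {R : Type*} [CommRing R] (X Y : Matrix (Fin 2) (Fin 2) R) :
    (X + Y).det = X.det + Y.det + (X.trace * Y.trace - (X * Y).trace) := by
  simp [Matrix.det_fin_two, Matrix.trace_fin_two, Matrix.mul_apply, Fin.sum_univ_two]
  ring

theorem corner {R : Type*} [CommRing R] (X : Matrix (Fin 2) (Fin 2) R) :
    !![1, 0; 0, 0] * X * (1 - !![1, 0; 0, 0]) = !![0, X 0 1; 0, 0] ∧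
      (1 - !![1, 0; 0, 0]) * X * !![1, 0; 0, 0] = !![0, 0; X 1 0, 0] := by
  constructor <;> ext i j <;> fin_cases i <;> fin_cases j <;>
    simp [Matrix.mul_apply, Matrix.vecMul, dotProduct, Fin.sum_univ_two, Matrix.one_fin_two]

variable {𝒪 : Type} [CommRing 𝒪] [IsLocalRing 𝒪]

/-- In a finite local algebra a power of the maximal ideal lies in the base maximal ideal. -/
theorem exists_pow_le_map (T : Type) [CommRing T] [IsLocalRing T] [IsNoetherianRing T]
    [Algebra 𝒪 T] [IsLocalHom (algebraMap 𝒪 T)] [Module.Finite 𝒪 T] :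
    ∃ e, maximalIdeal T ^ e ≤ (maximalIdeal 𝒪).map (algebraMap 𝒪 T) := by
  have := Algebra.IsIntegral.of_finite 𝒪 T
  refine Ideal.exists_pow_le_of_le_radical_of_fg_radical ?_ (IsNoetherian.noetherian _)
  rw [Ideal.radical_eq_sInf]
  refine le_sInf fun P ⟨hP, hPprime⟩ => ?_
  have := hPprime
  have hle : maximalIdeal 𝒪 ≤ P.comap (algebraMap 𝒪 T) := Ideal.map_le_iff_le_comap.mp hP
  have hne : P.comap (algebraMap 𝒪 T) ≠ ⊤ := Ideal.IsPrime.ne_top inferInstance
  have hmax : (P.comap (algebraMap 𝒪 T)).IsMaximal :=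
    (maximalIdeal.isMaximal 𝒪).eq_of_le hne hle ▸ maximalIdeal.isMaximal 𝒪
  exact (eq_maximalIdeal (Ideal.isMaximal_of_isIntegral_of_isMaximal_comap P hmax)).ge

variable [IsNoetherianRing 𝒪]

/-- An algebra map between finite local algebras is local. -/
theorem isLocalHom_algHom {T : Type} [CommRing T] [IsLocalRing T] [Algebra 𝒪 T]
    [IsLocalHom (algebraMap 𝒪 T)] [Module.Finite 𝒪 T] {S : Type} [CommRing S] [IsLocalRing S]
    [Algebra 𝒪 S] [IsLocalHom (algebraMap 𝒪 S)] (x : T →ₐ[𝒪] S) : IsLocalHom (x : T →+* S) := by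
  have : IsNoetherianRing T := IsNoetherianRing.of_finite 𝒪 T
  obtain ⟨e, he⟩ := exists_pow_le_map (𝒪 := 𝒪) T
  have hle : maximalIdeal T ≤ (maximalIdeal S).comap (x : T →+* S) := by
    intro a ha
    rw [Ideal.mem_comap]
    refine (maximalIdeal.isMaximal S).isPrime.mem_of_pow_mem e ?_
    have h1 : x (a ^ e) ∈ ((maximalIdeal 𝒪).map (algebraMap 𝒪 T)).map (x : T →+* S) :=
      Ideal.mem_map_of_mem _ (he (Ideal.pow_mem_pow ha e))
    rw [Ideal.map_map, x.comp_algebraMap] at h1
    have h2 : (maximalIdeal 𝒪).map (algebraMap 𝒪 S) ≤ maximalIdeal S :=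
      ((local_hom_TFAE (algebraMap 𝒪 S)).out 0 2).mp
        (show IsLocalHom (algebraMap 𝒪 S) from inferInstance)
    simpa using h2 h1
  exact ((local_hom_TFAE (x : T →+* S)).out 0 3).mpr hle

variable {ι : Type} [Fintype ι] {O : ι → Type} [∀ i, CommRing (O i)] [∀ i, IsLocalRing (O i)]
  [∀ i, Algebra 𝒪 (O i)] [∀ i, IsLocalHom (algebraMap 𝒪 (O i))] [∀ i, Module.Finite 𝒪 (O i)]

/-- The ideal of the product generated by a power of the base maximal ideal. -/
def levelIdeal (k : ℕ) : Ideal (∀ i, O i) :=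
  ((maximalIdeal 𝒪) ^ k).map (algebraMap 𝒪 (∀ i, O i))

omit [IsNoetherianRing 𝒪] [Fintype ι] [∀ i, IsLocalRing (O i)]
  [∀ i, IsLocalHom (algebraMap 𝒪 (O i))] [∀ i, Module.Finite 𝒪 (O i)] in
theorem mem_levelIdeal_iff (k : ℕ) (y : ∀ i, O i) :
    y ∈ levelIdeal (𝒪 := 𝒪) k ↔
      y ∈ (maximalIdeal 𝒪) ^ k • (⊤ : Submodule 𝒪 (∀ i, O i)) := by
  rw [Ideal.smul_top_eq_map]
  rfl

/-- Coordinatewise smallness gives smallness in the product. -/
theorem exists_mem_levelIdeal_of_forall (k : ℕ) :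
    ∃ n, ∀ y : ∀ i, O i, (∀ i, y i ∈ maximalIdeal (O i) ^ n) → y ∈ levelIdeal (𝒪 := 𝒪) k := by
  classical
  have : ∀ i, IsNoetherianRing (O i) := fun i => IsNoetherianRing.of_finite 𝒪 (O i)
  choose e he using fun i => exists_pow_le_map (𝒪 := 𝒪) (O i)
  refine ⟨(Finset.univ.sup e) * k, fun y hy => ?_⟩
  rw [mem_levelIdeal_iff, show y = ∑ i, Pi.single i (y i) from (Finset.univ_sum_single y).symm]
  refine Submodule.sum_mem _ fun i _ => ?_
  have h1 : y i ∈ (maximalIdeal 𝒪) ^ k • (⊤ : Submodule 𝒪 (O i)) := by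
    rw [Ideal.smul_top_eq_map]
    show y i ∈ ((maximalIdeal 𝒪) ^ k).map (algebraMap 𝒪 (O i))
    rw [Ideal.map_pow]
    refine Ideal.pow_right_mono (he i) k ?_
    rw [← pow_mul]
    exact Ideal.pow_le_pow_right (Nat.mul_le_mul_right k (Finset.le_sup (Finset.mem_univ i))) (hy i)
  have h2 := Submodule.mem_map_of_mem (f := LinearMap.single 𝒪 O i) h1
  rw [Submodule.map_smul''] at h2
  exact Submodule.smul_mono le_rfl le_top h2

omit [∀ (i : ι), IsLocalRing (O i)] [∀ (i : ι), IsLocalHom (algebraMap 𝒪 (O i))] in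
/-- The image of a finite algebra in the product is closed. -/
theorem mem_range_of_forall_close {T : Type} [AddCommGroup T] [Module 𝒪 T]
    (J : T →ₗ[𝒪] ∀ i, O i) (y : ∀ i, O i)
    (h : ∀ k, ∃ z, y - J z ∈ levelIdeal (𝒪 := 𝒪) k) : y ∈ LinearMap.range J := by
  rw [← Submodule.Quotient.mk_eq_zero]
  have hmem : (Submodule.Quotient.mk y : (∀ i, O i) ⧸ LinearMap.range J) ∈
      ⨅ k : ℕ, (maximalIdeal 𝒪) ^ k • (⊤ : Submodule 𝒪 ((∀ i, O i) ⧸ LinearMap.range J)) := by
    refine (Submodule.mem_iInf _).mpr fun k => ?_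
    obtain ⟨z, hz⟩ := h k
    have h1 := Submodule.mem_map_of_mem (f := (LinearMap.range J).mkQ)
      ((mem_levelIdeal_iff k _).mp hz)
    rw [Submodule.map_smul''] at h1
    have h2 : (LinearMap.range J).mkQ (y - J z) = Submodule.Quotient.mk y := by
      rw [map_sub, Submodule.mkQ_apply, Submodule.mkQ_apply,
        (Submodule.Quotient.mk_eq_zero _).mpr (LinearMap.mem_range_self J z), sub_zero]
    rw [← h2]
    exact Submodule.smul_mono le_rfl le_top h1
  rwa [Ideal.iInf_pow_smul_eq_bot_of_isLocalRing (I := maximalIdeal 𝒪)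
    (maximalIdeal.isMaximal 𝒪).ne_top, Submodule.mem_bot] at hmem

omit [∀ (i : ι), IsLocalRing (O i)] [∀ (i : ι), IsLocalHom (algebraMap 𝒪 (O i))] in
/-- The topology of `T` is induced from the product. -/
theorem exists_levelIdeal_imp {T : Type} [CommRing T] [IsLocalRing T] [Algebra 𝒪 T]
    [IsLocalHom (algebraMap 𝒪 T)] [Module.Finite 𝒪 T] (J : T →ₗ[𝒪] ∀ i, O i)
    (hJ : Function.Injective J) (n : ℕ) :
    ∃ k, ∀ z, J z ∈ levelIdeal (𝒪 := 𝒪) k → z ∈ maximalIdeal T ^ n := by
  obtain ⟨c, hc⟩ := Ideal.exists_pow_inf_eq_pow_smul (maximalIdeal 𝒪) (LinearMap.range J)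
  refine ⟨n + c, fun z hz => ?_⟩
  have h1 : J z ∈ (maximalIdeal 𝒪) ^ (n + c) • (⊤ : Submodule 𝒪 (∀ i, O i)) ⊓
      LinearMap.range J := ⟨(mem_levelIdeal_iff _ _).mp hz, LinearMap.mem_range_self J z⟩
  rw [hc (n + c) (Nat.le_add_left c n), Nat.add_sub_cancel] at h1
  have h2 : J z ∈ Submodule.map J ((maximalIdeal 𝒪) ^ n • (⊤ : Submodule 𝒪 T)) := by
    rw [Submodule.map_smul'', Submodule.map_top]
    exact Submodule.smul_mono le_rfl inf_le_right h1
  obtain ⟨z', hz', hzz⟩ := h2
  have h3 : z ∈ (maximalIdeal 𝒪) ^ n • (⊤ : Submodule 𝒪 T) := hJ hzz ▸ hz'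
  rw [Ideal.smul_top_eq_map] at h3
  have h4 : z ∈ ((maximalIdeal 𝒪) ^ n).map (algebraMap 𝒪 T) := h3
  rw [Ideal.map_pow] at h4
  have h5 : (maximalIdeal 𝒪).map (algebraMap 𝒪 T) ≤ maximalIdeal T :=
    ((local_hom_TFAE (algebraMap 𝒪 T)).out 0 2).mp
      (show IsLocalHom (algebraMap 𝒪 T) from inferInstance)
  exact Ideal.pow_right_mono h5 n h4

/-! ## Gluing -/

/-- A continuous system of representations is continuous for the product topology. -/
theorem exists_level_product (M : ∀ i, GQ →* M2 (O i)) (hM : ∀ i, MatCont (M i)) (k : ℕ) :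
    ∃ L : IntermediateField ℚ ℚbar, FiniteDimensional ℚ L ∧ ∀ σ : GQ, (∀ x ∈ L, σ x = x) →
      ∀ a b, (fun i => M i σ a b - (1 : M2 (O i)) a b) ∈ levelIdeal (𝒪 := 𝒪) k := by
  obtain ⟨n, hn⟩ := exists_mem_levelIdeal_of_forall (𝒪 := 𝒪) (O := O) k
  choose L hL hLM using fun i => hM i n
  have := hL
  refine ⟨⨆ i, L i, inferInstance, fun σ hσ a b => hn _ fun i => hLM i σ
    (fun x hx => hσ x (le_iSup L i hx)) a b⟩

section

variable [∀ i, IsAdicComplete (maximalIdeal (O i)) (O i)]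
  {T : Type} [CommRing T] [IsLocalRing T] [Algebra 𝒪 T] [IsLocalHom (algebraMap 𝒪 T)]
  [Module.Finite 𝒪 T] [IsAdicComplete (maximalIdeal T) T]

/-- **Trace rigidity.** -/
theorem exists_glue (D : RigidData 𝒪) (c : GQ →₀ 𝒪)
    (hc : evalComb (D.M0 : GQ → M2 (ResidueField 𝒪)) c = !![0, 0; 1, 0])
    (x : ∀ i, T →ₐ[𝒪] O i) (hinj : ∀ z, (∀ i, x i z = 0) → z = 0)
    (M : ∀ i, GQ →* M2 (O i)) (hM : ∀ i, MatCont (M i))
    (hres : ∀ i, AreConj (mapRep (residue (O i)) (M i))
      (mapRep (ResidueField.map (algebraMap 𝒪 (O i))) D.M0))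
    (S : Set ℕ) (hS : S.Finite) (t : ℕ → T)
    (hfrob : ∀ i, ∀ ℓ : ℕ, ℓ.Prime → ℓ ∉ S → ∀ P : ValuationSubring ℚbar, P.LiesOverPrime ℓ →
      ∀ σ : GQ, P.IsFrobeniusAt σ ℓ → (M i σ).trace = x i (t ℓ) ∧ (M i σ).det = (ℓ : O i)) :
    ∃ R : GQ →* M2 T, MatCont R ∧ D.IsNormal R ∧
      (∀ ℓ : ℕ, ℓ.Prime → ℓ ∉ S → ∀ P : ValuationSubring ℚbar, P.LiesOverPrime ℓ →
        ∀ σ : GQ, P.IsFrobeniusAt σ ℓ → (R σ).trace = t ℓ ∧ (R σ).det = (ℓ : T)) ∧
      ∀ i, AreConj (M i) (mapRep (x i : T →+* O i) R) := by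
  classical
  have : ∀ i, IsLocalHom (x i : T →+* O i) := fun i => isLocalHom_algHom (x i)
  choose U hU using fun i => D.exists_isLift_conj (hres i)
  choose V hV using fun i => (hU i).exists_normal
  let N : ∀ i, GQ →* M2 (O i) := fun i => conjRep (V i * U i) (M i)
  have hN : ∀ i, D.IsNormal (N i) := fun i => by
    have : N i = conjRep (V i) (conjRep (U i) (M i)) := by
      refine MonoidHom.ext fun σ => ?_
      simp [N, mul_assoc]
    exact this ▸ hV i
  have hNtr : ∀ i σ, (N i σ).trace = (M i σ).trace ∧ (N i σ).det = (M i σ).det := fun i σ => by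
    simp only [N, conjRep_apply]
    exact ⟨Matrix.trace_units_conj _ _, Matrix.det_units_conj _ _⟩
  -- the product representation
  let ev : ∀ i, (∀ j, O j) →+* O i := fun i => Pi.evalRingHom O i
  let NP : GQ →* M2 (∀ i, O i) :=
    { toFun := fun σ => Matrix.of fun a b i => N i σ a b
      map_one' := by ext a b i; by_cases h : a = b <;> simp [Matrix.one_apply, h]
      map_mul' := fun σ τ => by ext a b i; simp [Matrix.mul_apply, Finset.sum_apply] }
  have hNP : ∀ i σ, (NP σ).map (ev i) = N i σ := fun i σ => rfl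
  have hNPtr : ∀ i σ, (NP σ).trace i = (M i σ).trace := fun i σ => by
    rw [← (hNtr i σ).1, ← hNP i σ]
    simp [Matrix.trace, ev, Finset.sum_apply]
  have hNPdet : ∀ i σ, (NP σ).det i = (M i σ).det := fun i σ => by
    rw [← (hNtr i σ).2, ← hNP i σ]
    exact RingHom.map_det (ev i) (NP σ)
  let J : T →ₐ[𝒪] ∀ i, O i := AlgHom.pi x
  have hJ : Function.Injective J := (injective_iff_map_eq_zero _).mpr fun z hz =>
    hinj z fun i => congrFun hz i
  -- continuity of the product representation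
  have hcont : ∀ k, ∃ L : IntermediateField ℚ ℚbar, FiniteDimensional ℚ L ∧
      ∀ σ : GQ, (∀ z ∈ L, σ z = z) →
        (NP σ).map (Ideal.Quotient.mk (levelIdeal (𝒪 := 𝒪) (O := O) k)) = 1 := by
    intro k
    have hMN : ∀ i, MatCont (N i) := fun i n => by
      obtain ⟨L, hL, hLM⟩ := hM i n
      refine ⟨L, hL, fun σ hσ a b => ?_⟩
      have hz : (M i σ - 1).map (Ideal.Quotient.mk (maximalIdeal (O i) ^ n)) = 0 := by
        ext a b
        exact Ideal.Quotient.eq_zero_iff_mem.mpr (by simpa using hLM σ hσ a b)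
      have h1 : ((N i σ - 1)).map (Ideal.Quotient.mk (maximalIdeal (O i) ^ n)) = 0 := by
        have e : N i σ - 1 = (V i * U i : (M2 (O i))ˣ) * (M i σ - 1) *
            (↑(V i * U i)⁻¹ : M2 (O i)) := by
          simp [N, mul_sub, sub_mul, mul_assoc]
        rw [e, Matrix.map_mul, Matrix.map_mul, hz, mul_zero, zero_mul]
      exact Ideal.Quotient.eq_zero_iff_mem.mp (by simpa using congrFun (congrFun h1 a) b)
    obtain ⟨L, hL, h⟩ := exists_level_product (𝒪 := 𝒪) N hMN k
    refine ⟨L, hL, fun σ hσ => Matrix.ext fun a b => ?_⟩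
    have e1 : (1 : M2 ((∀ i, O i) ⧸ levelIdeal (𝒪 := 𝒪) (O := O) k)) a b =
        Ideal.Quotient.mk _ ((1 : M2 (∀ i, O i)) a b) := by
      by_cases hab : a = b <;> simp [Matrix.one_apply, hab]
    rw [Matrix.map_apply, e1, Ideal.Quotient.eq]
    convert h σ hσ a b using 1
    funext i
    by_cases hab : a = b <;> simp [NP, Matrix.one_apply, hab]
  -- traces and determinants come from `T`
  let Rg : Subring (∀ i, O i) := J.range.toSubring
  have hgood : ∀ σ, (NP σ).trace ∈ Rg ∧ (NP σ).det ∈ Rg := by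
    have key : ∀ k σ, (∃ z, (NP σ).trace - J z ∈ levelIdeal (𝒪 := 𝒪) k) ∧
        ∃ z, (NP σ).det - J z ∈ levelIdeal (𝒪 := 𝒪) k := by
      intro k
      obtain ⟨L, hL, hL1⟩ := hcont k
      have := hL
      set q := Ideal.Quotient.mk (levelIdeal (𝒪 := 𝒪) (O := O) k)
      let f : GQ →* M2 ((∀ i, O i) ⧸ levelIdeal (𝒪 := 𝒪) (O := O) k) :=
        q.mapMatrix.toMonoidHom.comp NP
      let Rk : Subring ((∀ i, O i) ⧸ levelIdeal (𝒪 := 𝒪) (O := O) k) := Rg.map q
      have hmem : ∀ y, q y ∈ Rk → ∃ z, y - J z ∈ levelIdeal (𝒪 := 𝒪) k := by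
        rintro y ⟨_, ⟨z, rfl⟩, hz⟩
        exact ⟨z, Ideal.Quotient.eq.mp hz.symm⟩
      have hftr : ∀ σ, (f σ).trace = q (NP σ).trace := fun σ =>
        (AddMonoidHom.map_trace q.toAddMonoidHom (NP σ)).symm
      have hfdet : ∀ σ, (f σ).det = q (NP σ).det := fun σ => (RingHom.map_det q (NP σ)).symm
      let Good : GQ → Prop := fun σ => (f σ).trace ∈ Rk ∧ (f σ).det ∈ Rk
      have hall : ∀ σ, Good σ := by
        refine Density.forall_of_forall_frobenius L Good ?_ ?_ ?_ S hS ?_
        · intro σ σ' hxy hgd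
          have h1 : f (σ'⁻¹ * σ) = 1 := hL1 _ fun z hz => by
            rw [AlgEquiv.mul_apply, hxy z hz, ← AlgEquiv.mul_apply, inv_mul_cancel,
              AlgEquiv.one_apply]
          have h2 : f σ = f σ' := by
            rw [show σ = σ' * (σ'⁻¹ * σ) by group, map_mul, h1, mul_one]
          simpa [Good, h2] using hgd
        · intro g σ hgd
          have hgg : f g⁻¹ * f g = 1 := by rw [← map_mul, inv_mul_cancel, map_one]
          constructor
          · rw [map_mul, map_mul, Matrix.trace_mul_comm, ← mul_assoc, hgg, one_mul]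
            exact hgd.1
          · rw [map_mul, map_mul, Matrix.det_mul, Matrix.det_mul, mul_comm, ← mul_assoc,
              ← Matrix.det_mul, hgg, Matrix.det_one, one_mul]
            exact hgd.2
        · intro σ j hgd
          constructor
          · rw [map_pow]
            exact trace_pow_mem Rk _ hgd.1 hgd.2 j
          · rw [map_pow, Matrix.det_pow]
            exact pow_mem hgd.2 j
        · intro ℓ hℓ hℓS P hP σ hσ
          constructor
          · refine hftr σ ▸ ⟨(NP σ).trace, ⟨t ℓ, ?_⟩, rfl⟩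
            funext i
            exact ((hNPtr i σ).trans (hfrob i ℓ hℓ hℓS P hP σ hσ).1).symm
          · refine hfdet σ ▸ ⟨(NP σ).det, ⟨(ℓ : T), ?_⟩, rfl⟩
            funext i
            show x i (ℓ : T) = _
            rw [map_natCast, hNPdet, (hfrob i ℓ hℓ hℓS P hP σ hσ).2]
      exact fun σ => ⟨hmem _ (hftr σ ▸ (hall σ).1), hmem _ (hfdet σ ▸ (hall σ).2)⟩
    intro σ
    obtain ⟨z, hz⟩ := mem_range_of_forall_close J.toLinearMap _ fun k => (key k σ).1
    obtain ⟨z', hz'⟩ := mem_range_of_forall_close J.toLinearMap _ fun k => (key k σ).2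
    exact ⟨⟨z, hz⟩, ⟨z', hz'⟩⟩
  -- the algebra spanned by the image
  let A : Subalgebra Rg (M2 (∀ i, O i)) := Algebra.adjoin Rg (Set.range NP)
  have hAspan : Subalgebra.toSubmodule A = Submodule.span Rg (Set.range NP) := by
    rw [Algebra.adjoin_eq_span, ← MonoidHom.coe_mrange, Submonoid.closure_eq, MonoidHom.coe_mrange]
  have htrA : ∀ X ∈ A, X.trace ∈ Rg := by
    intro X hX
    have hX' : X ∈ Submodule.span Rg (Set.range NP) := hAspan ▸ hX
    clear hX
    induction hX' using Submodule.span_induction with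
    | mem Y hY => obtain ⟨σ, rfl⟩ := hY; exact (hgood σ).1
    | zero => simp
    | add Y Z _ _ hY hZ => rw [Matrix.trace_add]; exact Rg.add_mem hY hZ
    | smul r Y _ hY =>
      rw [Matrix.trace_smul]
      exact Rg.mul_mem r.2 hY
  have hscal : ∀ (r : 𝒪) (Y : M2 (∀ i, O i)), Y ∈ A → r • Y ∈ A := fun r Y hY => by
    have : algebraMap 𝒪 (∀ i, O i) r ∈ Rg := ⟨algebraMap 𝒪 T r, J.commutes r⟩
    have h2 := A.smul_mem hY (⟨_, this⟩ : Rg)
    rwa [show (⟨_, this⟩ : Rg) • Y = r • Y from Matrix.ext fun a b => by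
      simp [Algebra.smul_def]; rfl] at h2
  have hcomb : ∀ d : GQ →₀ 𝒪, evalComb (NP : GQ → M2 (∀ i, O i)) d ∈ A := fun d =>
    sum_mem fun g _ => hscal _ _ (Algebra.subset_adjoin ⟨g, rfl⟩)
  have hdetA : ∀ d : GQ →₀ 𝒪, (evalComb (NP : GQ → M2 (∀ i, O i)) d).det ∈ Rg := by
    intro d
    induction d using Finsupp.induction with
    | zero => simp [evalComb]
    | single_add g r d hg hr ih =>
      have e : evalComb (NP : GQ → M2 (∀ i, O i)) (Finsupp.single g r + d) =
          r • NP g + evalComb (NP : GQ → M2 (∀ i, O i)) d := by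
        simp only [evalComb]
        rw [Finsupp.sum_add_index' (by simp) (fun _ _ _ => add_smul _ _ _),
          Finsupp.sum_single_index (zero_smul 𝒪 (NP g))]
      have hrg : r • NP g ∈ A := hscal _ _ (Algebra.subset_adjoin ⟨g, rfl⟩)
      rw [e, det_add_fin_two]
      refine Rg.add_mem (Rg.add_mem ?_ ih) (Rg.sub_mem (Rg.mul_mem (htrA _ hrg)
        (htrA _ (hcomb d))) (htrA _ (A.mul_mem hrg (hcomb d))))
      rw [← algebraMap_smul (∀ i, O i) r (NP g), Matrix.det_smul]
      exact Rg.mul_mem (pow_mem (by exact ⟨algebraMap 𝒪 T r, J.commutes r⟩) _) (hgood g).2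
  -- the idempotent
  have hevi : ∀ i (d : GQ →₀ 𝒪), (evalComb (NP : GQ → M2 (∀ i, O i)) d).map (ev i) =
      evalComb (N i : GQ → M2 (O i)) d := fun i d => evalComb_map (ev i) (fun r => rfl) _ d
  have hevab : ∀ i (d : GQ →₀ 𝒪) a b, evalComb (NP : GQ → M2 (∀ i, O i)) d a b i =
      evalComb (N i : GQ → M2 (O i)) d a b := fun i d a b =>
    congrFun (congrFun (hevi i d) a) b
  obtain ⟨st, hst⟩ := htrA _ (hcomb D.a)
  obtain ⟨dt, hdt⟩ := hdetA D.a
  have hst' : ∀ i, x i st = evalComb (N i : GQ → M2 (O i)) D.a 0 0 +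
      evalComb (N i : GQ → M2 (O i)) D.a 1 1 := fun i => by
    rw [← hevab, ← hevab]
    simpa [Matrix.trace_fin_two] using! congrFun hst i
  have hdt' : ∀ i, x i dt = evalComb (N i : GQ → M2 (O i)) D.a 0 0 *
      evalComb (N i : GQ → M2 (O i)) D.a 1 1 := fun i => by
    have h := congrFun hdt i
    rw [Matrix.det_fin_two] at h
    simp only [Pi.sub_apply, Pi.mul_apply, hevab, (hN i).a01, zero_mul, sub_zero] at h
    exact h
  obtain ⟨i₀⟩ : Nonempty ι := by
    by_contra h
    exact one_ne_zero (hinj (1 : T) fun i => absurd ⟨i⟩ h)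
  have hx0 : ∀ z, residue (O i₀) (x i₀ z) = 0 → residue T z = 0 := fun z hz => by
    rw [residue_eq_zero_iff, mem_maximalIdeal, mem_nonunits_iff] at hz ⊢
    exact fun hu => hz (hu.map (x i₀ : T →+* O i₀))
  have rst : residue T st = 1 := by
    have := hx0 (st - 1) (by
      rw [map_sub, map_sub, map_one, map_one, hst', map_add, (hN i₀).lift.residue_a 0 0,
        (hN i₀).lift.residue_a 1 1]
      simp)
    rwa [map_sub, map_one, sub_eq_zero] at this
  have rdt : residue T dt = 0 := hx0 dt (by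
    rw [hdt', map_mul, (hN i₀).lift.residue_a 1 1]
    simp)
  let f : Polynomial T := Polynomial.X ^ 2 + (Polynomial.C (-st) * Polynomial.X + Polynomial.C dt)
  have hmonic : f.Monic :=
    Polynomial.monic_X_pow_add (Polynomial.degree_linear_le.trans_lt (by norm_num))
  obtain ⟨l, hl, hl1⟩ := HenselianRing.is_henselian (I := maximalIdeal T) f hmonic 1
    (by
      rw [← residue_eq_zero_iff]
      simp [f, rst, rdt])
    (by
      have : residue T (f.derivative.eval 1) = 1 := by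
        simp [f, rst]
      have h1 : IsUnit (residue T (f.derivative.eval 1)) := by rw [this]; exact isUnit_one
      exact h1)
  have rl : residue T l = 1 := by
    have := (residue_eq_zero_iff _).mpr hl1
    rwa [map_sub, map_one, sub_eq_zero] at this
  have hl' : l ^ 2 + (-st * l + dt) = 0 := by simpa [f, Polynomial.IsRoot] using hl
  have hlm : IsUnit (2 * l - st) := isUnit_of_map_unit (residue T) _ (by
    rw [map_sub, map_mul, map_ofNat, rl, rst]
    norm_num)
  have hl00 : ∀ i, x i l = evalComb (N i : GQ → M2 (O i)) D.a 0 0 := fun i => by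
    have h1 := congrArg (x i) hl'
    simp only [map_add, map_mul, map_neg, map_pow, map_zero, hst', hdt'] at h1
    have h2 : (x i l - evalComb (N i : GQ → M2 (O i)) D.a 0 0) *
        (x i l - evalComb (N i : GQ → M2 (O i)) D.a 1 1) = 0 := by linear_combination h1
    refine sub_eq_zero.mp ((IsUnit.mul_left_eq_zero ?_).mp h2)
    refine isUnit_of_map_unit (residue (O i)) _ ?_
    rw [map_sub, (hN i).lift.residue_a 1 1]
    have : residue (O i) (x i l) = 1 := by
      have h3 : residue (O i) (x i (l - 1)) = 0 := by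
        rw [residue_eq_zero_iff]
        exact map_nonunit (x i : T →+* O i) _ ((residue_eq_zero_iff _).mp (by
          rw [map_sub, map_one, rl, sub_self]))
      rwa [map_sub, map_sub, map_one, map_one, sub_eq_zero] at h3
    rw [this]
    simp
  obtain ⟨w, hw⟩ := hlm
  let E11 : M2 (∀ i, O i) :=
    J (↑w⁻¹ : T) • (evalComb (NP : GQ → M2 (∀ i, O i)) D.a - J (st - l) • 1)
  have hJs : ∀ (z : T) (Y : M2 (∀ i, O i)), Y ∈ A → J z • Y ∈ A := fun z Y hY => by
    have h2 := A.smul_mem hY (⟨J z, z, rfl⟩ : Rg)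
    exact h2
  have hE11 : E11 ∈ A := hJs _ _ (A.sub_mem (hcomb D.a) (hJs _ _ A.one_mem))
  have eE11 : E11 = !![1, 0; 0, 0] := by
    ext a b i
    have hJi : ∀ z, J z i = x i z := fun z => rfl
    have hwi : x i ↑w⁻¹ * (2 * x i l - x i st) = 1 := by
      rw [← map_ofNat (x i) 2, ← map_mul, ← map_sub, ← map_mul, ← hw, Units.inv_mul, map_one]
    have h00 := hl00 i
    have hs := hst' i
    simp only [E11, Matrix.smul_apply, Matrix.sub_apply, Pi.sub_apply, smul_eq_mul, Pi.mul_apply,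
      hevab, hJi, map_sub]
    fin_cases a <;> fin_cases b <;> simp [(hN i).a01, (hN i).a10]
    · linear_combination hwi - x i ↑w⁻¹ * h00
    · refine mul_eq_zero_of_right _ ?_
      linear_combination h00 - hs
  let Nb := evalComb (NP : GQ → M2 (∀ i, O i)) D.b
  let E12 : M2 (∀ i, O i) := E11 * Nb * (1 - E11)
  have hE12 : E12 ∈ A := A.mul_mem (A.mul_mem hE11 (hcomb D.b)) (A.sub_mem A.one_mem hE11)
  have eE12 : E12 = !![0, 1; 0, 0] := by
    have hb : Nb 0 1 = 1 := funext fun i => (hevab i D.b 0 1).trans (hN i).b01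
    simp only [E12, eE11]
    rw [(corner _).1, hb]
  have hXentries0 : ∀ X ∈ A, X 1 0 ∈ Rg ∧ X 0 0 ∈ Rg ∧ X 1 1 ∈ Rg := by
    intro X hX
    have h1 := htrA _ (A.mul_mem hE12 hX)
    have h2 := htrA _ (A.mul_mem hE11 hX)
    have h3 := htrA _ hX
    rw [eE12] at h1
    rw [eE11] at h2
    simp only [Matrix.trace_fin_two, Matrix.mul_apply, Fin.sum_univ_two] at h1 h2
    simp at h1 h2
    rw [Matrix.trace_fin_two] at h3
    exact ⟨h1, h2, by simpa using Rg.sub_mem h3 h2⟩
  obtain ⟨ut, hut⟩ := (hXentries0 _ (hcomb c)).1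
  have hut' : ∀ i, x i ut = evalComb (N i : GQ → M2 (O i)) c 1 0 := fun i => by
    rw [← hevab]; exact congrFun hut i
  have hu : IsUnit ut := by
    refine isUnit_of_map_unit (residue T) _ (isUnit_iff_ne_zero.mpr fun h0 => ?_)
    have h1 : residue (O i₀) (x i₀ ut) = 0 := (residue_eq_zero_iff _).mpr
      (map_nonunit (x i₀ : T →+* O i₀) _ ((residue_eq_zero_iff _).mp h0))
    have h2 := congrFun (congrFun ((hN i₀).lift.residue_evalComb c) 1) 0
    rw [hc] at h2
    simp only [Matrix.map_apply] at h2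
    rw [hut', h2] at h1
    simp at h1
  obtain ⟨u, hu⟩ := hu
  let E21 : M2 (∀ i, O i) :=
    J (↑u⁻¹ : T) • ((1 - E11) * evalComb (NP : GQ → M2 (∀ i, O i)) c * E11)
  have hE21 : E21 ∈ A :=
    hJs _ _ (A.mul_mem (A.mul_mem (A.sub_mem A.one_mem hE11) (hcomb c)) hE11)
  have eE21 : E21 = !![0, 0; 1, 0] := by
    have hc10 : J (↑u⁻¹ : T) * evalComb (NP : GQ → M2 (∀ i, O i)) c 1 0 = 1 := by
      rw [← hut]
      show J (↑u⁻¹ : T) * J ut = 1
      rw [← map_mul, ← hu, Units.inv_mul, map_one]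
    simp only [E21, eE11]
    rw [(corner _).2]
    simp [hc10]
  have hentries : ∀ σ a b, NP σ a b ∈ Rg := by
    intro σ a b
    have hX : NP σ ∈ A := Algebra.subset_adjoin ⟨σ, rfl⟩
    obtain ⟨h10, h00, h11⟩ := hXentries0 _ hX
    have h01 := htrA _ (A.mul_mem hE21 hX)
    rw [eE21] at h01
    simp only [Matrix.trace_fin_two, Matrix.mul_apply, Fin.sum_univ_two] at h01
    simp at h01
    fin_cases a <;> fin_cases b <;> assumption
  choose r hr using hentries
  have hJr : ∀ σ, (Matrix.of (r σ)).map J = NP σ := fun σ => Matrix.ext fun a b => hr σ a b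
  have hJmap : ∀ X Y : M2 T, X.map J = Y.map J → X = Y := fun X Y h =>
    Matrix.ext fun a b => hJ (congrFun (congrFun h a) b)
  let R : GQ →* M2 T :=
    { toFun := fun σ => Matrix.of (r σ)
      map_one' := hJmap _ _ (by rw [hJr, map_one, Matrix.map_one _ (map_zero J) (map_one J)])
      map_mul' := fun σ τ => hJmap _ _ (by rw [Matrix.map_mul, hJr, hJr, hJr, map_mul]) }
  have hRi : ∀ i, mapRep (x i : T →+* O i) R = N i := fun i => MonoidHom.ext fun σ =>
    Matrix.ext fun a b => congrFun (hr σ a b) i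
  refine ⟨R, fun n => ?_, ⟨?_, ?_, ?_, ?_⟩, fun ℓ hℓ hℓS P hP σ hσ => ?_, fun i => ?_⟩
  · obtain ⟨k, hk⟩ := exists_levelIdeal_imp (𝒪 := 𝒪) J.toLinearMap hJ n
    obtain ⟨L, hL, hL1⟩ := hcont k
    refine ⟨L, hL, fun σ hσ a b => hk _ ?_⟩
    have h1 := congrFun (congrFun (hL1 σ hσ) a) b
    show J (r σ a b - (1 : M2 T) a b) ∈ _
    rw [map_sub, ← Ideal.Quotient.eq]
    rw [Matrix.map_apply, ← hr σ a b] at h1
    refine h1.trans ?_
    by_cases hab : a = b <;> simp [hab, Matrix.one_apply]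
  · -- lift: the residue field of `T` embeds
    apply mapRep_injective (φ := ResidueField.map (x i₀ : T →+* O i₀)) (RingHom.injective _)
    rw [mapRep_comp, mapRep_comp, ResidueField.map_comp_residue, ← mapRep_comp, hRi]
    refine (hN i₀).lift.trans (congrArg (fun φ => mapRep φ D.M0) ?_)
    refine Ideal.Quotient.ringHom_ext (RingHom.ext fun z => ?_)
    show residue (O i₀) (algebraMap 𝒪 (O i₀) z) =
      residue (O i₀) (x i₀ (algebraMap 𝒪 T z))
    rw [(x i₀).commutes]
  · exact hJ (funext fun i => by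
      rw [map_zero]
      show x i (evalComb (R : GQ → M2 T) D.a 0 1) = 0
      rw [← (hN i).a01, ← hRi]
      exact congrFun (congrFun
        (evalComb_map (x i : T →+* O i) (fun z => (x i).commutes z) _ D.a) 0) 1)
  · exact hJ (funext fun i => by
      rw [map_zero]
      show x i (evalComb (R : GQ → M2 T) D.a 1 0) = 0
      rw [← (hN i).a10, ← hRi]
      exact congrFun (congrFun
        (evalComb_map (x i : T →+* O i) (fun z => (x i).commutes z) _ D.a) 1) 0)
  · exact hJ (funext fun i => by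
      rw [map_one]
      show x i (evalComb (R : GQ → M2 T) D.b 0 1) = 1
      rw [← (hN i).b01, ← hRi]
      exact congrFun (congrFun
        (evalComb_map (x i : T →+* O i) (fun z => (x i).commutes z) _ D.b) 0) 1)
  · constructor <;> refine hJ (funext fun i => ?_)
    · show x i (R σ).trace = x i (t ℓ)
      rw [← (hfrob i ℓ hℓ hℓS P hP σ hσ).1, ← (hNtr i σ).1, ← hRi]
      exact AddMonoidHom.map_trace (x i : T →+* O i).toAddMonoidHom (R σ)
    · show x i (R σ).det = x i (ℓ : T)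
      rw [map_natCast, ← (hfrob i ℓ hℓ hℓS P hP σ hσ).2, ← (hNtr i σ).2, ← hRi]
      exact RingHom.map_det (x i : T →+* O i) (R σ)
  · rw [hRi]
    exact AreConj.conjRep _ _

end

end Fermat.Agent.GalRep.Glue
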