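import Fermat.Agent.GalRep.Datum
import Fermat.Agent.Cosets.ParLattice
import Fermat.Agent.Periods.HeckePair
import Fermat.Agent.Hecke.Duality
import Fermat.Agent.Hecke.Lattice
import Fermat.Agent.MFCore.Integral
import Fermat.Agent.S21

/-!
# The Hecke action on parabolic homomorphisms

The Hecke action on the lattice of parabolic homomorphisms `Γ₀(N) → ℤ` by integral matrices, and
the bounds `heckeMat_eigen_pos`, `heckeMat_eigen_le` for its common eigenspaces.
-/

set_option autoImplicit false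

noncomputable section

namespace Fermat.Agent.GalRep

open CuspForm CongruenceSubgroup Matrix
open Fermat.Agent.Cosets Fermat.Agent.Periods

variable (N : ℕ) [NeZero N]

/-! ### The transfer operator at a prime -/

/-- The transfer `T_q` (`q ∤ N`) or `U_q` (`q ∣ N`) on homomorphisms `Γ₀(N) → A`. -/
def heckeHomAt (R : Type) [Semiring R] (A : Type) [AddCommGroup A] [Module R A]
    (q : Nat.Primes) : (Additive (Gamma0 N) →+ A) →ₗ[R] (Additive (Gamma0 N) →+ A) :=
  if h : (q : ℕ) ∣ N then heckeUHom R A h else heckeTHom R A q.2 h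

theorem heckeHomAt_of_dvd (R : Type) [Semiring R] (A : Type) [AddCommGroup A] [Module R A]
    (q : Nat.Primes) (h : (q : ℕ) ∣ N) : heckeHomAt N R A q = heckeUHom R A h :=
  dif_pos h

theorem heckeHomAt_of_not_dvd (R : Type) [Semiring R] (A : Type) [AddCommGroup A] [Module R A]
    (q : Nat.Primes) (h : ¬ (q : ℕ) ∣ N) : heckeHomAt N R A q = heckeTHom R A q.2 h :=
  dif_neg h

theorem heckeHomAt_mem (R : Type) [Semiring R] (A : Type) [AddCommGroup A] [Module R A]
    (q : Nat.Primes) {φ : Additive (Gamma0 N) →+ A} (hφ : φ ∈ parEllHoms R (Gamma0 N) A) :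
    heckeHomAt N R A q φ ∈ parEllHoms R (Gamma0 N) A := by
  unfold heckeHomAt
  split_ifs with h
  · exact heckeUHom_isEllParHom h hφ
  · exact heckeTHom_isEllParHom q.2 h hφ

theorem heckeHomAt_comp (R R' : Type) [Semiring R] [Semiring R'] {A B : Type} [AddCommGroup A]
    [Module R A] [AddCommGroup B] [Module R' B] (q : Nat.Primes) (u : A →+ B)
    (φ : Additive (Gamma0 N) →+ A) :
    heckeHomAt N R' B q (u.comp φ) = u.comp (heckeHomAt N R A q φ) := by
  unfold heckeHomAt
  split_ifs with h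
  · exact heckeUHom_comp h u φ
  · exact heckeTHom_comp q.2 h u φ

/-- The operator at `q` on the lattice. -/
def heckeLatticeEnd (q : Nat.Primes) :
    parEllHoms ℤ (Gamma0 N) ℤ →ₗ[ℤ] parEllHoms ℤ (Gamma0 N) ℤ :=
  LinearMap.restrict (heckeHomAt N ℤ ℤ q) fun _ hφ => heckeHomAt_mem N ℤ ℤ q hφ

/-- The integral matrix of the operator at `q` in the coordinates of the lattice. -/
def heckeMat (q : Nat.Primes) : Matrix (Fin (homRank N)) (Fin (homRank N)) ℤ :=
  LinearMap.toMatrix'
    ((parCoord N ℤ ℤ).symm.toLinearMap ∘ₗ heckeLatticeEnd N q ∘ₗ (parCoord N ℤ ℤ).toLinearMap)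

theorem coe_parCoord_single (j : Fin (homRank N)) (γ : Gamma0 N) :
    (parCoord N ℤ ℤ (Pi.single j 1) : Additive (Gamma0 N) →+ ℤ) (Additive.ofMul γ) =
      parVal N j γ := by
  classical
  rw [parCoord_apply, Finset.sum_eq_single j]
  · simp
  · intro i _ hi; simp [hi]
  · simp

theorem heckeHomAt_parCoord_single (q : Nat.Primes) (j : Fin (homRank N)) :
    heckeHomAt N ℤ ℤ q (parCoord N ℤ ℤ (Pi.single j 1) : Additive (Gamma0 N) →+ ℤ) =
      (parCoord N ℤ ℤ (fun i => heckeMat N q i j) : Additive (Gamma0 N) →+ ℤ) := by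
  classical
  have h : (fun i => heckeMat N q i j) =
      (parCoord N ℤ ℤ).symm (heckeLatticeEnd N q (parCoord N ℤ ℤ (Pi.single j 1))) := by
    funext i
    simp [heckeMat, LinearMap.toMatrix'_apply]
  rw [h, LinearEquiv.apply_symm_apply]
  rfl

/-- In lattice coordinates every coefficient module sees the same integral matrices. -/
theorem heckeHomAt_parCoord (R : Type) [Semiring R] (A : Type) [AddCommGroup A] [Module R A]
    (q : Nat.Primes) (a : Fin (homRank N) → A) :
    heckeHomAt N R A q (parCoord N R A a : Additive (Gamma0 N) →+ A) =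
      (parCoord N R A (fun i => ∑ j, heckeMat N q i j • a j) : Additive (Gamma0 N) →+ A) := by
  classical
  have hsum : (parCoord N R A a : Additive (Gamma0 N) →+ A) =
      ∑ j, (zmultiplesHom A (a j)).comp
        (parCoord N ℤ ℤ (Pi.single j 1) : Additive (Gamma0 N) →+ ℤ) := by
    refine AddMonoidHom.ext fun γ => ?_
    rw [← ofMul_toMul γ, parCoord_apply, AddMonoidHom.finsetSum_apply]
    refine Finset.sum_congr rfl fun j _ => ?_
    rw [AddMonoidHom.comp_apply, zmultiplesHom_apply, coe_parCoord_single]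
  rw [hsum, map_sum]
  refine AddMonoidHom.ext fun γ => ?_
  rw [← ofMul_toMul γ, AddMonoidHom.finsetSum_apply, parCoord_apply]
  simp only [heckeHomAt_comp N ℤ R, AddMonoidHom.comp_apply, zmultiplesHom_apply,
    heckeHomAt_parCoord_single, parCoord_apply, Finset.sum_smul, Finset.smul_sum, smul_eq_mul,
    ← mul_smul]
  exact Finset.sum_comm

/-- The same in a commutative ring, as a matrix-vector product. -/
theorem heckeHomAt_parCoord_mulVec (A : Type) [CommRing A] (q : Nat.Primes)
    (a : Fin (homRank N) → A) :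
    heckeHomAt N A A q (parCoord N A A a : Additive (Gamma0 N) →+ A) =
      (parCoord N A A ((heckeMat N q).map (Int.cast : ℤ → A) *ᵥ a) :
        Additive (Gamma0 N) →+ A) := by
  have h : (heckeMat N q).map (Int.cast : ℤ → A) *ᵥ a
      = fun i => ∑ j, heckeMat N q i j • a j := by
    funext i
    simp [Matrix.mulVec, dotProduct, zsmul_eq_mul]
  rw [heckeHomAt_parCoord, h]

/-! ### Comparison with pairs of cusp forms -/

theorem range_periodHomPair_eq :
    LinearMap.range (ModularCurve.periodHomPair N) = parEllHoms ℂ (Gamma0 N) ℂ :=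
  (Fermat.Agent.S21.result N).2.trans (complex_parabolicHoms_eq _)

/-- Pairs of cusp forms of weight two are the complex points of the lattice. -/
def periodEquiv :
    (CuspForm (Gamma0 N) 2 × CuspForm (Gamma0 N) 2) ≃ₗ[ℂ] (Fin (homRank N) → ℂ) :=
  (LinearEquiv.ofInjective (ModularCurve.periodHomPair N) (Fermat.Agent.S21.result N).1)
    |>.trans (LinearEquiv.ofEq _ _ (range_periodHomPair_eq N))
    |>.trans (parCoord N ℂ ℂ).symm

theorem parCoord_periodEquiv (x : CuspForm (Gamma0 N) 2 × CuspForm (Gamma0 N) 2) :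
    (parCoord N ℂ ℂ (periodEquiv N x) : Additive (Gamma0 N) →+ ℂ) =
      ModularCurve.periodHomPair N x := by
  simp [periodEquiv]

theorem coe_heckeOp_of_dvd (q : Nat.Primes) (h : (q : ℕ) ∣ N) :
    (heckeOp N q : Module.End ℂ (CuspForm (Gamma0 N) 2)) = heckeULin 2 h := by
  rw [heckeOp, dif_pos h, heckeAlgebra.coe_U]

theorem coe_heckeOp_of_not_dvd (q : Nat.Primes) (h : ¬ (q : ℕ) ∣ N) :
    (heckeOp N q : Module.End ℂ (CuspForm (Gamma0 N) 2)) = heckeTLin 2 q.2 h := by
  rw [heckeOp, dif_neg h, heckeAlgebra.coe_T]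

theorem periodEquiv_heckeOp (q : Nat.Primes) (f g : CuspForm (Gamma0 N) 2) :
    periodEquiv N ((heckeOp N q : Module.End ℂ (CuspForm (Gamma0 N) 2)) f,
        (heckeOp N q : Module.End ℂ (CuspForm (Gamma0 N) 2)) g) =
      (heckeMat N q).map (Int.cast : ℤ → ℂ) *ᵥ periodEquiv N (f, g) := by
  apply (parCoord N ℂ ℂ).injective
  apply Subtype.ext
  rw [← heckeHomAt_parCoord_mulVec, parCoord_periodEquiv, parCoord_periodEquiv]
  by_cases h : (q : ℕ) ∣ N
  · rw [coe_heckeOp_of_dvd N q h, heckeHomAt_of_dvd N ℂ ℂ q h, periodHomPair_heckeULin]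
  · rw [coe_heckeOp_of_not_dvd N q h, heckeHomAt_of_not_dvd N ℂ ℂ q h, periodHomPair_heckeTLin]

/-- Induction on the Hecke algebra from the operators at primes. -/
theorem heckeAlgebra_induction {P : heckeAlgebra N 2 ∅ → Prop}
    (op : ∀ q, P (heckeOp N q)) (int : ∀ r : ℤ, P (r : heckeAlgebra N 2 ∅))
    (add : ∀ x y, P x → P y → P (x + y)) (mul : ∀ x y, P x → P y → P (x * y))
    (τ : heckeAlgebra N 2 ∅) : P τ := by
  obtain ⟨τ, hτ⟩ := τ
  induction hτ using Algebra.adjoin_induction with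
  | mem x hx =>
    rcases hx with ⟨ℓ, hℓ, hℓN, hS, rfl⟩ | ⟨ℓ, hℓN, hℓ, hS, rfl⟩
    · have h := op ⟨ℓ, hℓ⟩
      rw [heckeOp, dif_neg hℓN] at h
      exact h
    · have h := op ⟨ℓ, hℓ⟩
      rw [heckeOp, dif_pos hℓN] at h
      exact h
  | algebraMap r =>
    have h := int r
    rw [← eq_intCast (algebraMap ℤ (heckeAlgebra N 2 ∅))] at h
    exact h
  | add x y hx hy ihx ihy => exact add ⟨x, hx⟩ ⟨y, hy⟩ ihx ihy
  | mul x y hx hy ihx ihy => exact mul ⟨x, hx⟩ ⟨y, hy⟩ ihx ihy

/-- A Hecke operator acting on both components of a pair, in lattice coordinates. -/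
def latticeMatC :
    heckeAlgebra N 2 ∅ →+* Matrix (Fin (homRank N)) (Fin (homRank N)) ℂ :=
  (LinearMap.toMatrixAlgEquiv' (R := ℂ) (n := Fin (homRank N))).toRingEquiv.toRingHom.comp
    ((periodEquiv N).conjRingEquiv.toRingHom.comp
      ((LinearMap.prodMapRingHom ℂ (CuspForm (Gamma0 N) 2) (CuspForm (Gamma0 N) 2)).comp
        ((heckeAlgebra N 2 ∅).val.toRingHom.prod (heckeAlgebra N 2 ∅).val.toRingHom)))

theorem latticeMatC_mulVec (τ : heckeAlgebra N 2 ∅) (f g : CuspForm (Gamma0 N) 2) :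
    latticeMatC N τ *ᵥ periodEquiv N (f, g) =
      periodEquiv N ((τ : Module.End ℂ (CuspForm (Gamma0 N) 2)) f,
        (τ : Module.End ℂ (CuspForm (Gamma0 N) 2)) g) := by
  show (LinearMap.toMatrixAlgEquiv' ((periodEquiv N).conj
    (LinearMap.prodMap (τ : Module.End ℂ (CuspForm (Gamma0 N) 2))
      (τ : Module.End ℂ (CuspForm (Gamma0 N) 2))))) *ᵥ periodEquiv N (f, g) = _
  rw [← Matrix.toLinAlgEquiv'_apply, Matrix.toLinAlgEquiv'_toMatrixAlgEquiv']
  simp [LinearEquiv.conj_apply]

theorem latticeMatC_heckeOp (q : Nat.Primes) :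
    latticeMatC N (heckeOp N q) = (heckeMat N q).map (Int.cast : ℤ → ℂ) := by
  refine Matrix.ext_of_mulVec_single fun i => ?_
  obtain ⟨⟨f, g⟩, hfg⟩ := (periodEquiv N).surjective (Pi.single i 1)
  rw [← hfg, latticeMatC_mulVec, periodEquiv_heckeOp]

theorem latticeMatC_injective : Function.Injective (latticeMatC N) := by
  intro a b hab
  refine Subtype.ext (LinearMap.ext fun f => ?_)
  have h := latticeMatC_mulVec N a f f
  rw [hab, latticeMatC_mulVec] at h
  exact (congrArg Prod.fst ((periodEquiv N).injective h)).symm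

/-- The Hecke algebra acts by integral matrices. -/
theorem latticeMatC_mem_range (τ : heckeAlgebra N 2 ∅) :
    latticeMatC N τ ∈ ((Int.castRingHom ℂ).mapMatrix :
      Matrix (Fin (homRank N)) (Fin (homRank N)) ℤ →+* _).range := by
  induction τ using heckeAlgebra_induction with
  | op q => exact ⟨heckeMat N q, (latticeMatC_heckeOp N q).symm⟩
  | int r => exact ⟨r, by rw [map_intCast, map_intCast]⟩
  | add x y hx hy => rw [map_add]; exact add_mem hx hy
  | mul x y hx hy => rw [map_mul]; exact mul_mem hx hy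

/-- The action of the Hecke algebra on the lattice. -/
def latticeMat : heckeAlgebra N 2 ∅ →+* Matrix (Fin (homRank N)) (Fin (homRank N)) ℤ :=
  let i : Matrix (Fin (homRank N)) (Fin (homRank N)) ℤ →+*
      Matrix (Fin (homRank N)) (Fin (homRank N)) ℂ := (Int.castRingHom ℂ).mapMatrix
  ((RingEquiv.ofBijective i.rangeRestrict
      ⟨fun _ _ h => (Matrix.map_injective Int.cast_injective) (congrArg Subtype.val h),
        i.rangeRestrict_surjective⟩).symm.toRingHom).comp
    ((latticeMatC N).codRestrict i.range (latticeMatC_mem_range N))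

theorem map_latticeMat (τ : heckeAlgebra N 2 ∅) :
    (latticeMat N τ).map (Int.cast : ℤ → ℂ) = latticeMatC N τ := by
  rw [latticeMat, RingHom.comp_apply]
  exact congrArg Subtype.val (RingEquiv.apply_symm_apply (RingEquiv.ofBijective
    ((Int.castRingHom ℂ).mapMatrix :
      Matrix (Fin (homRank N)) (Fin (homRank N)) ℤ →+*
        Matrix (Fin (homRank N)) (Fin (homRank N)) ℂ).rangeRestrict _) _)

theorem latticeMat_injective : Function.Injective (latticeMat N) := fun a b h =>
  latticeMatC_injective N (by rw [← map_latticeMat, h, map_latticeMat])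

theorem latticeMat_heckeOp (q : Nat.Primes) : latticeMat N (heckeOp N q) = heckeMat N q :=
  Matrix.map_injective Int.cast_injective
    ((map_latticeMat N _).trans (latticeMatC_heckeOp N q))

/-! ### Eigenspaces -/

theorem isEigenvector_of_heckeOp (κ : heckeAlgebra N 2 ∅ →+* ℂ) (f : CuspForm (Gamma0 N) 2)
    (h : ∀ q, (heckeOp N q : Module.End ℂ (CuspForm (Gamma0 N) 2)) f = κ (heckeOp N q) • f) :
    Hecke.IsEigenvector κ f := by
  intro τ
  induction τ using heckeAlgebra_induction with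
  | op q => exact h q
  | int r => simp [Int.cast_smul_eq_zsmul]
  | add x y ihx ihy => rw [AddMemClass.coe_add, LinearMap.add_apply, map_add, add_smul, ihx, ihy]
  | mul x y ihx ihy =>
    rw [MulMemClass.coe_mul, Module.End.mul_apply, map_mul, ihy, map_smul, ihx, smul_smul,
      mul_comm]

theorem mem_eigenspace_periodEquiv_iff (κ : heckeAlgebra N 2 ∅ →+* ℂ)
    (f g : CuspForm (Gamma0 N) 2) :
    periodEquiv N (f, g) ∈ eigenspace (heckeMat N) (fun q => κ (heckeOp N q)) ↔
      Hecke.IsEigenvector κ f ∧ Hecke.IsEigenvector κ g := by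
  rw [mem_eigenspace]
  constructor
  · intro h
    have h' : ∀ q, ((heckeOp N q : Module.End ℂ (CuspForm (Gamma0 N) 2)) f,
        (heckeOp N q : Module.End ℂ (CuspForm (Gamma0 N) 2)) g) = κ (heckeOp N q) • (f, g) :=
      fun q => (periodEquiv N).injective (by rw [periodEquiv_heckeOp, h q, map_smul])
    exact ⟨isEigenvector_of_heckeOp N κ f fun q => congrArg Prod.fst (h' q),
      isEigenvector_of_heckeOp N κ g fun q => congrArg Prod.snd (h' q)⟩
  · rintro ⟨hf, hg⟩ q
    rw [← periodEquiv_heckeOp, hf, hg, ← map_smul]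
    rfl

theorem exists_isEigenvector (κ : heckeAlgebra N 2 ∅ →+* ℂ) :
    ∃ v : CuspForm (Gamma0 N) 2, v ≠ 0 ∧ Hecke.IsEigenvector κ v :=
  Hecke.exists_eigenvector (by norm_num) (Fermat.Agent.MFCore.hasIntegralStructure N 2) κ

theorem heckeMat_eigen_pos (κ : heckeAlgebra N 2 ∅ →+* ℂ) :
    0 < Module.finrank ℂ (eigenspace (heckeMat N) fun q => κ (heckeOp N q)) := by
  obtain ⟨v, hv0, hv⟩ := exists_isEigenvector N κ
  have hz : Hecke.IsEigenvector κ (0 : CuspForm (Gamma0 N) 2) := fun t => by simp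
  rw [Module.finrank_pos_iff_exists_ne_zero]
  refine ⟨⟨periodEquiv N (v, 0), (mem_eigenspace_periodEquiv_iff N κ v 0).mpr ⟨hv, hz⟩⟩,
    fun h => hv0 ?_⟩
  have h' : periodEquiv N (v, 0) = 0 := congrArg Subtype.val h
  rw [← map_zero (periodEquiv N)] at h'
  exact congrArg Prod.fst ((periodEquiv N).injective h')

theorem heckeMat_eigen_le (κ : heckeAlgebra N 2 ∅ →+* ℂ) :
    Module.finrank ℂ (eigenspace (heckeMat N) fun q => κ (heckeOp N q)) ≤ 2 := by
  obtain ⟨v, hv0, hv⟩ := exists_isEigenvector N κ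
  have mult : ∀ f : CuspForm (Gamma0 N) 2, Hecke.IsEigenvector κ f → ∃ c : ℂ, f = c • v := by
    intro f hf
    refine ⟨ModularFormClass.qCoeff ⇑f 1 / ModularFormClass.qCoeff ⇑v 1,
      Hecke.ext_qCoeff fun n => ?_⟩
    have := hv.qCoeff_one_ne_zero hv0
    rw [Hecke.qCoeff_smul, hf.qCoeff_eq, hv.qCoeff_eq n]
    field_simp
  let s : Fin 2 → (Fin (homRank N) → ℂ) := ![periodEquiv N (v, 0), periodEquiv N (0, v)]
  calc Module.finrank ℂ (eigenspace (heckeMat N) fun q => κ (heckeOp N q))
      ≤ Module.finrank ℂ (Submodule.span ℂ (Set.range s)) := Submodule.finrank_mono ?_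
    _ ≤ Fintype.card (Fin 2) := finrank_range_le_card s
    _ = 2 := Fintype.card_fin 2
  intro w hw
  obtain ⟨⟨f, g⟩, rfl⟩ := (periodEquiv N).surjective w
  obtain ⟨hf, hg⟩ := (mem_eigenspace_periodEquiv_iff N κ f g).mp hw
  obtain ⟨c, rfl⟩ := mult f hf
  obtain ⟨e, rfl⟩ := mult g hg
  have : (c • v, e • v) =
      c • (v, (0 : CuspForm (Gamma0 N) 2)) + e • ((0 : CuspForm (Gamma0 N) 2), v) := by
    simp
  rw [this, map_add, map_smul, map_smul]
  exact add_mem (Submodule.smul_mem _ c (Submodule.subset_span ⟨0, rfl⟩))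
    (Submodule.smul_mem _ e (Submodule.subset_span ⟨1, rfl⟩))

end Fermat.Agent.GalRep
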