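import Mathlib
import Fermat.Agent.Petersson.Hecke
import Fermat.Agent.MFCore.Integral
import Fermat.Agent.Hecke.Lattice

/-!
# Reduced Hecke algebras

Scalar extension preserves reducedness for finite free `ℤ`-algebras, and the weight two Hecke
algebra away from the primes of the level is reduced (`isReduced_heckeAlgebra`).
-/

set_option autoImplicit false

noncomputable section

namespace Fermat.Agent.GalRep

open scoped TensorProduct

/-- A reduced finite algebra over a field of characteristic zero is étale. -/
theorem formallyEtale_of_isReduced (K A : Type) [Field K] [CharZero K] [CommRing A] [Algebra K A]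
    [Module.Finite K A] [IsReduced A] : Algebra.FormallyEtale K A := by
  have : IsArtinianRing A := IsArtinianRing.of_finite K A
  have : ∀ I : MaximalSpectrum A, Field (A ⧸ I.asIdeal) := fun I => Ideal.Quotient.field _
  refine (Algebra.FormallyEtale.iff_exists_algEquiv_prod K A).mpr
    ⟨MaximalSpectrum A, inferInstance, fun I => A ⧸ I.asIdeal,
      fun I => Ideal.Quotient.field _, fun I => inferInstance,
      (IsArtinianRing.equivPi A).restrictScalars K, fun I => ?_⟩
  let := Ideal.Quotient.field I.asIdeal
  exact Algebra.IsAlgebraic.isSeparable_of_perfectField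

/-- Scalar extension to a field of characteristic zero of a reduced finite free `ℤ`-algebra is
reduced. -/
theorem isReduced_tensor_field (K T : Type) [Field K] [CharZero K] [CommRing T]
    [IsReduced T] [Module.Finite ℤ T] [Module.Free ℤ T] : IsReduced (K ⊗[ℤ] T) := by
  have hj : Function.Injective
      (Algebra.TensorProduct.includeRight : T →ₐ[ℤ] ℚ ⊗[ℤ] T) :=
    Algebra.TensorProduct.includeRight_injective (Int.cast_injective (α := ℚ))
  have : IsReduced (ℚ ⊗[ℤ] T) := by
    have hden : ∀ x : ℚ ⊗[ℤ] T, ∃ (n : ℤ) (t : T), n ≠ 0 ∧ n • x = 1 ⊗ₜ t := by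
      intro x
      induction x using TensorProduct.induction_on with
      | zero => exact ⟨1, 0, one_ne_zero, by simp⟩
      | tmul r t =>
        refine ⟨r.den, r.num • t, Int.natCast_ne_zero.mpr r.den_nz, ?_⟩
        rw [TensorProduct.smul_tmul', TensorProduct.tmul_smul, TensorProduct.smul_tmul']
        congr 1
        rw [zsmul_eq_mul, zsmul_eq_mul, mul_one]
        push_cast
        rw [mul_comm, Rat.mul_den_eq_num]
      | add x y hx hy =>
        obtain ⟨a, s, ha, hs⟩ := hx
        obtain ⟨b, t, hb, ht⟩ := hy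
        refine ⟨a * b, b • s + a • t, mul_ne_zero ha hb, ?_⟩
        rw [smul_add, TensorProduct.tmul_add, TensorProduct.tmul_smul, TensorProduct.tmul_smul,
          ← hs, ← ht, smul_smul, smul_smul, mul_comm b a]
    refine ⟨fun x ⟨m, hm⟩ => ?_⟩
    obtain ⟨n, t, hn, ht⟩ := hden x
    have h1 : IsNilpotent t := ⟨m, hj (by
      rw [map_pow, map_zero, Algebra.TensorProduct.includeRight_apply, ← ht, smul_pow, hm,
        smul_zero])⟩
    rw [h1.eq_zero, TensorProduct.tmul_zero] at ht
    have h2 : ((n : ℚ)⁻¹ • (n : ℚ) • x) = 0 := by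
      rw [Int.cast_smul_eq_zsmul, ht, smul_zero]
    rwa [smul_smul, inv_mul_cancel₀ (by exact_mod_cast hn), one_smul] at h2
  have := formallyEtale_of_isReduced ℚ (ℚ ⊗[ℤ] T)
  have : IsReduced (K ⊗[ℚ] (ℚ ⊗[ℤ] T)) :=
    Algebra.FormallyUnramified.isReduced_of_field K (K ⊗[ℚ] (ℚ ⊗[ℤ] T))
  exact isReduced_of_injective (Algebra.TensorProduct.cancelBaseChange ℤ ℚ K K T).symm
      (Algebra.TensorProduct.cancelBaseChange ℤ ℚ K K T).symm.injective

/-- Scalar extension to a domain of characteristic zero of a reduced finite free `ℤ`-algebra is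
reduced. -/
theorem isReduced_tensor_int (R T : Type) [CommRing R] [IsDomain R] [CharZero R] [CommRing T]
    [IsReduced T] [Module.Finite ℤ T] [Module.Free ℤ T] : IsReduced (R ⊗[ℤ] T) := by
  suffices h : ∀ (K : Type) [Field K] (f : R →+* K), Function.Injective f →
      IsReduced (R ⊗[ℤ] T) from h (FractionRing R) _ (IsFractionRing.injective R (FractionRing R))
  intro K _ f hf
  have : CharZero K := charZero_of_injective_ringHom hf
  have := isReduced_tensor_field K T
  exact isReduced_of_injective
    (Algebra.TensorProduct.map f.toIntAlgHom (AlgHom.id ℤ T))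
    (Module.Flat.rTensor_preserves_injective_linearMap (f.toIntAlgHom.toLinearMap) hf)

open CuspForm in
/-- The Hecke algebra away from a set containing the primes of the level is reduced. -/
theorem isReduced_heckeAlgebra (N : ℕ) [NeZero N] (S : Set ℕ)
    (hNS : ∀ q : ℕ, q.Prime → q ∣ N → q ∈ S) : IsReduced (heckeAlgebra N 2 S) := by
  refine ⟨fun t ⟨m, hm⟩ => Subtype.ext ?_⟩
  have htop := Petersson.iSup_eigenspace_goodT (N := N)
  refine LinearMap.ext fun v => ?_
  have hv : v ∈ ⨆ χ : Petersson.GoodPrime N → ℂ, ⨅ i, (Petersson.goodT i).eigenspace (χ i) := by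
    rw [htop]; exact Submodule.mem_top
  induction hv using Submodule.iSup_induction' with
  | mem χ w hw =>
    have hscal : ∀ (s : Module.End ℂ (CuspForm (CongruenceSubgroup.Gamma0 N) 2)),
        s ∈ heckeAlgebra N 2 S → ∃ c : ℂ, s w = c • w := by
      intro s hs
      induction hs using Algebra.adjoin_induction with
      | mem u hu =>
        rcases hu with ⟨ℓ, hℓ, hℓN, -, rfl⟩ | ⟨q, hqN, hq, hqS, rfl⟩
        · have h1 := (Submodule.mem_iInf _).mp hw ⟨ℓ, hℓ, hℓN⟩
          exact ⟨_, Module.End.mem_eigenspace_iff.mp h1⟩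
        · exact absurd (hNS q hq hqN) hqS
      | algebraMap n =>
        refine ⟨(n : ℂ), ?_⟩
        rw [Algebra.algebraMap_eq_smul_one, LinearMap.smul_apply, Module.End.one_apply,
          Int.cast_smul_eq_zsmul]
      | add a b _ _ ha hb =>
        obtain ⟨c, hc⟩ := ha
        obtain ⟨d, hd⟩ := hb
        exact ⟨c + d, by rw [LinearMap.add_apply, hc, hd, add_smul]⟩
      | mul a b _ _ ha hb =>
        obtain ⟨c, hc⟩ := ha
        obtain ⟨d, hd⟩ := hb
        exact ⟨d * c, by rw [Module.End.mul_apply, hd, map_smul, hc, smul_smul]⟩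
    obtain ⟨c, hc⟩ := hscal t.1 t.2
    have hpow : ∀ j : ℕ, (t.1 ^ j) w = c ^ j • w := by
      intro j
      induction j with
      | zero => simp
      | succ j ih =>
        rw [pow_succ, Module.End.mul_apply, hc, map_smul, ih, smul_smul, pow_succ, mul_comm]
    have h0 : c ^ m • w = 0 := by
      rw [← hpow, ← SubmonoidClass.coe_pow, hm]
      rfl
    show t.1 w = 0
    rcases smul_eq_zero.mp h0 with h | h
    · rw [hc, eq_zero_of_pow_eq_zero h, zero_smul]
    · rw [h, map_zero]
  | zero => simp
  | add x y _ _ hx hy =>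
    simp only [map_add] at *
    rw [hx, hy]

end Fermat.Agent.GalRep
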