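import Fermat.Agent.GalRep.Glue
import Fermat.Agent.GalRep.ReducedTensor
import Fermat.Agent.GalRep.Extend
import Fermat.Agent.Density.BrauerNesbitt
import Fermat.Prelude.Def_CuspForm_HeckeLocal

/-!
# The datum on a localised Hecke algebra

`exists_localDatum`: the Hecke–Galois datum on the localised Hecke algebra of an absolutely
irreducible residual eigensystem, from the representations attached to its points.
-/

set_option autoImplicit false

noncomputable section

namespace Fermat.Agent.GalRep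

open IsLocalRing Polynomial Fermat.Agent.Deformation
open scoped TensorProduct

local notation "ℚbar" => AlgebraicClosure ℚ

/-- The statement that eigensystems of level `N` with values in `p`-adic rings have attached
representations. -/
def RepInput (p N : ℕ) [NeZero N] : Prop :=
  ∀ (S : Finset ℕ), p ∈ S → (∀ q : ℕ, q.Prime → q ∣ N → q ∈ S) →
    ∀ (O' : Type) [CommRing O'] [IsDomain O'] [IsDiscreteValuationRing O']
      [IsAdicComplete (maximalIdeal O') O'] [Finite (ResidueField O')] [CharZero O'],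
      (p : O') ∈ maximalIdeal O' →
      ∀ χ : CuspForm.heckeAlgebra N 2 (↑S : Set ℕ) →+* O',
        ∃ (O'' : Type) (_ : CommRing O'') (_ : IsDomain O'') (_ : IsDiscreteValuationRing O'')
          (_ : IsAdicComplete (maximalIdeal O'') O'') (_ : Finite (ResidueField O''))
          (_ : CharZero O'') (_ : Algebra O' O'') (_ : Module.Finite O' O'')
          (_ : IsLocalHom (algebraMap O' O'')),
          Function.Injective (algebraMap O' O'') ∧
          ∃ ρ : GaloisRepAdic O'',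
            (∀ (ℓ : ℕ) (hℓ : ℓ.Prime) (hℓN : ¬ ℓ ∣ N) (hℓS : ℓ ∉ (↑S : Set ℕ)),
              ∀ A : ValuationSubring ℚbar, A.LiesOverPrime ℓ →
                ∀ σ : GQ, A.IsFrobeniusAt σ ℓ →
                  LinearMap.charpoly (ρ.ρ σ) =
                    X ^ 2 - C (algebraMap O' O'' (χ (CuspForm.heckeAlgebra.T hℓ hℓN hℓS))) * X
                      + C ((ℓ : O''))) ∧
            (∀ q : ℕ, q.Prime → ¬ q ∣ N → q ≠ p → ρ.IsUnramifiedAt q)

/-! ## Residual representations -/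

section Residual

variable {k : Type} [Field k]

theorem span_map_eq_top {k' : Type} [Field k'] (φ : k →+* k') {M : GQ →* M2 k}
    (h : Submodule.span k (Set.range M) = ⊤) :
    Submodule.span k' (Set.range (mapRep φ M)) = ⊤ := by
  classical
  refine top_unique fun Y _ => ?_
  rw [Matrix.matrix_eq_sum_single Y]
  refine Submodule.sum_mem _ fun i _ => Submodule.sum_mem _ fun j _ => ?_
  have h1 : ∀ X ∈ Submodule.span k (Set.range M),
      X.map φ ∈ Submodule.span k' (Set.range (mapRep φ M)) := by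
    intro X hX
    induction hX using Submodule.span_induction with
    | mem Z hZ =>
      obtain ⟨σ, rfl⟩ := hZ
      exact Submodule.subset_span ⟨σ, rfl⟩
    | zero =>
      rw [Matrix.map_zero φ (map_zero φ)]
      exact zero_mem _
    | add A B _ _ hA hB =>
      rw [Matrix.map_add φ (map_add φ)]
      exact add_mem hA hB
    | smul c A _ hA =>
      have e : (c • A).map φ = φ c • A.map φ := by
        ext a b
        simp
      rw [e]
      exact Submodule.smul_mem _ _ hA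
  have h2 := h1 (Matrix.single i j 1) (h ▸ Submodule.mem_top)
  rw [Matrix.map_single, map_one] at h2
  rw [show Matrix.single i j (Y i j) = Y i j • Matrix.single i j (1 : k') by simp]
  exact Submodule.smul_mem _ _ h2

/-- Spanning the matrix algebra implies absolute irreducibility. -/
theorem isAbsolutelyIrreducible_of_span {ρ : ResidualGaloisRep k} {M : GQ →* M2 k}
    (hM : IsResMatrixRep ρ M) (h : Submodule.span k (Set.range M) = ⊤) :
    ρ.IsAbsolutelyIrreducible := by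
  set K := AlgebraicClosure k
  obtain ⟨b, hb⟩ := hM.baseChange (k' := K)
  intro W hW
  refine or_iff_not_imp_left.mpr fun hne => ?_
  obtain ⟨w, hwW, hw0⟩ := (Submodule.ne_bot_iff W).mp hne
  have hstab : ∀ f : Module.End K (ρ.baseChange K).V, f w ∈ W := by
    intro f
    have hf : LinearMap.toMatrix b b f ∈
        Submodule.span K (Set.range (mapRep (algebraMap k K) M)) :=
      (span_map_eq_top (algebraMap k K) h).symm ▸ Submodule.mem_top
    suffices ∀ X ∈ Submodule.span K (Set.range (mapRep (algebraMap k K) M)),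
        Matrix.toLin b b X w ∈ W by
      have := this _ hf
      rwa [Matrix.toLin_toMatrix] at this
    intro X hX
    induction hX using Submodule.span_induction with
    | mem Z hZ =>
      obtain ⟨σ, rfl⟩ := hZ
      rw [← hb σ, Matrix.toLin_toMatrix]
      exact hW σ w hwW
    | zero => simp
    | add A B _ _ hA hB =>
      rw [map_add, LinearMap.add_apply]
      exact add_mem hA hB
    | smul c A _ hA =>
      rw [map_smul, LinearMap.smul_apply]
      exact Submodule.smul_mem _ _ hA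
  refine top_unique fun v _ => ?_
  obtain ⟨i, hi⟩ : ∃ i, b.repr w i ≠ 0 := by
    by_contra hcon
    push Not at hcon
    exact hw0 (b.repr.injective (Finsupp.ext fun i => by simpa using hcon i))
  have h3 := hstab (((b.repr w i)⁻¹) • (b.coord i).smulRight v)
  simpa [smul_smul, inv_mul_cancel₀ hi] using h3

theorem areConj_symm {A : Type} [CommRing A] {M N : GQ →* M2 A} (h : AreConj M N) :
    AreConj N M := by
  obtain ⟨U, hU⟩ := h
  refine ⟨U⁻¹, fun σ => ?_⟩
  rw [eq_comm, ← sub_eq_zero]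
  apply U.isUnit.mul_left_cancel
  rw [mul_zero, mul_sub, ← mul_assoc, hU, ← mul_assoc, mul_assoc (N σ), Units.mul_inv,
    mul_one, one_mul, sub_self]

end Residual

/-! ## Points -/

section Points

variable {𝒪 : Type} [CommRing 𝒪] [IsDomain 𝒪] [IsDiscreteValuationRing 𝒪]
  [IsAdicComplete (maximalIdeal 𝒪) 𝒪] [Finite (ResidueField 𝒪)] [CharZero 𝒪]

/-- A finite domain over `𝒪` embeds into a finite extension of `𝒪`. -/
theorem exists_dvr_of_domain (C : Type) [CommRing C] [IsDomain C] [Algebra 𝒪 C]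
    [Module.Finite 𝒪 C] (hinj : Function.Injective (algebraMap 𝒪 C)) :
    ∃ (O' : Type) (_ : CommRing O') (_ : IsDomain O') (_ : IsDiscreteValuationRing O')
      (_ : IsAdicComplete (maximalIdeal O') O') (_ : Finite (ResidueField O')) (_ : CharZero O')
      (_ : Algebra 𝒪 O') (_ : Module.Finite 𝒪 O') (_ : IsLocalHom (algebraMap 𝒪 O'))
      (x : C →ₐ[𝒪] O'), Function.Injective x := by
  have : FaithfulSMul 𝒪 C := (faithfulSMul_iff_algebraMap_injective 𝒪 C).mpr hinj
  let : Algebra (FractionRing 𝒪) (FractionRing C) := FractionRing.liftAlgebra 𝒪 (FractionRing C)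
  have : FiniteDimensional (FractionRing 𝒪) (FractionRing C) :=
    .of_isLocalization 𝒪 C (nonZeroDivisors 𝒪)
  obtain ⟨hfin, hdvr, -, hi, hchar⟩ := integralClosure_properties 𝒪 (FractionRing C)
  have : IsLocalRing (integralClosure 𝒪 (FractionRing C)) :=
    @IsDiscreteValuationRing.toIsLocalRing _ _ _ hdvr
  have : IsLocalHom (algebraMap 𝒪 (integralClosure 𝒪 (FractionRing C))) :=
    isLocalHom_of_finite (R := 𝒪) _ hi
  have : IsAdicComplete (maximalIdeal (integralClosure 𝒪 (FractionRing C)))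
      (integralClosure 𝒪 (FractionRing C)) :=
    IsLocalRing.isAdicComplete_of_module_finite (𝒪 := 𝒪)
  have : Finite (ResidueField (integralClosure 𝒪 (FractionRing C))) :=
    finite_residueField (R := 𝒪) _
  have := Algebra.IsIntegral.of_finite 𝒪 C
  let x : C →ₐ[𝒪] integralClosure 𝒪 (FractionRing C) :=
    AlgHom.codRestrict (IsScalarTower.toAlgHom 𝒪 C (FractionRing C)) _ fun c =>
      (Algebra.IsIntegral.isIntegral (R := 𝒪) c).map (IsScalarTower.toAlgHom 𝒪 C (FractionRing C))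
  exact ⟨_, inferInstance, inferInstance, hdvr, inferInstance, inferInstance, hchar, inferInstance,
    hfin, inferInstance, x, fun a b h => IsFractionRing.injective C (FractionRing C)
      (congrArg Subtype.val h)⟩

omit [IsDiscreteValuationRing 𝒪] [IsAdicComplete (maximalIdeal 𝒪) 𝒪] [Finite (ResidueField 𝒪)]
  [CharZero 𝒪] in
/-- A minimal prime of a finite free algebra meets the base trivially. -/
theorem injective_quotient_minimalPrime (T : Type) [CommRing T] [Algebra 𝒪 T] [Module.Free 𝒪 T]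
    (P : Ideal T) (hP : P ∈ minimalPrimes T) :
    Function.Injective (algebraMap 𝒪 (T ⧸ P)) := by
  rw [injective_iff_map_eq_zero]
  intro a ha
  by_contra h0
  rw [IsScalarTower.algebraMap_apply 𝒪 T (T ⧸ P), Ideal.Quotient.algebraMap_eq,
    Ideal.Quotient.eq_zero_iff_mem] at ha
  refine Set.disjoint_left.mp (Ideal.disjoint_nonZeroDivisors_of_mem_minimalPrimes hP) ha ?_
  refine mem_nonZeroDivisors_iff_right.mpr fun y hy => ?_
  have hy' : a • y = 0 := by rw [Algebra.smul_def, mul_comm, hy]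
  let b := Module.Free.chooseBasis 𝒪 T
  refine b.repr.injective (Finsupp.ext fun i => ?_)
  have h := congrArg (fun z => b.repr z i) hy'
  simp only [map_smul, Finsupp.smul_apply, smul_eq_mul, map_zero, Finsupp.zero_apply] at h
  rw [map_zero, Finsupp.zero_apply]
  exact (mul_eq_zero.mp h).resolve_left h0

end Points

/-! ## The datum -/

section Datum

open CuspForm

variable {p : ℕ} [Fact p.Prime] {N : ℕ} [NeZero N] {S : Finset ℕ}
  {𝒪 : Type} [CommRing 𝒪] [IsDomain 𝒪] [IsDiscreteValuationRing 𝒪]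
  [IsAdicComplete (maximalIdeal 𝒪) 𝒪] [Finite (ResidueField 𝒪)] [CharZero 𝒪]
  [Fact (HasIntegralStructure N 2)]
  (θ : heckeAlgebra N 2 (↑S : Set ℕ) →+* ResidueField 𝒪)

omit [Fact p.Prime] [Finite (ResidueField 𝒪)] [CharZero 𝒪] [IsAdicComplete (maximalIdeal 𝒪) 𝒪] in
/-- The structure map of the localised algebra reduces to `θ`. -/
theorem residue_π (t : heckeAlgebra N 2 (↑S : Set ℕ)) :
    residue (heckeLocal N (↑S : Set ℕ) 𝒪 θ) (heckeLocal.π N (↑S : Set ℕ) 𝒪 θ t) =
      ResidueField.map (algebraMap 𝒪 (heckeLocal N (↑S : Set ℕ) 𝒪 θ)) (θ t) := by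
  obtain ⟨a, ha⟩ := residue_surjective (θ t)
  rw [← ha, ResidueField.map_residue, ← sub_eq_zero, ← map_sub, residue_eq_zero_iff]
  let z : 𝒪 ⊗[ℤ] heckeAlgebra N 2 (↑S : Set ℕ) :=
    Algebra.TensorProduct.includeRight t - algebraMap 𝒪 _ a
  have hz : z ∈ heckeCharKernel N (↑S : Set ℕ) 𝒪 θ := by
    rw [mem_heckeCharKernel_iff, map_sub, residualCharacter_algebraMap,
      Algebra.TensorProduct.includeRight_apply, residualCharacter_tmul, map_one, one_mul, ha,
      sub_self]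
  have h1 : latticeBaseChange N (↑S : Set ℕ) 𝒪 z ∈ heckeLocalIdeal N (↑S : Set ℕ) 𝒪 θ :=
    Ideal.mem_map_of_mem _ hz
  have h2 : algebraMap (heckeBaseAlgebra N (↑S : Set ℕ) 𝒪) (heckeLocal N (↑S : Set ℕ) 𝒪 θ)
      (latticeBaseChange N (↑S : Set ℕ) 𝒪 z) ∈ maximalIdeal (heckeLocal N (↑S : Set ℕ) 𝒪 θ) := by
    rw [mem_maximalIdeal, mem_nonunits_iff,
      IsLocalization.AtPrime.isUnit_to_map_iff (heckeLocal N (↑S : Set ℕ) 𝒪 θ)
        (heckeLocalIdeal N (↑S : Set ℕ) 𝒪 θ)]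
    exact fun h => h h1
  rwa [map_sub, map_sub, latticeBaseChange_algebraMap, ← IsScalarTower.algebraMap_apply] at h2

omit [Fact p.Prime] [Finite (ResidueField 𝒪)] [CharZero 𝒪] [Fact (HasIntegralStructure N 2)] in
/-- The localised algebra is generated by the Hecke operators. -/
theorem adjoin_range_π :
    Algebra.adjoin 𝒪 (Set.range (heckeLocal.π N (↑S : Set ℕ) 𝒪 θ)) = ⊤ := by
  set A := Algebra.adjoin 𝒪 (Set.range (heckeLocal.π N (↑S : Set ℕ) 𝒪 θ))
  have hbase : ∀ x,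
      algebraMap (heckeBaseAlgebra N (↑S : Set ℕ) 𝒪) (heckeLocal N (↑S : Set ℕ) 𝒪 θ) x ∈ A := by
    intro x
    obtain ⟨y, rfl⟩ := latticeBaseChange_surjective N (↑S : Set ℕ) 𝒪 x
    induction y using TensorProduct.induction_on with
    | zero => rw [map_zero, map_zero]; exact zero_mem _
    | add y z hy hz => rw [map_add, map_add]; exact add_mem hy hz
    | tmul a t =>
      have e : (a ⊗ₜ[ℤ] t : 𝒪 ⊗[ℤ] heckeAlgebra N 2 (↑S : Set ℕ)) =
          algebraMap 𝒪 _ a * Algebra.TensorProduct.includeRight t := by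
        rw [Algebra.TensorProduct.algebraMap_apply, Algebra.algebraMap_self, RingHom.id_apply,
          Algebra.TensorProduct.includeRight_apply, Algebra.TensorProduct.tmul_mul_tmul, mul_one,
          one_mul]
      rw [e, map_mul, map_mul, latticeBaseChange_algebraMap, ← IsScalarTower.algebraMap_apply]
      exact A.mul_mem (A.algebraMap_mem a) (Algebra.subset_adjoin ⟨t, rfl⟩)
  have : Algebra.IsIntegral A (heckeLocal N (↑S : Set ℕ) 𝒪 θ) :=
    haveI := Algebra.IsIntegral.of_finite 𝒪 (heckeLocal N (↑S : Set ℕ) 𝒪 θ)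
    Algebra.IsIntegral.tower_top 𝒪
  have : IsLocalHom (algebraMap A (heckeLocal N (↑S : Set ℕ) 𝒪 θ)) :=
    RingHom.IsIntegral.isLocalHom Algebra.IsIntegral.isIntegral Subtype.val_injective
  refine eq_top_iff.mpr fun z _ => ?_
  obtain ⟨a, s, rfl⟩ := IsLocalization.exists_mk'_eq (heckeLocalSubmonoid N (↑S : Set ℕ) 𝒪 θ) z
  have hu : IsUnit (⟨_, hbase s.1⟩ : A) := by
    refine isUnit_of_map_unit (algebraMap A (heckeLocal N (↑S : Set ℕ) 𝒪 θ)) _ ?_
    exact IsLocalization.map_units (heckeLocal N (↑S : Set ℕ) 𝒪 θ) s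
  obtain ⟨u, hu⟩ := hu
  have e : IsLocalization.mk' (heckeLocal N (↑S : Set ℕ) 𝒪 θ) a s =
      algebraMap (heckeBaseAlgebra N (↑S : Set ℕ) 𝒪) (heckeLocal N (↑S : Set ℕ) 𝒪 θ) a *
        ((↑u⁻¹ : A) : (heckeLocal N (↑S : Set ℕ) 𝒪 θ)) := by
    rw [IsLocalization.mk'_eq_iff_eq_mul, mul_assoc]
    have h1 : ((↑u⁻¹ : A) : (heckeLocal N (↑S : Set ℕ) 𝒪 θ)) *
        ((↑u : A) : (heckeLocal N (↑S : Set ℕ) 𝒪 θ)) = 1 :=
      congrArg Subtype.val (Units.inv_mul u)
    rw [hu] at h1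
    rw [h1, mul_one]
  rw [e]
  exact A.mul_mem (hbase a) (↑u⁻¹ : A).2

omit [Fact p.Prime] [Finite (ResidueField 𝒪)] [CharZero 𝒪] [IsAdicComplete (maximalIdeal 𝒪) 𝒪] in
/-- Congruent systems with values in `𝒪` are points of the localised algebra. -/
theorem exists_point (χ : heckeAlgebra N 2 (↑S : Set ℕ) →+* 𝒪)
    (hχ : ∀ t, residue 𝒪 (χ t) = θ t) :
    ∃ ψ : (heckeLocal N (↑S : Set ℕ) 𝒪 θ) →ₐ[𝒪] 𝒪,
      ∀ t, ψ (heckeLocal.π N (↑S : Set ℕ) 𝒪 θ t) = χ t := by
  let L : (𝒪 ⊗[ℤ] heckeAlgebra N 2 (↑S : Set ℕ)) →ₐ[𝒪] 𝒪 :=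
    Algebra.TensorProduct.lift (Algebra.ofId 𝒪 𝒪) χ.toIntAlgHom fun _ _ => Commute.all _ _
  have hinj := latticeBaseChange_injective N (↑S : Set ℕ) 𝒪 Fact.out
  let e := RingEquiv.ofBijective (latticeBaseChange N (↑S : Set ℕ) 𝒪)
    ⟨hinj, latticeBaseChange_surjective N (↑S : Set ℕ) 𝒪⟩
  let g : heckeBaseAlgebra N (↑S : Set ℕ) 𝒪 →+* 𝒪 := (L : _ →+* 𝒪).comp e.symm.toRingHom
  have hg : ∀ y, g (latticeBaseChange N (↑S : Set ℕ) 𝒪 y) = L y := fun y =>
    congrArg L (e.symm_apply_apply y)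
  have hres : ∀ y, residue 𝒪 (L y) = residualCharacter N (↑S : Set ℕ) 𝒪 θ y := by
    intro y
    induction y using TensorProduct.induction_on with
    | zero => simp
    | add y z hy hz => simp only [map_add, hy, hz]
    | tmul a t =>
      rw [residualCharacter_tmul, ← hχ t, ← map_mul]
      simp [L]
  have hunit : ∀ s : heckeLocalSubmonoid N (↑S : Set ℕ) 𝒪 θ, IsUnit (g s.1) := by
    rintro ⟨_, y, hy, rfl⟩
    rw [hg]
    refine isUnit_of_map_unit (residue 𝒪) _ (isUnit_iff_ne_zero.mpr ?_)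
    rw [hres]
    exact fun h => hy ((mem_heckeCharKernel_iff N (↑S : Set ℕ) 𝒪 θ y).mpr h)
  let ψ : (heckeLocal N (↑S : Set ℕ) 𝒪 θ) →+* 𝒪 :=
    IsLocalization.lift (S := (heckeLocal N (↑S : Set ℕ) 𝒪 θ)) hunit
  have hψ : ∀ y, ψ (algebraMap (heckeBaseAlgebra N (↑S : Set ℕ) 𝒪) (heckeLocal N (↑S : Set ℕ) 𝒪 θ)
      (latticeBaseChange N (↑S : Set ℕ) 𝒪 y)) = L y := fun y =>
    (IsLocalization.lift_eq hunit _).trans (hg y)
  refine ⟨{ ψ with commutes' := fun a => ?_ }, fun t => ?_⟩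
  · show ψ (algebraMap 𝒪 (heckeLocal N (↑S : Set ℕ) 𝒪 θ) a) = a
    rw [IsScalarTower.algebraMap_apply 𝒪 (heckeBaseAlgebra N (↑S : Set ℕ) 𝒪)
      (heckeLocal N (↑S : Set ℕ) 𝒪 θ),
      ← latticeBaseChange_algebraMap, hψ, L.commutes]
    rfl
  · show ψ (heckeLocal.π N (↑S : Set ℕ) 𝒪 θ t) = χ t
    refine (hψ (Algebra.TensorProduct.includeRight t)).trans ?_
    simp [L]

omit [Fact p.Prime] [Finite (ResidueField 𝒪)] [CharZero 𝒪] in
theorem residue_comp_surjective :
    Function.Surjective (residue (heckeLocal N (↑S : Set ℕ) 𝒪 θ) ∘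
      algebraMap 𝒪 (heckeLocal N (↑S : Set ℕ) 𝒪 θ)) := by
  intro y
  obtain ⟨z, rfl⟩ := residue_surjective y
  have hz : z ∈ Algebra.adjoin 𝒪 (Set.range (heckeLocal.π N (↑S : Set ℕ) 𝒪 θ)) := by
    rw [adjoin_range_π]; trivial
  induction hz using Algebra.adjoin_induction with
  | mem w hw =>
    obtain ⟨t, rfl⟩ := hw
    obtain ⟨a, ha⟩ := residue_surjective (θ t)
    exact ⟨a, by rw [Function.comp_apply, residue_π, ← ha, ResidueField.map_residue]⟩
  | algebraMap a => exact ⟨a, rfl⟩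
  | add u v _ _ hu hv =>
    obtain ⟨a, ha⟩ := hu
    obtain ⟨b, hb⟩ := hv
    exact ⟨a + b, by simp only [Function.comp_apply, map_add] at *; rw [ha, hb]⟩
  | mul u v _ _ hu hv =>
    obtain ⟨a, ha⟩ := hu
    obtain ⟨b, hb⟩ := hv
    exact ⟨a * b, by simp only [Function.comp_apply, map_mul] at *; rw [ha, hb]⟩

omit [Fact p.Prime] [Finite (ResidueField 𝒪)] [IsAdicComplete (maximalIdeal 𝒪) 𝒪] in
theorem isReduced_heckeLocal (hNS : ∀ q : ℕ, q.Prime → q ∣ N → q ∈ S) :
    IsReduced (heckeLocal N (↑S : Set ℕ) 𝒪 θ) := by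
  have := isReduced_heckeAlgebra N (↑S : Set ℕ) (fun q hq h => hNS q hq h)
  have := Hecke.moduleFinite_of_hasIntegralStructure (N := N) (S := (↑S : Set ℕ)) one_le_two
    Fact.out
  have := Hecke.moduleFree_of_hasIntegralStructure (N := N) (S := (↑S : Set ℕ)) one_le_two
    Fact.out
  have := isReduced_tensor_int 𝒪 (heckeAlgebra N 2 (↑S : Set ℕ))
  let e := RingEquiv.ofBijective (latticeBaseChange N (↑S : Set ℕ) 𝒪)
    ⟨latticeBaseChange_injective N (↑S : Set ℕ) 𝒪 Fact.out,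
      latticeBaseChange_surjective N (↑S : Set ℕ) 𝒪⟩
  have : IsReduced (heckeBaseAlgebra N (↑S : Set ℕ) 𝒪) :=
    isReduced_of_injective e.symm e.symm.injective
  exact isReduced_localizationPreserves (heckeLocalSubmonoid N (↑S : Set ℕ) 𝒪 θ)
    (heckeLocal N (↑S : Set ℕ) 𝒪 θ) inferInstance

omit [Fact (Nat.Prime p)] in
/-- **The datum on the localised Hecke algebra**, with a normalised matrix form of its
representation. -/
theorem exists_localDatum (hin : RepInput p N) (hp𝒪 : (p : 𝒪) ∈ maximalIdeal 𝒪) (hpS : p ∈ S)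
    (hNS : ∀ q : ℕ, q.Prime → q ∣ N → q ∈ S)
    (ρbar : ResidualGaloisRep (ResidueField 𝒪)) (habs : ρbar.IsAbsolutelyIrreducible)
    (hρbar : ∀ (ℓ : ℕ) (hℓ : ℓ.Prime) (hℓN : ¬ ℓ ∣ N) (hℓS : ℓ ∉ (↑S : Set ℕ)),
      ∀ A : ValuationSubring ℚbar, A.LiesOverPrime ℓ → ∀ σ : GQ, A.IsFrobeniusAt σ ℓ →
        LinearMap.charpoly (ρbar.ρ σ) =
          X ^ 2 - C (θ (heckeAlgebra.T hℓ hℓN hℓS)) * X + C ((ℓ : ResidueField 𝒪))) :
    ∃ H : HeckeGaloisRepDatum N (↑S : Set ℕ) 𝒪 θ (heckeLocal N (↑S : Set ℕ) 𝒪 θ),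
      H.π = heckeLocal.π N (↑S : Set ℕ) 𝒪 θ ∧
      H.ρ.residual.IsEquiv (ρbar.baseChangeAlong
        (ResidueField.map (algebraMap 𝒪 (heckeLocal N (↑S : Set ℕ) 𝒪 θ)))) := by
  classical
  obtain ⟨D, hD⟩ := exists_rigidData habs
  have htop := Deformation.span_range_eq_top hD habs
  obtain ⟨c, hc⟩ : ∃ c : GQ →₀ 𝒪,
      evalComb (D.M0 : GQ → M2 (ResidueField 𝒪)) c = !![0, 0; 1, 0] := by
    have hN : (!![0, 0; 1, 0] : M2 (ResidueField 𝒪)) ∈
        Submodule.span (ResidueField 𝒪) (Set.range D.M0) := by rw [htop]; trivial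
    rw [Finsupp.mem_span_range_iff_exists_finsupp] at hN
    obtain ⟨d, hd⟩ := hN
    choose s hs using fun x : ResidueField 𝒪 => residue_surjective x
    refine ⟨∑ g ∈ d.support, Finsupp.single g (s (d g)), ?_⟩
    rw [← hd]
    simp only [evalComb]
    rw [← Finsupp.sum_finsetSum_index (fun g => zero_smul 𝒪 (D.M0 g))
      (fun g x y => add_smul x y (D.M0 g)), Finsupp.sum]
    refine Finset.sum_congr rfl fun g _ => ?_
    rw [Finsupp.sum_single_index (zero_smul 𝒪 (D.M0 g))]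
    conv_rhs => rw [← hs (d g), ← ResidueField.algebraMap_eq, algebraMap_smul]
  have hred := isReduced_heckeLocal θ hNS
  have : Fintype (minimalPrimes (heckeLocal N (↑S : Set ℕ) 𝒪 θ)) :=
    (minimalPrimes.finite_of_isNoetherianRing (heckeLocal N (↑S : Set ℕ) 𝒪 θ)).fintype
  -- representations at the points
  have hpt : ∀ P : minimalPrimes (heckeLocal N (↑S : Set ℕ) 𝒪 θ),
      ∃ (O' : Type) (_ : CommRing O') (_ : IsLocalRing O')
      (_ : IsAdicComplete (maximalIdeal O') O')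
      (_ : Algebra 𝒪 O') (_ : Module.Finite 𝒪 O') (_ : IsLocalHom (algebraMap 𝒪 O'))
      (x : (heckeLocal N (↑S : Set ℕ) 𝒪 θ) →ₐ[𝒪] O'), (∀ z, x z = 0 → z ∈ P.1) ∧
        ∃ M : GQ →* M2 O', MatCont M ∧
        AreConj (mapRep (residue O') M)
          (mapRep (ResidueField.map (algebraMap 𝒪 O')) D.M0) ∧
        ∀ (ℓ : ℕ) (hℓ : ℓ.Prime) (hℓS : ℓ ∉ (↑S : Set ℕ)),
          ∀ A : ValuationSubring ℚbar, A.LiesOverPrime ℓ → ∀ σ : GQ, A.IsFrobeniusAt σ ℓ →
            (M σ).trace = x (heckeLocal.π N (↑S : Set ℕ) 𝒪 θ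
              (heckeAlgebra.T hℓ (fun h => hℓS (hNS ℓ hℓ h)) hℓS)) ∧ (M σ).det = (ℓ : O') := by
    rintro ⟨P, hP⟩
    have := hP.1.1
    obtain ⟨O₁, _, _, _, _, _, _, _, _, _, x₁, hx₁⟩ :=
      exists_dvr_of_domain (𝒪 := 𝒪) ((heckeLocal N (↑S : Set ℕ) 𝒪 θ) ⧸ P)
      (injective_quotient_minimalPrime (heckeLocal N (↑S : Set ℕ) 𝒪 θ) P hP)
    let χ : heckeAlgebra N 2 (↑S : Set ℕ) →+* O₁ :=
      ((x₁ : ((heckeLocal N (↑S : Set ℕ) 𝒪 θ) ⧸ P) →+* O₁).comp (Ideal.Quotient.mk P)).comp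
        (heckeLocal.π N (↑S : Set ℕ) 𝒪 θ)
    have hp1 : (p : O₁) ∈ maximalIdeal O₁ := by
      rw [← map_natCast (algebraMap 𝒪 O₁)]
      exact map_nonunit (algebraMap 𝒪 O₁) _ hp𝒪
    obtain ⟨O₂, _, _, _, _, _, _, _, _, _, hinj2, ρ, hρ, -⟩ := hin S hpS hNS O₁ hp1 χ
    let : Algebra 𝒪 O₂ := ((algebraMap O₁ O₂).comp (algebraMap 𝒪 O₁)).toAlgebra
    have : IsScalarTower 𝒪 O₁ O₂ := IsScalarTower.of_algebraMap_eq fun _ => rfl
    have : Module.Finite 𝒪 O₂ := Module.Finite.trans O₁ O₂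
    have : IsLocalHom (algebraMap 𝒪 O₂) := RingHom.isLocalHom_comp _ _
    let x : (heckeLocal N (↑S : Set ℕ) 𝒪 θ) →ₐ[𝒪] O₂ :=
      ((IsScalarTower.toAlgHom 𝒪 O₁ O₂).comp x₁).comp
      (Ideal.Quotient.mkₐ 𝒪 P)
    have := Glue.isLocalHom_algHom (𝒪 := 𝒪) x
    obtain ⟨M, hM⟩ := exists_isMatrixRep ρ
    have htd : ∀ (ℓ : ℕ) (hℓ : ℓ.Prime) (hℓS : ℓ ∉ (↑S : Set ℕ)),
        ∀ A : ValuationSubring ℚbar, A.LiesOverPrime ℓ → ∀ σ : GQ, A.IsFrobeniusAt σ ℓ →
          (M σ).trace = x (heckeLocal.π N (↑S : Set ℕ) 𝒪 θ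
            (heckeAlgebra.T hℓ (fun h => hℓS (hNS ℓ hℓ h)) hℓS)) ∧ (M σ).det = (ℓ : O₂) := by
      intro ℓ hℓ hℓS A hA σ hσ
      obtain ⟨b, hb⟩ := hM
      have h := hρ ℓ hℓ (fun h => hℓS (hNS ℓ hℓ h)) hℓS A hA σ hσ
      rw [← LinearMap.charpoly_toMatrix (ρ.ρ σ) b, hb, Matrix.charpoly_fin_two] at h
      constructor
      · have h1 := congrArg (fun q : O₂[X] => q.coeff 1) h
        simp [coeff_X_pow, coeff_C] at h1
        exact h1
      · have h0 := congrArg (fun q : O₂[X] => q.coeff 0) h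
        simpa [coeff_X_pow] using h0
    refine ⟨O₂, inferInstance, inferInstance, inferInstance, inferInstance, inferInstance,
      inferInstance, x, fun z hz => ?_, M, hM.matCont, ?_, htd⟩
    · rw [← Ideal.Quotient.eq_zero_iff_mem]
      exact hx₁ (hinj2 (by rw [map_zero, map_zero]; exact hz))
    · let ι := ResidueField.map (algebraMap 𝒪 O₂)
      have hab : (ρbar.baseChangeAlong ι).IsAbsolutelyIrreducible :=
        isAbsolutelyIrreducible_of_span (hD.baseChangeAlong ι) (span_map_eq_top ι htop)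
      have heq := Density.residual_isEquiv_of_forall_frobenius (ρbar.baseChangeAlong ι) ρ.residual
        hab (↑S : Set ℕ) S.finite_toSet fun ℓ hℓ hℓS A hA σ hσ => ?_
      · exact areConj_symm ((isResEquiv_iff_areConj (hD.baseChangeAlong ι) hM.residual).mp heq)
      · obtain ⟨b₀, hb₀⟩ := hD.baseChangeAlong ι
        obtain ⟨b, hb⟩ := hM.residual
        obtain ⟨b', hb'⟩ := hD
        rw [← LinearMap.charpoly_toMatrix _ b₀, ← LinearMap.charpoly_toMatrix _ b, hb₀, hb]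
        have h0 := hρbar ℓ hℓ (fun h => hℓS (hNS ℓ hℓ h)) hℓS A hA σ hσ
        rw [← LinearMap.charpoly_toMatrix _ b', hb'] at h0
        obtain ⟨htr, hdet⟩ := htd ℓ hℓ hℓS A hA σ hσ
        rw [mapRep_apply, mapRep_apply, Matrix.charpoly_map, h0, Matrix.charpoly_map,
          Matrix.charpoly_fin_two, htr, hdet]
        simp only [Polynomial.map_add, Polynomial.map_sub, Polynomial.map_mul, Polynomial.map_pow,
          Polynomial.map_X, Polynomial.map_C, map_natCast, Polynomial.map_natCast]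
        have key : residue O₂ (x (heckeLocal.π N (↑S : Set ℕ) 𝒪 θ
            (heckeAlgebra.T hℓ (fun h => hℓS (hNS ℓ hℓ h)) hℓS))) =
            ι (θ (heckeAlgebra.T hℓ (fun h => hℓS (hNS ℓ hℓ h)) hℓS)) := by
          show residue O₂ ((x : (heckeLocal N (↑S : Set ℕ) 𝒪 θ) →+* O₂) _) = _
          rw [← ResidueField.map_residue, residue_π]
          obtain ⟨a, ha⟩ := residue_surjective
            (θ (heckeAlgebra.T hℓ (fun h => hℓS (hNS ℓ hℓ h)) hℓS))
          rw [← ha]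
          show residue O₂ (x (algebraMap 𝒪 (heckeLocal N (↑S : Set ℕ) 𝒪 θ) a)) =
            residue O₂ (algebraMap 𝒪 O₂ a)
          rw [x.commutes]
        rw [key]
  choose O iC iL iAC iA iF iLH x hx M hMc hMr hMf using hpt
  have : IsAdicComplete (maximalIdeal (heckeLocal N (↑S : Set ℕ) 𝒪 θ))
      (heckeLocal N (↑S : Set ℕ) 𝒪 θ) :=
    heckeLocal.instIsAdicComplete N (↑S : Set ℕ) 𝒪 θ
  have hinj : ∀ z, (∀ P, x P z = 0) → z = 0 := by
    intro z hz
    have h1 : z ∈ sInf (minimalPrimes (heckeLocal N (↑S : Set ℕ) 𝒪 θ)) :=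
      Ideal.mem_sInf.mpr fun {P} hP => hx ⟨P, hP⟩ z (hz _)
    have h2 : sInf (minimalPrimes (heckeLocal N (↑S : Set ℕ) 𝒪 θ)) =
        (⊥ : Ideal (heckeLocal N (↑S : Set ℕ) 𝒪 θ)) := by
      rw [show minimalPrimes (heckeLocal N (↑S : Set ℕ) 𝒪 θ) =
          (⊥ : Ideal (heckeLocal N (↑S : Set ℕ) 𝒪 θ)).minimalPrimes from rfl,
        Ideal.sInf_minimalPrimes]
      exact nilradical_eq_zero (heckeLocal N (↑S : Set ℕ) 𝒪 θ)
    rwa [h2, Ideal.mem_bot] at h1
  let t : ℕ → (heckeLocal N (↑S : Set ℕ) 𝒪 θ) := fun ℓ =>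
    if h : ℓ.Prime ∧ ℓ ∉ (↑S : Set ℕ) then
      heckeLocal.π N (↑S : Set ℕ) 𝒪 θ
        (heckeAlgebra.T h.1 (fun hd => h.2 (hNS ℓ h.1 hd)) h.2) else 0
  obtain ⟨R, hRc, hRn, hRf, -⟩ := Glue.exists_glue D c hc x hinj M hMc hMr (↑S : Set ℕ)
    S.finite_toSet t fun P ℓ hℓ hℓS A hA σ hσ => by
      rw [show t ℓ = _ from dif_pos ⟨hℓ, hℓS⟩]
      exact hMf P ℓ hℓ hℓS A hA σ hσ
  let ρ := ofMatrix R hRc
  have hρM : IsMatrixRep ρ R := isMatrixRep_ofMatrix R hRc
  have hequiv : ρ.residual.IsEquiv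
      (ρbar.baseChangeAlong (ResidueField.map (algebraMap 𝒪 (heckeLocal N (↑S : Set ℕ) 𝒪 θ)))) := by
    refine (isResEquiv_iff_areConj hρM.residual (hD.baseChangeAlong _)).mpr ?_
    rw [hRn.lift]
    exact AreConj.refl _
  have hirr : ρ.residual.IsAbsolutelyIrreducible := by
    refine isAbsolutelyIrreducible_of_span hρM.residual ?_
    rw [hRn.lift]
    exact span_map_eq_top _ htop
  refine ⟨{ π := heckeLocal.π N (↑S : Set ℕ) 𝒪 θ
            residue_π := residue_π θ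
            adjoin_range_π := adjoin_range_π θ
            exists_point := exists_point θ
            residue_surjective := residue_comp_surjective θ
            ρ := ρ
            charpoly_frob := fun ℓ hℓ hℓN hℓS A hA σ hσ => ?_
            residual_absIrr := hirr }, rfl, hequiv⟩
  obtain ⟨b, hb⟩ := hρM
  obtain ⟨htr, hdet⟩ := hRf ℓ hℓ hℓS A hA σ hσ
  rw [← LinearMap.charpoly_toMatrix (ρ.ρ σ) b, hb, Matrix.charpoly_fin_two, htr, hdet,
    show t ℓ = _ from dif_pos ⟨hℓ, hℓS⟩]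

end Datum

end Fermat.Agent.GalRep
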