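import Fermat.Agent.GalRep.Lattice
import Fermat.Agent.GalRep.CoeffRing
import Fermat.Agent.GalRep.ResidualDescent
import Fermat.Agent.Hecke.Duality
import Fermat.Agent.S22

/-!
# The residual representation of an eigenform

`exists_residual_of_datum`: the residual Galois representation attached to a normalised eigenform,
from a torsion datum.
-/

set_option autoImplicit false

noncomputable section

namespace Fermat.Agent.GalRep

open Polynomial IsLocalRing CuspForm

local notation "ℚbar" => AlgebraicClosure ℚ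
local notation "Γℚbar" => AlgebraicClosure ℚ ≃ₐ[ℚ] AlgebraicClosure ℚ

variable {N : ℕ} [NeZero N]

theorem isIntegral_eigenCharacter {g : CuspForm (CongruenceSubgroup.Gamma0 N) 2}
    (hg : g.IsNormalizedEigenform) (t : heckeAlgebra N 2 ∅) :
    IsIntegral ℤ (Hecke.eigenCharacter hg ∅ t) := by
  have := Fermat.Agent.S22.result N 2 ∅
  exact map_isIntegral_int _ (Algebra.IsIntegral.isIntegral t)

/-- The eigen character with values in the ring of algebraic integers. -/
def eigenCharacterInt {g : CuspForm (CongruenceSubgroup.Gamma0 N) 2}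
    (hg : g.IsNormalizedEigenform) : heckeAlgebra N 2 ∅ →+* integralClosure ℤ ℂ :=
  (Hecke.eigenCharacter hg ∅).codRestrict (integralClosure ℤ ℂ).toSubring
    (isIntegral_eigenCharacter hg)

theorem eigenCharacterInt_heckeOp {g : CuspForm (CongruenceSubgroup.Gamma0 N) 2}
    (hg : g.IsNormalizedEigenform) (q : Nat.Primes) :
    (eigenCharacterInt hg (heckeOp N q) : ℂ) = ModularFormClass.qCoeff ⇑g q := by
  show Hecke.eigenCharacter hg ∅ (heckeOp N q) = _
  unfold heckeOp
  split_ifs with h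
  · exact Hecke.eigenCharacter_U hg q.2 h _
  · exact Hecke.eigenCharacter_T hg q.2 h _

/-- A torsion datum gives the residual representation attached to a normalised eigenform. -/
theorem exists_residual_of_datum {p : ℕ} [Fact p.Prime] (D : HeckeTorsionDatum N p)
    {g : CuspForm (CongruenceSubgroup.Gamma0 N) 2} (hg : g.IsNormalizedEigenform) {k : Type}
    [Field k] [CharP k p] (φ : integralClosure ℤ ℂ →+* k) :
    ∃ ρ : ResidualGaloisRep k, ρ.IsAttachedTo g φ ∧
      ∀ ℓ : ℕ, ℓ.Prime → ¬ ℓ ∣ N * p → ρ.IsUnramifiedAt ℓ := by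
  classical
  have := Fermat.Agent.S22.result N 2 ∅
  let κ := eigenCharacterInt hg
  -- the order generated by the coefficients
  let R := κ.range
  let κR : heckeAlgebra N 2 ∅ →+* R := κ.rangeRestrict
  have : Module.Finite ℤ R :=
    Module.Finite.of_surjective κR.toIntAlgHom.toLinearMap κ.rangeRestrict_surjective
  let ψ : R →+* k := φ.comp R.subtype
  let P : Ideal R := RingHom.ker ψ
  have : P.IsPrime := RingHom.ker_isPrime ψ
  have hpP : (p : R) ∈ P := by
    show ψ p = 0
    rw [map_natCast, CharP.cast_eq_zero]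
  have : Finite (R ⧸ P) := by
    have : AddGroup.FG (R ⧸ P) :=
      Module.Finite.iff_addGroup_fg.mp (Module.Finite.of_surjective
        (Ideal.Quotient.mk P).toIntAlgHom.toLinearMap Ideal.Quotient.mk_surjective)
    refine AddCommGroup.finite_of_fg_isAddTorsion (R ⧸ P) fun x => ?_
    refine isOfFinAddOrder_iff_nsmul_eq_zero.mpr ⟨p, (Fact.out : p.Prime).pos, ?_⟩
    rw [nsmul_eq_mul, ← map_natCast (Ideal.Quotient.mk P),
      Ideal.Quotient.eq_zero_iff_mem.mpr hpP, zero_mul]
  have : IsDomain (R ⧸ P) := Ideal.Quotient.isDomain P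
  have hfield : IsField (R ⧸ P) := Finite.isDomain_to_isField (R ⧸ P)
  have : P.IsMaximal := (Ideal.Quotient.maximal_ideal_iff_isField_quotient P).mpr hfield
  let : Field (R ⧸ P) := Ideal.Quotient.field P
  obtain ⟨O, iO1, iO2, iO3, iO4, iO5, iO6, ι, hpO, hι⟩ := exists_coeff_ring p R P hpP
  let S : Finset ℕ := insert p N.primeFactors
  have hNS : ∀ q : ℕ, q.Prime → q ∣ N → q ∈ S := fun q hq hqN =>
    Finset.mem_insert_of_mem (Nat.mem_primeFactors.mpr ⟨hq, hqN, NeZero.ne N⟩)
  obtain ⟨ρ, hρ, hun⟩ := exists_rep_of_eigensystem D S (Finset.mem_insert_self _ _) hNS O hpO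
    (ι.comp κR)
  let e : R ⧸ P →+* ResidueField O := Ideal.Quotient.lift P ((residue O).comp ι) fun x hx => by
    rw [RingHom.comp_apply, residue_eq_zero_iff]
    exact (hι x).mpr hx
  let j : R ⧸ P →+* k := Ideal.Quotient.lift P ψ fun x hx => hx
  let a : ℕ → R ⧸ P := fun ℓ =>
    if h : ℓ.Prime then Ideal.Quotient.mk P (κR (heckeOp N ⟨ℓ, h⟩)) else 0
  obtain ⟨ρk, hρk, hone⟩ := exists_residual_of_adic ρ e j S a fun ℓ hℓ hℓS A hA σ hσ => by
    show LinearMap.charpoly ((ρ.ρ σ).baseChange (ResidueField O)) = _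
    rw [LinearMap.charpoly_baseChange, hρ ℓ hℓ hℓS A hA σ hσ]
    simp only [a, dif_pos hℓ, e, Ideal.Quotient.lift_mk, RingHom.comp_apply]
    simp [Polynomial.map_sub, Polynomial.map_add, Polynomial.map_mul, Polynomial.map_pow]
  refine ⟨ρk, ?_, fun ℓ hℓ hℓNp A hA σ hσ => ?_⟩
  · intro ℓ hℓ hℓN hℓk A hA σ hσ
    have hℓS : ℓ ∉ S := by
      simp only [S, Finset.mem_insert, Nat.mem_primeFactors, not_or]
      exact ⟨fun h => hℓk (by rw [h, CharP.cast_eq_zero]), fun h => hℓN h.2.1⟩
    refine ⟨κ (heckeOp N ⟨ℓ, hℓ⟩), eigenCharacterInt_heckeOp hg ⟨ℓ, hℓ⟩, ?_⟩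
    rw [hρk ℓ hℓ hℓS A hA σ hσ]
    simp only [a, dif_pos hℓ, j, Ideal.Quotient.lift_mk]
    rfl
  · exact hone σ (hun ℓ hℓ (fun h => hℓNp (dvd_mul_of_dvd_left h p))
      (fun h => hℓNp (h ▸ dvd_mul_left ℓ N)) A hA σ hσ)

end Fermat.Agent.GalRep
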